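/-
S55 (Poitou–Tate), package PT3 (arithmetic modules), helper7.
PT3.a: the maximal extension `ℚ_S` of `ℚ` unramified outside `S` inside `AlgebraicClosure ℚ`,
in the Prelude's valuation-subring language; its finite Galois levels.
-/
import Mathlib
import Fermat.Prelude.Def_GroupCohomology_ContinuousUnramified
import Fermat.Agent.Tate.Inertia

set_option autoImplicit false
set_option linter.unusedSectionVars false
set_option linter.style.haveILetI false

open scoped Pointwise

namespace Fermat.Agent.CFT.Arith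

/-! ### The inertia subgroup of a valuation subring, concretely -/

section inertia

variable {K L : Type*} [Field K] [Field L] [Algebra K L] {A : ValuationSubring L}

/-- concrete description of the Prelude's inertia subgroup. -/
theorem mem_inertiaSubgroupIn_iff {σ : L ≃ₐ[K] L} :
    σ ∈ A.inertiaSubgroupIn K ↔ σ • A = A ∧ ∀ a ∈ A, σ a - a ∈ A.nonunits := by
  constructor
  · intro hσ
    refine ⟨?_, fun a ha => (Fermat.Agent.Tate.inertia_map_mem_and_sub_mem hσ ha).2⟩
    obtain ⟨τ, -, rfl⟩ := hσ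
    exact τ.2
  · rintro ⟨h1, h2⟩
    refine ⟨⟨σ, h1⟩, ?_, rfl⟩
    change MulSemiringAction.toRingAut (A.decompositionSubgroup K)
      (IsLocalRing.ResidueField A) ⟨σ, h1⟩ = 1
    ext x
    obtain ⟨a, rfl⟩ := IsLocalRing.residue_surjective x
    change (⟨σ, h1⟩ : A.decompositionSubgroup K) • IsLocalRing.residue A a =
      IsLocalRing.residue A a
    rw [← IsLocalRing.ResidueField.residue_smul, ← sub_eq_zero, ← map_sub,
      IsLocalRing.residue_eq_zero_iff]
    have h3 := h2 a a.2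
    rw [ValuationSubring.mem_nonunits_iff_exists_mem_maximalIdeal] at h3
    obtain ⟨ha, hm⟩ := h3
    convert hm using 1
    exact Subtype.ext rfl

theorem mem_nonunits_smul_iff (τ : L ≃ₐ[K] L) {x : L} :
    x ∈ (τ • A).nonunits ↔ τ⁻¹ x ∈ A.nonunits := by
  rw [ValuationSubring.mem_nonunits_iff_or, ValuationSubring.mem_nonunits_iff_or,
    ValuationSubring.mem_pointwise_smul_iff_inv_smul_mem]
  have h1 : τ⁻¹ x = 0 ↔ x = 0 := by
    constructor
    · intro h
      have := congrArg τ h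
      rwa [map_zero, ← AlgEquiv.mul_apply, mul_inv_cancel] at this
    · rintro rfl
      exact map_zero _
  rw [h1, AlgEquiv.smul_def, map_inv₀]

theorem mem_unitGroup_smul_iff (τ : L ≃ₐ[K] L) {x : Lˣ} :
    x ∈ (τ • A).unitGroup ↔ Units.map (τ⁻¹ : L ≃ₐ[K] L).toAlgHom.toRingHom.toMonoidHom x
      ∈ A.unitGroup := by
  have key : ∀ (B : ValuationSubring L) (y : Lˣ), y ∈ B.unitGroup ↔
      (y : L) ∈ B ∧ ((y⁻¹ : Lˣ) : L) ∈ B := by
    intro B y
    rw [ValuationSubring.mem_unitGroup_iff]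
    constructor
    · intro h
      refine ⟨(B.valuation_le_one_iff _).mp h.le, (B.valuation_le_one_iff _).mp ?_⟩
      rw [Units.val_inv_eq_inv_val, map_inv₀, h, inv_one]
    · rintro ⟨h1, h2⟩
      have h3 := (B.valuation_le_one_iff _).mpr h1
      have h4 := (B.valuation_le_one_iff _).mpr h2
      rw [Units.val_inv_eq_inv_val, map_inv₀] at h4
      have hne : B.valuation (y : L) ≠ 0 := (Valuation.ne_zero_iff _).mpr y.ne_zero
      exact le_antisymm h3 ((inv_le_one₀ (zero_lt_iff.mpr hne)).mp h4)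
  rw [key, key, ValuationSubring.mem_pointwise_smul_iff_inv_smul_mem,
    ValuationSubring.mem_pointwise_smul_iff_inv_smul_mem]
  rfl

/-- the inertia subgroup of a conjugate valuation subring. -/
theorem mem_inertiaSubgroupIn_smul_iff (τ σ : L ≃ₐ[K] L) :
    σ ∈ (τ • A).inertiaSubgroupIn K ↔ τ⁻¹ * σ * τ ∈ A.inertiaSubgroupIn K := by
  rw [mem_inertiaSubgroupIn_iff, mem_inertiaSubgroupIn_iff]
  constructor
  · rintro ⟨h1, h2⟩
    refine ⟨?_, fun a ha => ?_⟩
    · rw [mul_smul, mul_smul, h1, inv_smul_smul]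
    · have h3 := h2 (τ a) (ValuationSubring.smul_mem_pointwise_smul τ a A ha)
      rw [mem_nonunits_smul_iff, map_sub] at h3
      have h4 : τ⁻¹ (τ a) = a := by
        rw [← AlgEquiv.mul_apply, inv_mul_cancel]; rfl
      rw [h4] at h3
      exact h3
  · rintro ⟨h1, h2⟩
    refine ⟨?_, fun a ha => ?_⟩
    · have : σ • τ • A = τ • ((τ⁻¹ * σ * τ) • A) := by
        rw [← mul_smul, ← mul_smul, ← mul_assoc, ← mul_assoc, mul_inv_cancel, one_mul]
      rw [this, h1]
    · rw [ValuationSubring.mem_pointwise_smul_iff_inv_smul_mem] at ha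
      have h3 := h2 _ ha
      rw [mem_nonunits_smul_iff, map_sub]
      have h4 : τ⁻¹ (σ a) = (τ⁻¹ * σ * τ) (τ⁻¹ • a) := by
        rw [AlgEquiv.smul_def, AlgEquiv.mul_apply, AlgEquiv.mul_apply, ← AlgEquiv.mul_apply τ,
          mul_inv_cancel]
        rfl
      rw [h4]
      exact h3

theorem liesOverPrime_smul_iff (τ : L ≃ₐ[K] L) (q : ℕ) :
    (τ • A).LiesOverPrime q ↔ A.LiesOverPrime q := by
  rw [ValuationSubring.LiesOverPrime, ValuationSubring.LiesOverPrime, mem_nonunits_smul_iff,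
    map_natCast]

end inertia

/-! ### `ℚ_S` -/

section QS

/-- `Ω = AlgebraicClosure ℚ`. -/
local notation "Ω" => AlgebraicClosure ℚ
/-- `Γ = Gal(Ω/ℚ)`. -/
local notation "Γ" => (AlgebraicClosure ℚ ≃ₐ[ℚ] AlgebraicClosure ℚ)

variable (S : Finset Nat.Primes)

/-- The maximal extension of `ℚ` unramified outside `S`, inside `AlgebraicClosure ℚ`: the union of
the finite extensions unramified outside `S` (in the Prelude's sense). -/
def QS : IntermediateField ℚ Ω where
  carrier := {x | ∃ F : IntermediateField ℚ Ω, F.IsUnramifiedOutside S ∧ x ∈ F}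
  mul_mem' := by
    rintro _ _ ⟨F, hF, hx⟩ ⟨F', hF', hy⟩
    exact ⟨F ⊔ F', hF.sup hF', mul_mem ((le_sup_left : F ≤ F ⊔ F') hx)
      ((le_sup_right : F' ≤ F ⊔ F') hy)⟩
  add_mem' := by
    rintro x y ⟨F, hF, hx⟩ ⟨F', hF', hy⟩
    exact ⟨F ⊔ F', hF.sup hF', add_mem ((le_sup_left : F ≤ F ⊔ F') hx)
      ((le_sup_right : F' ≤ F ⊔ F') hy)⟩
  algebraMap_mem' r := ⟨⊥, IntermediateField.isUnramifiedOutside_bot S, algebraMap_mem _ r⟩
  inv_mem' := by
    rintro _ ⟨F, hF, hx⟩
    exact ⟨F, hF, inv_mem hx⟩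

variable {S}

theorem mem_QS_iff {x : Ω} :
    x ∈ QS S ↔ ∃ F : IntermediateField ℚ Ω, F.IsUnramifiedOutside S ∧ x ∈ F := Iff.rfl

theorem le_QS {F : IntermediateField ℚ Ω} (hF : F.IsUnramifiedOutside S) : F ≤ QS S :=
  fun x hx => ⟨F, hF, hx⟩

/-- a finite extension inside `ℚ_S` is unramified outside `S`. -/
theorem isUnramifiedOutside_of_le_QS {F : IntermediateField ℚ Ω} [FiniteDimensional ℚ F]
    (hF : F ≤ QS S) : F.IsUnramifiedOutside S := by
  obtain ⟨α, hα⟩ := Field.exists_primitive_element ℚ F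
  obtain ⟨F', hF', hαF'⟩ := hF α.2
  refine hF'.of_le ?_
  have h1 : F = IntermediateField.adjoin ℚ {(α : Ω)} := by
    have h := congrArg IntermediateField.lift hα
    exact ((IntermediateField.lift_adjoin_simple ℚ F α).symm.trans
      (h.trans (IntermediateField.lift_top ℚ F))).symm
  rw [h1, IntermediateField.adjoin_le_iff]
  rintro _ rfl
  exact hαF'

theorem isUnramifiedOutside_iff_le_QS {F : IntermediateField ℚ Ω} [FiniteDimensional ℚ F] :
    F.IsUnramifiedOutside S ↔ F ≤ QS S :=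
  ⟨le_QS, isUnramifiedOutside_of_le_QS⟩

/-- conjugates of fields unramified outside `S` are unramified outside `S`. -/
theorem isUnramifiedOutside_map {F : IntermediateField ℚ Ω} (hF : F.IsUnramifiedOutside S)
    (σ : Γ) : (F.map (σ : Ω →ₐ[ℚ] Ω)).IsUnramifiedOutside S := by
  haveI := hF.1
  refine ⟨?_, fun q hq A hA τ hτ => ?_⟩
  · exact LinearEquiv.finiteDimensional (IntermediateField.equivMap F (σ : Ω →ₐ[ℚ] Ω)).toLinearEquiv
  · have h1 : σ⁻¹ * τ * σ ∈ (σ⁻¹ • A).inertiaSubgroupIn ℚ := by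
      rw [mem_inertiaSubgroupIn_smul_iff]
      simpa [mul_assoc] using hτ
    have h2 := hF.2 q hq (σ⁻¹ • A) ((liesOverPrime_smul_iff σ⁻¹ q).mpr hA) h1
    rw [IntermediateField.mem_fixingSubgroup_iff] at h2 ⊢
    rintro _ ⟨x, hx, rfl⟩
    have h3 := h2 x hx
    have h4 : (σ⁻¹ * τ * σ) x = σ⁻¹ (τ (σ x)) := rfl
    rw [h4] at h3
    have h5 := congrArg σ h3
    rw [← AlgEquiv.mul_apply, mul_inv_cancel] at h5
    exact h5

theorem map_mem_QS (σ : Γ) {x : Ω} (hx : x ∈ QS S) : σ x ∈ QS S := by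
  obtain ⟨F, hF, hxF⟩ := hx
  exact ⟨_, isUnramifiedOutside_map hF σ, ⟨x, hxF, rfl⟩⟩

/-! ### Levels: finite Galois extensions of `ℚ` unramified outside `S` -/

instance isAlgebraicOmega : Algebra.IsAlgebraic ℚ Ω := AlgebraicClosure.isAlgebraic ℚ
instance isAlgClosureOmega : IsAlgClosure ℚ Ω := ⟨inferInstance, inferInstance⟩
instance normalOmega : Normal ℚ Ω := IsAlgClosure.normal ℚ Ω
instance isGaloisOmega : IsGalois ℚ Ω := IsAlgClosure.isGalois ℚ Ω

variable (S) in
/-- A *level* for `S`: a finite Galois extension of `ℚ` inside `Ω`, unramified outside `S`.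
(Galois is expressed concretely: stable under `Γ`.) -/
def IsLevel (F : IntermediateField ℚ Ω) : Prop :=
  F.IsUnramifiedOutside S ∧ ∀ σ : Γ, ∀ x ∈ F, σ x ∈ F

theorem isLevel_bot : IsLevel S (⊥ : IntermediateField ℚ Ω) := by
  refine ⟨IntermediateField.isUnramifiedOutside_bot S, fun σ x hx => ?_⟩
  obtain ⟨r, rfl⟩ := IntermediateField.mem_bot.1 hx
  rw [σ.commutes]
  exact algebraMap_mem _ r

theorem IsLevel.finiteDimensional {F : IntermediateField ℚ Ω} (hF : IsLevel S F) :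
    FiniteDimensional ℚ F := hF.1.1

theorem IsLevel.map_le {F : IntermediateField ℚ Ω} (hF : IsLevel S F) (σ : Γ) :
    F.map (σ : Ω →ₐ[ℚ] Ω) ≤ F := by
  rintro _ ⟨x, hx, rfl⟩
  exact hF.2 σ x hx

theorem IsLevel.sup {F F' : IntermediateField ℚ Ω} (hF : IsLevel S F) (hF' : IsLevel S F') :
    IsLevel S (F ⊔ F') := by
  refine ⟨hF.1.sup hF'.1, fun σ x hx => ?_⟩
  have h1 : (F ⊔ F').map (σ : Ω →ₐ[ℚ] Ω) ≤ F ⊔ F' := by
    rw [IntermediateField.map_sup]
    exact sup_le_sup (hF.map_le σ) (hF'.map_le σ)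
  exact h1 ⟨x, hx, rfl⟩

theorem IsLevel.mono {S' : Finset Nat.Primes} (h : S ⊆ S') {F : IntermediateField ℚ Ω}
    (hF : IsLevel S F) : IsLevel S' F := ⟨hF.1.mono h, hF.2⟩

theorem IsLevel.le_QS {F : IntermediateField ℚ Ω} (hF : IsLevel S F) : F ≤ QS S :=
  Fermat.Agent.CFT.Arith.le_QS hF.1

/-- every finite extension unramified outside `S` lies in a level. -/
theorem exists_isLevel_ge {F : IntermediateField ℚ Ω} (hF : F.IsUnramifiedOutside S) :
    ∃ F' : IntermediateField ℚ Ω, IsLevel S F' ∧ F ≤ F' := by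
  haveI := hF.1
  obtain ⟨α, hα⟩ := Field.exists_primitive_element ℚ F
  have h1 : F = IntermediateField.adjoin ℚ {(α : Ω)} := by
    have h := congrArg IntermediateField.lift hα
    exact ((IntermediateField.lift_adjoin_simple ℚ F α).symm.trans
      (h.trans (IntermediateField.lift_top ℚ F))).symm
  have hint : IsIntegral ℚ (α : Ω) := (Algebra.IsAlgebraic.isAlgebraic (α : Ω)).isIntegral
  set R : Set Ω := (minpoly ℚ (α : Ω)).rootSet Ω with hR
  have hαR : (α : Ω) ∈ R := by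
    rw [hR, Polynomial.mem_rootSet]
    exact ⟨minpoly.ne_zero hint, minpoly.aeval ℚ _⟩
  -- every root is a conjugate of `α`
  have hconj : ∀ β ∈ R, ∃ σ : Γ, σ (α : Ω) = β := by
    intro β hβ
    rw [hR, Polynomial.mem_rootSet] at hβ
    exact minpoly.exists_algEquiv_of_root' (Algebra.IsAlgebraic.isAlgebraic (α : Ω)) hβ.2
  have hstab : ∀ σ : Γ, ∀ β ∈ R, σ β ∈ R := by
    intro σ β hβ
    rw [hR, Polynomial.mem_rootSet] at hβ ⊢
    refine ⟨hβ.1, ?_⟩
    rw [Polynomial.aeval_algEquiv, AlgHom.coe_comp, Function.comp_apply, hβ.2]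
    exact map_zero _
  haveI : Finite R := (Polynomial.rootSet_finite _ Ω)
  have hRint : ∀ x ∈ R, IsIntegral ℚ x :=
    fun x _ => (Algebra.IsAlgebraic.isAlgebraic x).isIntegral
  have hfd : FiniteDimensional ℚ (IntermediateField.adjoin ℚ R) :=
    IntermediateField.finiteDimensional_adjoin hRint
  refine ⟨IntermediateField.adjoin ℚ R, ⟨?_, ?_⟩, ?_⟩
  · haveI := hfd
    apply isUnramifiedOutside_of_le_QS
    rw [IntermediateField.adjoin_le_iff]
    intro β hβ
    obtain ⟨σ, rfl⟩ := hconj β hβ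
    exact map_mem_QS σ ⟨F, hF, α.2⟩
  · intro σ x hx
    have h2 : (IntermediateField.adjoin ℚ R).map (σ : Ω →ₐ[ℚ] Ω) ≤ IntermediateField.adjoin ℚ R := by
      rw [IntermediateField.adjoin_map, IntermediateField.adjoin_le_iff]
      rintro _ ⟨β, hβ, rfl⟩
      exact IntermediateField.subset_adjoin ℚ R (hstab σ β hβ)
    exact h2 ⟨x, hx, rfl⟩
  · rw [h1, IntermediateField.adjoin_le_iff]
    rintro _ rfl
    exact IntermediateField.subset_adjoin ℚ R hαR

theorem exists_isLevel_mem {x : Ω} (hx : x ∈ QS S) :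
    ∃ F : IntermediateField ℚ Ω, IsLevel S F ∧ x ∈ F := by
  obtain ⟨F, hF, hxF⟩ := hx
  obtain ⟨F', hF', hle⟩ := exists_isLevel_ge hF
  exact ⟨F', hF', hle hxF⟩

/-- the fixing subgroup of a level is normal. -/
theorem IsLevel.normal_fixingSubgroup {F : IntermediateField ℚ Ω} (hF : IsLevel S F) :
    (F.fixingSubgroup).Normal := by
  constructor
  intro τ hτ σ
  rw [IntermediateField.mem_fixingSubgroup_iff] at hτ ⊢
  intro x hx
  have h1 := hτ (σ⁻¹ x) (hF.2 σ⁻¹ x hx)
  change σ (τ (σ⁻¹ x)) = x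
  rw [h1, ← AlgEquiv.mul_apply, mul_inv_cancel]
  rfl

/-- a level is a normal extension of `ℚ`. -/
theorem IsLevel.normal {F : IntermediateField ℚ Ω} (hF : IsLevel S F) : Normal ℚ F :=
  IntermediateField.normal_iff_forall_map_le'.mpr fun σ => hF.map_le σ

theorem IsLevel.isGalois {F : IntermediateField ℚ Ω} (hF : IsLevel S F) : IsGalois ℚ F := by
  haveI := hF.normal
  exact ⟨⟩

end QS

end Fermat.Agent.CFT.Arith
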