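/-
S55 (Poitou–Tate), package PT3 (arithmetic modules), helper7.
PT3.b: the group `E_S` of `S`-units of `ℚ_S`, as a `Γ`-stable subgroup of `(AlgebraicClosure ℚ)ˣ`;
it is `p`-divisible when `p ∈ S`, and contains `μ_p`.
-/
import Fermat.Agent.CFT.Arith.QS_helper7

set_option autoImplicit false
set_option linter.unusedSectionVars false
set_option linter.style.haveILetI false

open scoped Pointwise

namespace Fermat.Agent.CFT.Arith

/-! ### Roots of unity and residue characteristic -/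

section roots

variable {L : Type*} [Field L] {A : ValuationSubring L}

theorem mem_of_pow_mem {x : L} {n : ℕ} (hn : n ≠ 0) (h : x ^ n ∈ A) : x ∈ A := by
  rw [← A.valuation_le_one_iff] at h ⊢
  rw [map_pow] at h
  exact (pow_le_one_iff_of_nonneg zero_le hn).mp h

theorem mem_unitGroup_of_pow_mem {x : Lˣ} {n : ℕ} (hn : n ≠ 0) (h : x ^ n ∈ A.unitGroup) :
    x ∈ A.unitGroup := by
  rw [ValuationSubring.mem_unitGroup_iff] at h ⊢
  rw [Units.val_pow_eq_pow_val, map_pow] at h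
  exact (pow_eq_one_iff_of_nonneg zero_le hn).mp h

/-- a `p`-th root of unity congruent to `1` modulo a valuation subring of residue characteristic
`q ≠ p` is `1`. -/
theorem eq_one_of_pow_eq_one_of_sub_one_mem_nonunits {p q : ℕ} (hp : p.Prime) (hq : q.Prime)
    (hpq : p ≠ q) (hA : A.LiesOverPrime q) {ζ : L} (hζ : ζ ^ p = 1)
    (h : ζ - 1 ∈ A.nonunits) : ζ = 1 := by
  by_contra hne
  have hprim : IsPrimitiveRoot ζ p := by
    rw [IsPrimitiveRoot.iff_def]
    refine ⟨hζ, fun l hl => ?_⟩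
    have h1 : orderOf ζ ∣ p := orderOf_dvd_of_pow_eq_one hζ
    have h2 : orderOf ζ ∣ l := orderOf_dvd_of_pow_eq_one hl
    rcases (Nat.dvd_prime hp).mp h1 with h3 | h3
    · exact absurd (orderOf_eq_one_iff.mp h3) hne
    · rwa [h3] at h2
  obtain ⟨n, rfl⟩ : ∃ n, p = n + 1 := ⟨p - 1, (Nat.sub_add_cancel hp.one_le).symm⟩
  have hprod := hprim.prod_one_sub_pow_eq_order
  have hζA : ζ ∈ A := mem_of_pow_mem hp.ne_zero (by rw [hζ]; exact A.one_mem)
  -- `p` is a nonunit of `A`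
  have hpA : A.valuation ((n + 1 : ℕ) : L) < 1 := by
    have hn : 0 < n := by
      rcases Nat.eq_zero_or_pos n with rfl | h
      · exact absurd hp Nat.not_prime_one
      · exact h
    obtain ⟨m, rfl⟩ : ∃ m, n = m + 1 := ⟨n - 1, (Nat.sub_add_cancel hn).symm⟩
    rw [Finset.prod_range_succ', zero_add, pow_one] at hprod
    have hcast : (((m + 1 + 1 : ℕ)) : L) = ((m + 1 : ℕ) : L) + 1 := by push_cast; ring
    rw [hcast, ← hprod, map_mul]
    have h1 : A.valuation (∏ k ∈ Finset.range m, (1 - ζ ^ (k + 1 + 1))) ≤ 1 := by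
      rw [A.valuation_le_one_iff]
      exact A.toSubring.prod_mem fun k _ => A.sub_mem A.one_mem (A.pow_mem hζA _)
    have h2 : A.valuation (1 - ζ) < 1 := by
      rw [← ValuationSubring.mem_nonunits_iff]
      have : 1 - ζ = -(ζ - 1) := by ring
      rw [this]
      rw [ValuationSubring.mem_nonunits_iff, Valuation.map_neg, ← ValuationSubring.mem_nonunits_iff]
      exact h
    calc A.valuation (∏ k ∈ Finset.range m, (1 - ζ ^ (k + 1 + 1))) * A.valuation (1 - ζ)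
        ≤ 1 * A.valuation (1 - ζ) := mul_le_mul_left h1 _
      _ < 1 := by rwa [one_mul]
  have hqA : A.valuation (q : L) < 1 := A.mem_nonunits_iff.mp hA
  have hcop : Nat.Coprime (n + 1) q := (Nat.coprime_primes hp hq).mpr hpq
  obtain ⟨a, b, hab⟩ := Nat.Coprime.isCoprime hcop
  have h1 : A.valuation ((a * ((n + 1 : ℕ) : ℤ) + b * (q : ℤ) : ℤ) : L) < 1 := by
    push_cast
    apply Valuation.map_add_lt
    · rw [map_mul]
      calc A.valuation (a : L) * A.valuation ((n : L) + 1) ≤ 1 * A.valuation ((n : L) + 1) :=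
            mul_le_mul_left ((A.valuation_le_one_iff _).mpr (intCast_mem A a)) _
        _ < 1 := by rw [one_mul]; simpa using hpA
    · rw [map_mul]
      calc A.valuation (b : L) * A.valuation (q : L) ≤ 1 * A.valuation (q : L) :=
            mul_le_mul_left ((A.valuation_le_one_iff _).mpr (intCast_mem A b)) _
        _ < 1 := by rwa [one_mul]
  rw [hab, Int.cast_one, map_one] at h1
  exact lt_irrefl _ h1

end roots

/-! ### `E_S` -/

section ES

/-- `Ω = AlgebraicClosure ℚ`. -/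
local notation "Ω" => AlgebraicClosure ℚ
/-- `Γ = Gal(Ω/ℚ)`. -/
local notation "Γ" => (AlgebraicClosure ℚ ≃ₐ[ℚ] AlgebraicClosure ℚ)

variable (S : Finset Nat.Primes)

/-- The `S`-units of `ℚ_S`: elements of `ℚ_S^×` which are units at every valuation subring of
`AlgebraicClosure ℚ` lying over a prime outside `S`. -/
def ES : Subgroup Ωˣ where
  carrier := {x | (x : Ω) ∈ QS S ∧ ∀ q : Nat.Primes, q ∉ S → ∀ A : ValuationSubring Ω,
    A.LiesOverPrime (q : ℕ) → x ∈ A.unitGroup}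
  mul_mem' := by
    rintro x y ⟨hx1, hx2⟩ ⟨hy1, hy2⟩
    exact ⟨by rw [Units.val_mul]; exact mul_mem hx1 hy1,
      fun q hq A hA => mul_mem (hx2 q hq A hA) (hy2 q hq A hA)⟩
  one_mem' := ⟨by rw [Units.val_one]; exact one_mem _, fun q _ A _ => one_mem _⟩
  inv_mem' := by
    rintro x ⟨hx1, hx2⟩
    exact ⟨by rw [Units.val_inv_eq_inv_val]; exact inv_mem hx1,
      fun q hq A hA => inv_mem (hx2 q hq A hA)⟩

variable {S}

theorem mem_ES_iff {x : Ωˣ} : x ∈ ES S ↔ (x : Ω) ∈ QS S ∧ ∀ q : Nat.Primes, q ∉ S →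
    ∀ A : ValuationSubring Ω, A.LiesOverPrime (q : ℕ) → x ∈ A.unitGroup := Iff.rfl

/-- `E_S` is stable under `Γ`. -/
theorem smul_mem_ES (σ : Γ) {x : Ωˣ} (hx : x ∈ ES S) : σ • x ∈ ES S := by
  refine ⟨map_mem_QS σ hx.1, fun q hq A hA => ?_⟩
  have h1 := hx.2 q hq (σ⁻¹ • A) ((liesOverPrime_smul_iff σ⁻¹ q).mpr hA)
  rw [mem_unitGroup_smul_iff, inv_inv] at h1
  exact h1

theorem smul_mem_ES_iff (σ : Γ) {x : Ωˣ} : σ • x ∈ ES S ↔ x ∈ ES S :=
  ⟨fun h => by have := smul_mem_ES σ⁻¹ h; rwa [inv_smul_smul] at this, smul_mem_ES σ⟩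

/-- `Γ` acts on `E_S`. -/
noncomputable instance ESAction : MulDistribMulAction Γ (ES S) where
  smul σ x := ⟨σ • (x : Ωˣ), smul_mem_ES σ x.2⟩
  one_smul x := Subtype.ext (one_smul Γ (x : Ωˣ))
  mul_smul σ τ x := Subtype.ext (mul_smul σ τ (x : Ωˣ))
  smul_mul σ x y := Subtype.ext (smul_mul' σ (x : Ωˣ) (y : Ωˣ))
  smul_one σ := Subtype.ext (smul_one σ)

@[simp] theorem coe_smul_ES (σ : Γ) (x : ES S) : ((σ • x : ES S) : Ωˣ) = σ • (x : Ωˣ) := rfl

/-- **`E_S` is `p`-divisible** (even: closed under `p`-th roots) when `p ∈ S`. -/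
theorem mem_ES_of_pow_mem {p : ℕ} (hp : p.Prime) (hpS : (⟨p, hp⟩ : Nat.Primes) ∈ S) {y : Ωˣ}
    (hy : y ^ p ∈ ES S) : y ∈ ES S := by
  obtain ⟨hy1, hy2⟩ := hy
  have hunit : ∀ q : Nat.Primes, q ∉ S → ∀ A : ValuationSubring Ω,
      A.LiesOverPrime (q : ℕ) → y ∈ A.unitGroup :=
    fun q hq A hA => mem_unitGroup_of_pow_mem hp.ne_zero (hy2 q hq A hA)
  refine ⟨?_, hunit⟩
  obtain ⟨F, hF, hxF⟩ := hy1
  haveI := hF.1
  have hyint : IsIntegral ℚ (y : Ω) := (Algebra.IsAlgebraic.isAlgebraic (y : Ω)).isIntegral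
  haveI : FiniteDimensional ℚ (IntermediateField.adjoin ℚ {(y : Ω)}) :=
    IntermediateField.adjoin.finiteDimensional hyint
  refine ⟨F ⊔ IntermediateField.adjoin ℚ {(y : Ω)},
    ⟨IntermediateField.finiteDimensional_sup _ _, fun q hq A hA σ hσ => ?_⟩,
    (le_sup_right : _ ≤ F ⊔ IntermediateField.adjoin ℚ {(y : Ω)})
      (IntermediateField.mem_adjoin_simple_self ℚ (y : Ω))⟩
  rw [IntermediateField.fixingSubgroup_sup]
  refine ⟨hF.2 q hq A hA hσ, ?_⟩
  -- `σ y = y`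
  have hσx : σ ((y : Ω) ^ p) = (y : Ω) ^ p := by
    have := hF.2 q hq A hA hσ
    rw [IntermediateField.mem_fixingSubgroup_iff] at this
    have h2 := this _ hxF
    rwa [Units.val_pow_eq_pow_val] at h2
  have hyA := hunit q hq A hA
  have hyA' : (y : Ω) ∈ A ∧ ((y⁻¹ : Ωˣ) : Ω) ∈ A := by
    have h1 := (ValuationSubring.mem_unitGroup_iff A y).mp hyA
    have h2 := (ValuationSubring.mem_unitGroup_iff A y⁻¹).mp (inv_mem hyA)
    exact ⟨(A.valuation_le_one_iff _).mp h1.le, (A.valuation_le_one_iff _).mp h2.le⟩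
  set ζ : Ω := σ (y : Ω) * ((y⁻¹ : Ωˣ) : Ω) with hζ
  have hζp : ζ ^ p = 1 := by
    rw [hζ, mul_pow, ← map_pow, hσx, ← mul_pow, Units.mul_inv, one_pow]
  have hζ1 : ζ - 1 ∈ A.nonunits := by
    have h1 := (mem_inertiaSubgroupIn_iff.mp hσ).2 (y : Ω) hyA'.1
    have h2 : ζ - 1 = (σ (y : Ω) - (y : Ω)) * ((y⁻¹ : Ωˣ) : Ω) := by
      rw [hζ, sub_mul, Units.mul_inv]
    rw [h2, ValuationSubring.mem_nonunits_iff, map_mul]
    rw [ValuationSubring.mem_nonunits_iff] at h1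
    calc A.valuation (σ (y : Ω) - (y : Ω)) * A.valuation ((y⁻¹ : Ωˣ) : Ω)
        ≤ A.valuation (σ (y : Ω) - (y : Ω)) * 1 :=
          mul_le_mul_right ((A.valuation_le_one_iff _).mpr hyA'.2) _
      _ < 1 := by rwa [mul_one]
  have hpq : p ≠ (q : ℕ) := by
    rintro rfl
    exact hq hpS
  have hζone := eq_one_of_pow_eq_one_of_sub_one_mem_nonunits hp q.2 hpq hA hζp hζ1
  have hσy : σ (y : Ω) = (y : Ω) := by
    have := congrArg (· * (y : Ω)) hζone
    simpa [hζ, mul_assoc] using this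
  change σ ∈ (IntermediateField.adjoin ℚ {(y : Ω)}).fixingSubgroup
  rw [IntermediateField.mem_fixingSubgroup_iff]
  intro x hx
  induction hx using IntermediateField.adjoin_induction with
  | mem x hx => rw [Set.mem_singleton_iff.mp hx]; exact hσy
  | algebraMap x => exact σ.commutes x
  | add x y _ _ hx hy => rw [map_add, hx, hy]
  | inv x _ hx => rw [map_inv₀, hx]
  | mul x y _ _ hx hy => rw [map_mul, hx, hy]

/-- every element of `E_S` has a `p`-th root in `E_S` (`p ∈ S`). -/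
theorem exists_pow_eq_of_mem_ES {p : ℕ} (hp : p.Prime) (hpS : (⟨p, hp⟩ : Nat.Primes) ∈ S)
    {x : Ωˣ} (hx : x ∈ ES S) : ∃ y ∈ ES S, y ^ p = x := by
  obtain ⟨z, hz⟩ := IsAlgClosed.exists_pow_nat_eq (x : Ω) hp.pos
  have hz0 : z ≠ 0 := by
    rintro rfl
    rw [zero_pow hp.ne_zero] at hz
    exact x.ne_zero hz.symm
  refine ⟨Units.mk0 z hz0, ?_, ?_⟩
  · apply mem_ES_of_pow_mem hp hpS
    have : Units.mk0 z hz0 ^ p = x := Units.ext (by simpa using hz)
    rw [this]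
    exact hx
  · exact Units.ext (by simpa using hz)

/-- `μ_p ⊆ E_S` (`p ∈ S`). -/
theorem mem_ES_of_pow_eq_one {p : ℕ} (hp : p.Prime) (hpS : (⟨p, hp⟩ : Nat.Primes) ∈ S) {y : Ωˣ}
    (hy : y ^ p = 1) : y ∈ ES S :=
  mem_ES_of_pow_mem hp hpS (by rw [hy]; exact one_mem _)

end ES

end Fermat.Agent.CFT.Arith
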