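/-
S55 (Poitou–Tate), package PT3 (arithmetic modules), helper7.
PT3.c: the `S`-idele module `J_S = ∏_{ℓ ∈ S} (ℚ_ℓ ⊗ ℚ_S)ˣ` as a `Γ`-stable subgroup of
`∏_{ℓ ∈ S} (ℚ_ℓ ⊗ Ω)ˣ`, `Ω = AlgebraicClosure ℚ`; Galois descent for `ℚ_ℓ ⊗ Ω` (infinite level);
discreteness and invariants.
-/
import Fermat.Agent.CFT.Arith.ES_helper7
import Fermat.Agent.CFT.Global.Defs_helper3

set_option autoImplicit false
set_option linter.unusedSectionVars false
set_option linter.style.haveILetI false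

open scoped TensorProduct Pointwise

namespace Fermat.Agent.CFT.Arith

open Fermat.Agent.CFT

/-! ### Coordinates in `ℚ_ℓ ⊗ F` with respect to a `ℚ`-basis of `ℚ_ℓ` -/

section coord

variable (ℓ : ℕ) [Fact ℓ.Prime] {F₁ F₂ : Type*} [Field F₁] [CharZero F₁] [Field F₂] [CharZero F₂]

/-- a `ℚ`-basis of `ℚ_ℓ`. -/
noncomputable def padicBasis : Module.Basis (Module.Free.ChooseBasisIndex ℚ ℚ_[ℓ]) ℚ ℚ_[ℓ] :=
  Module.Free.chooseBasis ℚ ℚ_[ℓ]

/-- the coordinates of `x ∈ ℚ_ℓ ⊗ F` with respect to the basis `padicBasis ℓ` of `ℚ_ℓ`. -/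
noncomputable def coord : SemiLocal ℓ F₁ ≃ₗ[ℚ] (Module.Free.ChooseBasisIndex ℚ ℚ_[ℓ] →₀ F₁) := by
  classical
  exact TensorProduct.equivFinsuppOfBasisLeft (padicBasis ℓ)

theorem coord_tmul (a : ℚ_[ℓ]) (y : F₁) (i : Module.Free.ChooseBasisIndex ℚ ℚ_[ℓ]) :
    coord ℓ (a ⊗ₜ[ℚ] y : SemiLocal ℓ F₁) i = (padicBasis ℓ).repr a i • y := by
  classical
  exact TensorProduct.equivFinsuppOfBasisLeft_apply_tmul_apply (padicBasis ℓ) a y i

theorem coord_map (f : F₁ →+* F₂) (x : SemiLocal ℓ F₁)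
    (i : Module.Free.ChooseBasisIndex ℚ ℚ_[ℓ]) :
    coord ℓ (SemiLocal.map ℓ f x) i = f (coord ℓ x i) := by
  induction x using TensorProduct.induction_on with
  | zero => simp
  | tmul a y =>
    rw [SemiLocal.map_tmul, coord_tmul, coord_tmul, map_rat_smul]
  | add x y hx hy =>
    rw [map_add, map_add, Finsupp.add_apply, hx, hy, map_add, Finsupp.add_apply, map_add]

theorem coord_symm_apply (c : Module.Free.ChooseBasisIndex ℚ ℚ_[ℓ] →₀ F₁) :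
    (coord ℓ).symm c = c.sum fun i n => (padicBasis ℓ i ⊗ₜ[ℚ] n : SemiLocal ℓ F₁) := by
  classical
  exact TensorProduct.equivFinsuppOfBasisLeft_symm_apply (padicBasis ℓ) c

/-- `x` lies in the image of `ℚ_ℓ ⊗ F₁ → ℚ_ℓ ⊗ F₂` iff all its coordinates lie in the image of
`F₁ → F₂`. -/
theorem mem_range_map_iff_coord (f : F₁ →+* F₂) (x : SemiLocal ℓ F₂) :
    x ∈ (SemiLocal.map ℓ f).range ↔ ∀ i, coord ℓ x i ∈ f.range := by
  constructor
  · rintro ⟨z, rfl⟩ i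
    exact ⟨_, (coord_map ℓ f z i).symm⟩
  · intro h
    choose g hg using h
    classical
    set c : Module.Free.ChooseBasisIndex ℚ ℚ_[ℓ] →₀ F₁ :=
      Finsupp.onFinset (coord ℓ x).support (fun i => if coord ℓ x i = 0 then 0 else g i)
        (fun i hi => by
          rw [Finsupp.mem_support_iff]
          intro h0
          exact hi (if_pos h0)) with hc
    refine ⟨(coord ℓ).symm c, ?_⟩
    apply (coord ℓ).injective
    ext i
    change coord ℓ (SemiLocal.map ℓ f ((coord ℓ).symm c)) i = coord ℓ x i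
    rw [coord_map, LinearEquiv.apply_symm_apply, hc, Finsupp.onFinset_apply]
    split_ifs with h0
    · rw [map_zero, h0]
    · exact hg i

end coord

/-! ### Galois descent for `ℚ_ℓ ⊗ Ω` -/

section descent

/-- `Ω = AlgebraicClosure ℚ`. -/
local notation "Ω" => AlgebraicClosure ℚ
/-- `Γ = Gal(Ω/ℚ)`. -/
local notation "Γ" => (AlgebraicClosure ℚ ≃ₐ[ℚ] AlgebraicClosure ℚ)

variable (ℓ : ℕ) [Fact ℓ.Prime]

theorem coord_smul (σ : Γ) (x : SemiLocal ℓ Ω) (i : Module.Free.ChooseBasisIndex ℚ ℚ_[ℓ]) :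
    coord ℓ (σ • x) i = σ (coord ℓ x i) := by
  rw [SemiLocal.smul_def, coord_map]
  rfl

/-- **Galois descent at infinite level**: the invariants of `Gal(Ω/F)` in `ℚ_ℓ ⊗ Ω` are
`ℚ_ℓ ⊗ F`, for every intermediate field `F`. -/
theorem mem_range_map_iff_fixed (F : IntermediateField ℚ Ω) (x : SemiLocal ℓ Ω) :
    x ∈ (SemiLocal.map ℓ (algebraMap F Ω)).range ↔ ∀ σ ∈ F.fixingSubgroup, σ • x = x := by
  rw [mem_range_map_iff_coord]
  constructor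
  · intro h σ hσ
    apply (coord ℓ).injective
    ext i
    rw [coord_smul]
    obtain ⟨y, hy⟩ := h i
    rw [← hy]
    exact (IntermediateField.mem_fixingSubgroup_iff F σ).mp hσ _ y.2
  · intro h i
    have h1 : coord ℓ x i ∈ IntermediateField.fixedField F.fixingSubgroup := by
      rw [IntermediateField.mem_fixedField_iff]
      intro σ hσ
      rw [← coord_smul, h σ hσ]
    rw [InfiniteGalois.fixedField_fixingSubgroup] at h1
    exact ⟨⟨_, h1⟩, rfl⟩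

theorem range_map_mono {F F' : IntermediateField ℚ Ω} (h : F ≤ F') :
    (SemiLocal.map ℓ (algebraMap F Ω)).range ≤ (SemiLocal.map ℓ (algebraMap F' Ω)).range := by
  intro x hx
  rw [AlgHom.mem_range] at hx ⊢
  rw [← AlgHom.mem_range, mem_range_map_iff_fixed] at hx ⊢
  exact fun σ hσ => hx σ (IntermediateField.fixingSubgroup_antitone h hσ)

/-- units version of the descent. -/
theorem units_mem_range_unitsMap_iff_fixed (F : IntermediateField ℚ Ω) (x : (SemiLocal ℓ Ω)ˣ) :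
    x ∈ (SemiLocal.unitsMap ℓ (algebraMap F Ω)).range ↔ ∀ σ ∈ F.fixingSubgroup, σ • x = x := by
  constructor
  · rintro ⟨z, rfl⟩ σ hσ
    apply Units.ext
    rw [SemiLocal.coe_smul_units, SemiLocal.coe_unitsMap]
    exact (mem_range_map_iff_fixed ℓ F _).mp ⟨_, rfl⟩ σ hσ
  · intro h
    have h1 : ∀ σ ∈ F.fixingSubgroup, σ • (x : SemiLocal ℓ Ω) = x := fun σ hσ => by
      rw [← SemiLocal.coe_smul_units, h σ hσ]
    have h2 : ∀ σ ∈ F.fixingSubgroup, σ • ((x⁻¹ : (SemiLocal ℓ Ω)ˣ) : SemiLocal ℓ Ω) =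
        ((x⁻¹ : (SemiLocal ℓ Ω)ˣ) : SemiLocal ℓ Ω) := fun σ hσ => by
      rw [← SemiLocal.coe_inv_smul_units, h σ hσ]
    obtain ⟨z, hz⟩ := (mem_range_map_iff_fixed ℓ F _).mpr h1
    obtain ⟨z', hz'⟩ := (mem_range_map_iff_fixed ℓ F _).mpr h2
    have hzz' : z * z' = 1 := by
      apply SemiLocal.map_injective ℓ (algebraMap F Ω)
      rw [map_mul, map_one]
      have e1 : (SemiLocal.map ℓ (algebraMap F Ω)) z = x := hz
      have e2 : (SemiLocal.map ℓ (algebraMap F Ω)) z' =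
          ((x⁻¹ : (SemiLocal ℓ Ω)ˣ) : SemiLocal ℓ Ω) := hz'
      rw [e1, e2, Units.mul_inv]
    refine ⟨⟨z, z', hzz', by rw [mul_comm]; exact hzz'⟩, ?_⟩
    apply Units.ext
    exact hz

theorem range_unitsMap_mono {F F' : IntermediateField ℚ Ω} (h : F ≤ F') :
    (SemiLocal.unitsMap ℓ (algebraMap F Ω)).range ≤
      (SemiLocal.unitsMap ℓ (algebraMap F' Ω)).range := by
  intro x hx
  rw [units_mem_range_unitsMap_iff_fixed] at hx ⊢
  exact fun σ hσ => hx σ (IntermediateField.fixingSubgroup_antitone h hσ)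

end descent

/-! ### `J_S` -/

section JS

/-- `Ω = AlgebraicClosure ℚ`. -/
local notation "Ω" => AlgebraicClosure ℚ
/-- `Γ = Gal(Ω/ℚ)`. -/
local notation "Γ" => (AlgebraicClosure ℚ ≃ₐ[ℚ] AlgebraicClosure ℚ)

variable (S : Finset Nat.Primes) (ℓ : ℕ) [Fact ℓ.Prime]

/-- The `ℓ`-component `(ℚ_ℓ ⊗ ℚ_S)ˣ` of `J_S`, as a subgroup of `(ℚ_ℓ ⊗ Ω)ˣ`: the units coming
from `ℚ_ℓ ⊗ F` for some finite `F` unramified outside `S`. -/
def JSl : Subgroup (SemiLocal ℓ Ω)ˣ where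
  carrier := {x | ∃ F : IntermediateField ℚ Ω, F.IsUnramifiedOutside S ∧
    x ∈ (SemiLocal.unitsMap ℓ (algebraMap F Ω)).range}
  mul_mem' := by
    rintro x y ⟨F, hF, hx⟩ ⟨F', hF', hy⟩
    exact ⟨F ⊔ F', hF.sup hF', mul_mem (range_unitsMap_mono ℓ le_sup_left hx)
      (range_unitsMap_mono ℓ le_sup_right hy)⟩
  one_mem' := ⟨⊥, IntermediateField.isUnramifiedOutside_bot S, one_mem _⟩
  inv_mem' := by
    rintro x ⟨F, hF, hx⟩
    exact ⟨F, hF, inv_mem hx⟩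

variable {S ℓ}

theorem mem_JSl_iff {x : (SemiLocal ℓ Ω)ˣ} : x ∈ JSl S ℓ ↔
    ∃ F : IntermediateField ℚ Ω, F.IsUnramifiedOutside S ∧
      x ∈ (SemiLocal.unitsMap ℓ (algebraMap F Ω)).range := Iff.rfl

theorem mem_JSl_iff_exists_isLevel {x : (SemiLocal ℓ Ω)ˣ} : x ∈ JSl S ℓ ↔
    ∃ F : IntermediateField ℚ Ω, IsLevel S F ∧
      x ∈ (SemiLocal.unitsMap ℓ (algebraMap F Ω)).range := by
  constructor
  · rintro ⟨F, hF, hx⟩
    obtain ⟨F', hF', hle⟩ := exists_isLevel_ge hF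
    exact ⟨F', hF', range_unitsMap_mono ℓ hle hx⟩
  · rintro ⟨F, hF, hx⟩
    exact ⟨F, hF.1, hx⟩

/-- **discreteness of `J_S`**: every element is fixed by `Gal(Ω/F)` for some level `F`. -/
theorem exists_isLevel_fixes_of_mem_JSl {x : (SemiLocal ℓ Ω)ˣ} (hx : x ∈ JSl S ℓ) :
    ∃ F : IntermediateField ℚ Ω, IsLevel S F ∧ ∀ σ ∈ F.fixingSubgroup, σ • x = x := by
  obtain ⟨F, hF, hx⟩ := mem_JSl_iff_exists_isLevel.mp hx
  exact ⟨F, hF, (units_mem_range_unitsMap_iff_fixed ℓ F x).mp hx⟩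

/-- **invariants of `J_S`**: the elements of `J_S` fixed by `Gal(Ω/F)`, `F` unramified outside
`S`, are the units of `ℚ_ℓ ⊗ F`. -/
theorem mem_JSl_and_fixed_iff {F : IntermediateField ℚ Ω} (hF : F.IsUnramifiedOutside S)
    {x : (SemiLocal ℓ Ω)ˣ} : (x ∈ JSl S ℓ ∧ ∀ σ ∈ F.fixingSubgroup, σ • x = x) ↔
      x ∈ (SemiLocal.unitsMap ℓ (algebraMap F Ω)).range := by
  constructor
  · rintro ⟨-, h⟩
    exact (units_mem_range_unitsMap_iff_fixed ℓ F x).mpr h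
  · intro h
    exact ⟨⟨F, hF, h⟩, (units_mem_range_unitsMap_iff_fixed ℓ F x).mp h⟩

/-- `J_S` is stable under `Γ`. -/
theorem smul_mem_JSl (σ : Γ) {x : (SemiLocal ℓ Ω)ˣ} (hx : x ∈ JSl S ℓ) : σ • x ∈ JSl S ℓ := by
  obtain ⟨F, hF, hx⟩ := mem_JSl_iff_exists_isLevel.mp hx
  refine ⟨F, hF.1, ?_⟩
  rw [units_mem_range_unitsMap_iff_fixed] at hx ⊢
  intro τ hτ
  haveI := hF.normal_fixingSubgroup
  have h1 : σ⁻¹ * τ * σ ∈ F.fixingSubgroup := by
    have := Subgroup.Normal.conj_mem ‹(F.fixingSubgroup).Normal› τ hτ σ⁻¹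
    simpa using this
  have h2 := hx _ h1
  rw [← smul_smul, ← smul_smul, inv_smul_eq_iff] at h2
  exact h2

theorem smul_mem_JSl_iff (σ : Γ) {x : (SemiLocal ℓ Ω)ˣ} : σ • x ∈ JSl S ℓ ↔ x ∈ JSl S ℓ :=
  ⟨fun h => by have := smul_mem_JSl σ⁻¹ h; rwa [inv_smul_smul] at this, smul_mem_JSl σ⟩

/-- `Γ` acts on `(ℚ_ℓ ⊗ ℚ_S)ˣ`. -/
noncomputable instance JSlAction : MulDistribMulAction Γ (JSl S ℓ) where
  smul σ x := ⟨σ • (x : (SemiLocal ℓ Ω)ˣ), smul_mem_JSl σ x.2⟩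
  one_smul x := Subtype.ext (one_smul Γ (x : (SemiLocal ℓ Ω)ˣ))
  mul_smul σ τ x := Subtype.ext (mul_smul σ τ (x : (SemiLocal ℓ Ω)ˣ))
  smul_mul σ x y := Subtype.ext (smul_mul' σ (x : (SemiLocal ℓ Ω)ˣ) (y : (SemiLocal ℓ Ω)ˣ))
  smul_one σ := Subtype.ext (smul_one σ)

@[simp] theorem coe_smul_JSl (σ : Γ) (x : JSl S ℓ) :
    ((σ • x : JSl S ℓ) : (SemiLocal ℓ Ω)ˣ) = σ • (x : (SemiLocal ℓ Ω)ˣ) := rfl

/-- the diagonal image of `E_S` (indeed of `ℚ_Sˣ`) lies in `J_S`. -/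
theorem ofUnits_mem_JSl {x : Ωˣ} (hx : (x : Ω) ∈ QS S) : SemiLocal.ofUnits ℓ x ∈ JSl S ℓ := by
  obtain ⟨F, hF, hxF⟩ := hx
  refine ⟨F, hF, ?_⟩
  have hx0 : (⟨(x : Ω), hxF⟩ : F) ≠ 0 := fun h => x.ne_zero (congrArg Subtype.val h)
  refine ⟨SemiLocal.ofUnits ℓ (Units.mk0 ⟨(x : Ω), hxF⟩ hx0), ?_⟩
  apply Units.ext
  rfl

end JS

end Fermat.Agent.CFT.Arith
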