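/-
S55 (Poitou–Tate), package PT3 (arithmetic modules), helper7.
The modules `E_S → J_S → C_S` as representations of `Γ = Gal(Ω/ℚ)` over `ℤ`, the short exact
sequence, discreteness.
-/
import Fermat.Agent.CFT.Arith.JS_helper7

set_option autoImplicit false
set_option linter.unusedSectionVars false
set_option linter.style.haveILetI false

open scoped TensorProduct Pointwise
open CategoryTheory

namespace Fermat.Agent.CFT.Arith

open Fermat.Agent.CFT

section CS

/-- `Ω = AlgebraicClosure ℚ`. -/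
local notation "Ω" => AlgebraicClosure ℚ
/-- `Γ = Gal(Ω/ℚ)`. -/
local notation "Γ" => (AlgebraicClosure ℚ ≃ₐ[ℚ] AlgebraicClosure ℚ)

variable (S : Finset Nat.Primes)

/-- `J_S = ∏_{ℓ ∈ S} (ℚ_ℓ ⊗ ℚ_S)ˣ`. -/
def JS : Type := ∀ ℓ : S, JSl S ((ℓ : Nat.Primes) : ℕ)

noncomputable instance JS.commGroup : CommGroup (JS S) :=
  inferInstanceAs (CommGroup (∀ ℓ : S, JSl S ((ℓ : Nat.Primes) : ℕ)))

noncomputable instance JS.action : MulDistribMulAction Γ (JS S) :=
  inferInstanceAs (MulDistribMulAction Γ (∀ ℓ : S, JSl S ((ℓ : Nat.Primes) : ℕ)))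

variable {S} in
@[ext] theorem JS.ext {x y : JS S} (h : ∀ ℓ : S, x ℓ = y ℓ) : x = y := funext h

variable {S} in
@[simp] theorem JS.smul_apply (σ : Γ) (x : JS S) (ℓ : S) : (σ • x) ℓ = σ • x ℓ := rfl

variable {S} in
@[simp] theorem JS.mul_apply (x y : JS S) (ℓ : S) : (x * y) ℓ = x ℓ * y ℓ := rfl

variable {S} in
@[simp] theorem JS.one_apply (ℓ : S) : (1 : JS S) ℓ = 1 := rfl

variable {S} in
@[simp] theorem JS.inv_apply (x : JS S) (ℓ : S) : (x⁻¹) ℓ = (x ℓ)⁻¹ := rfl

/-- The diagonal embedding `E_S → J_S`. -/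
noncomputable def diagES : ES S →* JS S where
  toFun x ℓ := ⟨SemiLocal.ofUnits ((ℓ : Nat.Primes) : ℕ) (x : Ωˣ), ofUnits_mem_JSl x.2.1⟩
  map_one' := by
    funext ℓ
    apply Subtype.ext
    exact map_one (SemiLocal.ofUnits ((ℓ : Nat.Primes) : ℕ) (F := Ω))
  map_mul' x y := by
    funext ℓ
    apply Subtype.ext
    exact map_mul (SemiLocal.ofUnits ((ℓ : Nat.Primes) : ℕ) (F := Ω)) (x : Ωˣ) (y : Ωˣ)

variable {S}

@[simp] theorem coe_diagES_apply (x : ES S) (ℓ : S) :
    ((diagES S x ℓ : JSl S ((ℓ : Nat.Primes) : ℕ)) : (SemiLocal ((ℓ : Nat.Primes) : ℕ) Ω)ˣ) =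
      SemiLocal.ofUnits ((ℓ : Nat.Primes) : ℕ) (x : Ωˣ) := rfl

theorem diagES_smul (σ : Γ) (x : ES S) : diagES S (σ • x) = σ • diagES S x := by
  funext ℓ
  apply Subtype.ext
  apply Units.ext
  rfl

theorem diagES_injective (hS : S.Nonempty) : Function.Injective (diagES S) := by
  obtain ⟨ℓ, hℓ⟩ := hS
  intro x y h
  have h1 := congrArg (fun z : JS S => ((z ⟨ℓ, hℓ⟩ : JSl S (ℓ : ℕ)) : (SemiLocal (ℓ : ℕ) Ω)ˣ)) h
  exact Subtype.ext (SemiLocal.ofUnits_injective (ℓ : ℕ) h1)

theorem smul_mem_range_diagES (σ : Γ) {x : JS S} (hx : x ∈ (diagES S).range) :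
    σ • x ∈ (diagES S).range := by
  obtain ⟨a, rfl⟩ := hx
  exact ⟨σ • a, diagES_smul σ a⟩

variable (S)

/-- `C_S = J_S / E_S`. -/
def CS : Type := JS S ⧸ (diagES S).range

noncomputable instance CS.commGroup : CommGroup (CS S) :=
  inferInstanceAs (CommGroup (JS S ⧸ (diagES S).range))

/-- The projection `J_S → C_S`. -/
noncomputable def mkCS : JS S →* CS S := QuotientGroup.mk' _

variable {S}

theorem mkCS_surjective : Function.Surjective (mkCS S) := QuotientGroup.mk'_surjective _

theorem mkCS_eq_one_iff {x : JS S} : mkCS S x = 1 ↔ ∃ a : ES S, diagES S a = x := by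
  change ((x : JS S ⧸ (diagES S).range) = 1) ↔ _
  rw [QuotientGroup.eq_one_iff]
  rfl

/-- The induced action of `Γ` on `C_S`. -/
noncomputable instance CSAction : MulDistribMulAction Γ (CS S) where
  smul g := QuotientGroup.map (diagES S).range (diagES S).range
    (MulDistribMulAction.toMonoidHom (JS S) g)
    (fun _ hx => Subgroup.mem_comap.mpr (smul_mem_range_diagES g hx))
  one_smul x := by
    induction x using QuotientGroup.induction_on with
    | H x => exact congrArg (QuotientGroup.mk' (diagES S).range) (one_smul Γ x)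
  mul_smul g h x := by
    induction x using QuotientGroup.induction_on with
    | H x => exact congrArg (QuotientGroup.mk' (diagES S).range) (mul_smul g h x)
  smul_mul g x y := map_mul _ x y
  smul_one g := map_one _

@[simp] theorem smul_mkCS (g : Γ) (x : JS S) : g • mkCS S x = mkCS S (g • x) := rfl

/-! ### Discreteness -/

/-- `E_S` is discrete. -/
theorem exists_isLevel_fixes_ES (x : ES S) :
    ∃ F : IntermediateField ℚ Ω, IsLevel S F ∧ ∀ σ ∈ F.fixingSubgroup, σ • x = x := by
  obtain ⟨F, hF, hxF⟩ := exists_isLevel_mem x.2.1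
  refine ⟨F, hF, fun σ hσ => ?_⟩
  apply Subtype.ext
  apply Units.ext
  exact (IntermediateField.mem_fixingSubgroup_iff F σ).mp hσ _ hxF

/-- `J_S` is discrete. -/
theorem exists_isLevel_fixes_JS (x : JS S) :
    ∃ F : IntermediateField ℚ Ω, IsLevel S F ∧ ∀ σ ∈ F.fixingSubgroup, σ • x = x := by
  classical
  have h : ∀ ℓ : S, ∃ F : IntermediateField ℚ Ω, IsLevel S F ∧ ∀ σ ∈ F.fixingSubgroup,
      σ • ((x ℓ : JSl S ((ℓ : Nat.Primes) : ℕ)) : (SemiLocal ((ℓ : Nat.Primes) : ℕ) Ω)ˣ) = x ℓ :=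
    fun ℓ => exists_isLevel_fixes_of_mem_JSl (x ℓ).2
  choose F hF hfix using h
  have hsup : ∀ T : Finset S, IsLevel S (T.sup F) := by
    intro T
    induction T using Finset.induction_on with
    | empty => exact isLevel_bot
    | insert a T _ ih => rw [Finset.sup_insert]; exact (hF a).sup ih
  refine ⟨Finset.univ.sup F, hsup _, fun σ hσ => ?_⟩
  funext ℓ
  apply Subtype.ext
  exact hfix ℓ σ (IntermediateField.fixingSubgroup_antitone
    (Finset.le_sup (f := F) (Finset.mem_univ ℓ)) hσ)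

/-- `C_S` is discrete. -/
theorem exists_isLevel_fixes_CS (x : CS S) :
    ∃ F : IntermediateField ℚ Ω, IsLevel S F ∧ ∀ σ ∈ F.fixingSubgroup, σ • x = x := by
  obtain ⟨y, rfl⟩ := mkCS_surjective x
  obtain ⟨F, hF, h⟩ := exists_isLevel_fixes_JS y
  exact ⟨F, hF, fun σ hσ => by rw [smul_mkCS, h σ hσ]⟩

/-! ### The representations -/

variable (S)

/-- `E_S` as a representation of `Γ` over `ℤ`. -/
noncomputable def ESRep : Rep ℤ Γ := Rep.ofMulDistribMulAction Γ (ES S)

/-- `J_S` as a representation of `Γ` over `ℤ`. -/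
noncomputable def JSRep : Rep ℤ Γ := Rep.ofMulDistribMulAction Γ (JS S)

/-- `C_S` as a representation of `Γ` over `ℤ`. -/
noncomputable def CSRep : Rep ℤ Γ := Rep.ofMulDistribMulAction Γ (CS S)

/-- The diagonal embedding as a morphism of representations `E_S → J_S`. -/
noncomputable def diagESHom : ESRep S ⟶ JSRep S :=
  Rep.ofHom
    { toLinearMap := (MonoidHom.toAdditive (diagES S)).toIntLinearMap
      isIntertwining' := fun σ => LinearMap.ext fun x => by
        change Additive.ofMul (diagES S (σ • x.toMul)) = Additive.ofMul (σ • diagES S x.toMul)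
        rw [diagES_smul] }

/-- The projection as a morphism of representations `J_S → C_S`. -/
noncomputable def mkCSHom : JSRep S ⟶ CSRep S :=
  Rep.ofHom
    { toLinearMap := (MonoidHom.toAdditive (mkCS S)).toIntLinearMap
      isIntertwining' := fun _ => LinearMap.ext fun _ => rfl }

variable {S}

theorem diagESHom_injective (hS : S.Nonempty) : Function.Injective (diagESHom S).hom := by
  intro x y h
  have : diagES S x.toMul = diagES S y.toMul := congrArg Additive.toMul h
  exact congrArg Additive.ofMul (diagES_injective hS this)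

theorem mkCSHom_surjective : Function.Surjective (mkCSHom S).hom := by
  intro y
  obtain ⟨x, hx⟩ := mkCS_surjective y.toMul
  exact ⟨Additive.ofMul x, congrArg Additive.ofMul hx⟩

theorem diagESHom_mkCSHom_exact : Function.Exact (diagESHom S).hom (mkCSHom S).hom := by
  intro x
  constructor
  · intro hx
    have h1 : mkCS S x.toMul = 1 := congrArg Additive.toMul hx
    obtain ⟨a, ha⟩ := mkCS_eq_one_iff.mp h1
    exact ⟨Additive.ofMul a, congrArg Additive.ofMul ha⟩
  · rintro ⟨a, rfl⟩
    have : mkCS S (diagES S a.toMul) = 1 := mkCS_eq_one_iff.mpr ⟨_, rfl⟩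
    exact congrArg Additive.ofMul this

end CS

end Fermat.Agent.CFT.Arith
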