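/-
S55 (Poitou–Tate), package PT3 (arithmetic modules), helper7.
The open basis `𝒰_S` of `Γ = Gal(Ω/ℚ)` given by the levels (in helper9's `OpenBasis` language), and
smoothness of `E_S`, `J_S`, `C_S`.
-/
import Fermat.Agent.CFT.Arith.CS_helper7
import Fermat.Agent.CFT.Sm.Basic_helper9

set_option autoImplicit false
set_option linter.unusedSectionVars false
set_option linter.style.haveILetI false

open scoped TensorProduct Pointwise
open CategoryTheory

namespace Fermat.Agent.CFT.Arith

open Fermat.Agent.CFT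

section basis

/-- `Ω = AlgebraicClosure ℚ`. -/
local notation "Ω" => AlgebraicClosure ℚ
/-- `Γ = Gal(Ω/ℚ)`. -/
local notation "Γ" => (AlgebraicClosure ℚ ≃ₐ[ℚ] AlgebraicClosure ℚ)

variable (S : Finset Nat.Primes)

theorem finiteIndex_fixingSubgroup (F : IntermediateField ℚ Ω) [FiniteDimensional ℚ F] :
    (F.fixingSubgroup).FiniteIndex := by
  refine ⟨?_⟩
  rw [← IntermediateField.finrank_eq_fixingSubgroup_index]
  exact Module.finrank_pos.ne'

/-- The open basis `𝒰_S = {Gal(Ω/F) : F a level for S}` of `Γ`. -/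
def levelBasis : Sm.OpenBasis Γ where
  sets := {U | ∃ F : IntermediateField ℚ Ω, IsLevel S F ∧ U = F.fixingSubgroup}
  nonempty := ⟨_, ⊥, isLevel_bot, rfl⟩
  normal := by
    rintro _ ⟨F, hF, rfl⟩
    exact hF.normal_fixingSubgroup
  finiteIndex := by
    rintro _ ⟨F, hF, rfl⟩
    haveI := hF.finiteDimensional
    exact finiteIndex_fixingSubgroup F
  directed := by
    rintro _ ⟨F, hF, rfl⟩ _ ⟨F', hF', rfl⟩
    exact ⟨_, ⟨F ⊔ F', hF.sup hF', rfl⟩, (IntermediateField.fixingSubgroup_sup).le⟩

variable {S}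

theorem mem_levelBasis_sets {U : Subgroup Γ} : U ∈ (levelBasis S).sets ↔
    ∃ F : IntermediateField ℚ Ω, IsLevel S F ∧ U = F.fixingSubgroup := Iff.rfl

theorem fixingSubgroup_mem_levelBasis {F : IntermediateField ℚ Ω} (hF : IsLevel S F) :
    F.fixingSubgroup ∈ (levelBasis S).sets := ⟨F, hF, rfl⟩

/-- the fixing subgroup of any finite extension unramified outside `S` is open. -/
theorem isOpen_fixingSubgroup {F : IntermediateField ℚ Ω} (hF : F.IsUnramifiedOutside S) :
    (levelBasis S).IsOpen F.fixingSubgroup := by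
  obtain ⟨F', hF', hle⟩ := exists_isLevel_ge hF
  exact ⟨_, fixingSubgroup_mem_levelBasis hF', IntermediateField.fixingSubgroup_antitone hle⟩

/-- an open subgroup for `𝒰_S` is the fixing subgroup of a finite extension unramified outside
`S` (its fixed field). -/
theorem exists_eq_fixingSubgroup_of_isOpen {H : Subgroup Γ} (hH : (levelBasis S).IsOpen H) :
    ∃ F : IntermediateField ℚ Ω, F.IsUnramifiedOutside S ∧ H = F.fixingSubgroup := by
  obtain ⟨_, ⟨F', hF', rfl⟩, hle⟩ := hH
  haveI := hF'.finiteDimensional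
  refine ⟨IntermediateField.fixedField H, ?_, ?_⟩
  · refine hF'.1.of_le ?_
    have h1 := IntermediateField.fixedField_antitone hle
    rwa [InfiniteGalois.fixedField_fixingSubgroup] at h1
  · -- `H` is closed since it contains the open subgroup `Gal(Ω/F')`
    have hopen : IsOpen (H : Set Γ) :=
      Subgroup.isOpen_mono hle (IntermediateField.fixingSubgroup_isOpen F')
    have hclosed : IsClosed (H : Set Γ) := (⟨H, hopen⟩ : OpenSubgroup Γ).isClosed
    exact (InfiniteGalois.fixingSubgroup_fixedField ⟨H, hclosed⟩).symm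

/-- `E_S` is smooth for `𝒰_S`. -/
theorem isSmooth_ESRep : Sm.IsSmooth (levelBasis S) (ESRep S) := by
  intro a
  obtain ⟨F, hF, h⟩ := exists_isLevel_fixes_ES (Additive.toMul a : ES S)
  exact ⟨_, fixingSubgroup_mem_levelBasis hF, fun g hg => congrArg Additive.ofMul (h g hg)⟩

/-- `J_S` is smooth for `𝒰_S`. -/
theorem isSmooth_JSRep : Sm.IsSmooth (levelBasis S) (JSRep S) := by
  intro a
  obtain ⟨F, hF, h⟩ := exists_isLevel_fixes_JS (Additive.toMul a : JS S)
  exact ⟨_, fixingSubgroup_mem_levelBasis hF, fun g hg => congrArg Additive.ofMul (h g hg)⟩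

/-- `C_S` is smooth for `𝒰_S`. -/
theorem isSmooth_CSRep : Sm.IsSmooth (levelBasis S) (CSRep S) := by
  intro a
  obtain ⟨F, hF, h⟩ := exists_isLevel_fixes_CS (Additive.toMul a : CS S)
  exact ⟨_, fixingSubgroup_mem_levelBasis hF, fun g hg => congrArg Additive.ofMul (h g hg)⟩

end basis

end Fermat.Agent.CFT.Arith
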