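/-
S55 (Poitou–Tate), package PT3 (arithmetic modules), helper7.
Bridge: a finite Galois extension `L` of a level `F` (abstract number field), unramified outside
`S` in the ideal-theoretic sense, embeds into a level.
-/
import Fermat.Agent.CFT.Arith.QS_helper7

set_option autoImplicit false
set_option linter.unusedSectionVars false
set_option linter.style.haveILetI false

open scoped Pointwise NumberField

namespace Fermat.Agent.CFT.Arith

section bridge

/-- `Ω = AlgebraicClosure ℚ`. -/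
local notation "Ω" => AlgebraicClosure ℚ
/-- `Γ = Gal(Ω/ℚ)`. -/
local notation "Γ" => (AlgebraicClosure ℚ ≃ₐ[ℚ] AlgebraicClosure ℚ)

variable {S : Finset Nat.Primes}

/-- an element integral over `ℤ` lies in every valuation subring. -/
theorem mem_valuationSubring_of_isIntegral_int {K : Type*} [Field K] (A : ValuationSubring K)
    {x : K} (hx : IsIntegral ℤ x) : x ∈ A := by
  have h1 : IsIntegral A x := hx.tower_top
  obtain ⟨y, rfl⟩ := IsIntegrallyClosedIn.isIntegral_iff.mp h1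
  exact y.2

/-- the image of the ring of integers of a number field lies in every valuation subring. -/
theorem map_integer_mem_valuationSubring {L : Type*} [Field L] [NumberField L] (φ : L →+* Ω)
    (A : ValuationSubring Ω) (x : 𝓞 L) : φ (x : L) ∈ A :=
  mem_valuationSubring_of_isIntegral_int A
    ((NumberField.RingOfIntegers.isIntegral_coe x).map φ.toIntAlgHom)

/-- **inertia acts trivially on an unramified extension**: `F ⊆ Ω` any subfield fixed by `σ`,
`L/F` a finite Galois extension of number fields, `φ : L → Ω` an `F`-embedding; if `σ` lies in the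
inertia group of a valuation subring `A` of `Ω` above `q`, and `L/F` is unramified at all primes
not containing the primes of `S` (and `q ∉ S`), then `σ` fixes `φ(L)`. -/
theorem apply_eq_of_mem_inertia_of_unramified {F : IntermediateField ℚ Ω}
    (L : Type) [Field L] [NumberField L] [Algebra ↥F L] [IsGalois ↥F L]
    (hunr : ∀ Q : Ideal (𝓞 L), Q.IsPrime → Q ≠ ⊥ → (∀ ℓ ∈ S, (((ℓ : Nat.Primes) : ℕ) : 𝓞 L) ∉ Q) →
      ∀ σ : L ≃ₐ[↥F] L, (∀ x : 𝓞 L, σ • x - x ∈ Q) → σ = 1)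
    (φ : L →ₐ[↥F] Ω) {q : Nat.Primes} (hq : q ∉ S) (A : ValuationSubring Ω)
    (hA : A.LiesOverPrime (q : ℕ)) {σ : Γ} (hσ : σ ∈ A.inertiaSubgroupIn ℚ)
    (hσF : σ ∈ F.fixingSubgroup) (x : L) : σ (φ x) = φ x := by
  classical
  -- `σ` as an `F`-automorphism of `Ω`
  let σ' : Ω ≃ₐ[↥F] Ω := IntermediateField.fixingSubgroupEquiv F ⟨σ, hσF⟩
  have hσ' : ∀ y : Ω, σ' y = σ y := fun y => rfl
  -- restrict to `L`
  letI : Algebra L Ω := φ.toRingHom.toAlgebra
  haveI : IsScalarTower ↥F L Ω := IsScalarTower.of_algebraMap_eq fun y => (φ.commutes y).symm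
  haveI : Normal ↥F L := IsGalois.to_normal
  let σL : L ≃ₐ[↥F] L := σ'.restrictNormal L
  have hσL : ∀ y : L, φ (σL y) = σ (φ y) := fun y => AlgEquiv.restrictNormal_commutes σ' L y
  -- the prime `Q`
  have hmem : ∀ y : 𝓞 L, φ.toRingHom (y : L) ∈ A.toSubring := fun y =>
    map_integer_mem_valuationSubring φ.toRingHom A y
  let f : 𝓞 L →+* A := (φ.toRingHom.comp (algebraMap (𝓞 L) L)).codRestrict A.toSubring hmem
  have hf : ∀ y : 𝓞 L, ((f y : A) : Ω) = φ (y : L) := fun y => rfl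
  let Q : Ideal (𝓞 L) := Ideal.comap f (IsLocalRing.maximalIdeal A)
  have hQmem : ∀ y : 𝓞 L, y ∈ Q ↔ φ (y : L) ∈ A.nonunits := by
    intro y
    rw [ValuationSubring.mem_nonunits_iff_exists_mem_maximalIdeal]
    constructor
    · intro hy
      exact ⟨hmem y, hy⟩
    · rintro ⟨_, hy⟩
      exact hy
  have hQprime : Q.IsPrime := Ideal.comap_isPrime f _
  have hqA : ((q : ℕ) : Ω) ∈ A.nonunits := hA
  have hnat : ∀ n : ℕ, φ (((n : 𝓞 L) : 𝓞 L) : L) = (n : Ω) := fun n => by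
    have h1 : (((n : 𝓞 L) : 𝓞 L) : L) = (n : L) := map_natCast (algebraMap (𝓞 L) L) n
    rw [h1, map_natCast]
  have hQq : (((q : Nat.Primes) : ℕ) : 𝓞 L) ∈ Q := by
    rw [hQmem, hnat]
    exact hqA
  have hQbot : Q ≠ ⊥ := by
    intro h
    rw [h, Ideal.mem_bot] at hQq
    have h0 : ((q : ℕ) : 𝓞 L) ≠ 0 := by
      exact_mod_cast q.2.ne_zero
    exact h0 hQq
  have hQS : ∀ ℓ ∈ S, (((ℓ : Nat.Primes) : ℕ) : 𝓞 L) ∉ Q := by
    intro ℓ hℓ hℓQ
    have hne : (ℓ : ℕ) ≠ (q : ℕ) := by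
      intro h
      exact hq (by rwa [← Subtype.ext h])
    have hcop : Nat.Coprime (ℓ : ℕ) (q : ℕ) := (Nat.coprime_primes ℓ.2 q.2).mpr hne
    have h1 : ((1 : ℤ) : 𝓞 L) ∈ Q := by
      have hb : ((ℓ : ℕ) : ℤ) * Int.gcdA (ℓ : ℕ) (q : ℕ) + ((q : ℕ) : ℤ) * Int.gcdB (ℓ : ℕ) (q : ℕ)
          = 1 := by
        have := Nat.gcd_eq_gcd_ab (ℓ : ℕ) (q : ℕ)
        rw [hcop] at this
        exact_mod_cast this.symm
      rw [← hb]
      push_cast
      exact Q.add_mem (Q.mul_mem_right _ hℓQ) (Q.mul_mem_right _ hQq)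
    rw [Int.cast_one] at h1
    exact hQprime.ne_top ((Ideal.eq_top_iff_one Q).mpr h1)
  -- `σL` acts trivially modulo `Q`
  have hσ2 := (mem_inertiaSubgroupIn_iff.mp hσ).2
  have htriv : ∀ y : 𝓞 L, σL • y - y ∈ Q := by
    intro y
    rw [hQmem]
    have h1 : φ (((σL • y - y : 𝓞 L) : 𝓞 L) : L) = σ (φ (y : L)) - φ (y : L) := by
      rw [← hσL]
      rw [← map_sub]
      rfl
    rw [h1]
    exact hσ2 _ (hmem y)
  have hone : σL = 1 := hunr Q hQprime hQbot hQS σL htriv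
  rw [← hσL, hone]
  rfl

/-- the image of an embedding of a number field, as an intermediate field of `Ω/ℚ`. -/
noncomputable def embRange {L : Type} [Field L] [NumberField L] (φ : L →+* Ω) :
    IntermediateField ℚ Ω := (φ.toRatAlgHom).fieldRange

theorem mem_embRange {L : Type} [Field L] [NumberField L] (φ : L →+* Ω) {y : Ω} :
    y ∈ embRange φ ↔ ∃ x : L, φ x = y := Iff.rfl

theorem finiteDimensional_embRange {L : Type} [Field L] [NumberField L] (φ : L →+* Ω) :
    FiniteDimensional ℚ (embRange φ) :=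
  LinearEquiv.finiteDimensional (AlgEquiv.ofInjectiveField φ.toRatAlgHom).toLinearEquiv

/-- **BRIDGE**: `F ⊆ Ω` unramified outside `S`, `L/F` a finite Galois extension (abstract number
field) unramified outside `S` in the ideal-theoretic sense, `φ : L → Ω` an `F`-embedding. Then
`φ(L)` is unramified outside `S` in the Prelude's sense. -/
theorem isUnramifiedOutside_embRange {F : IntermediateField ℚ Ω} (hF : F.IsUnramifiedOutside S)
    (L : Type) [Field L] [NumberField L] [Algebra ↥F L] [IsGalois ↥F L]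
    (hunr : ∀ Q : Ideal (𝓞 L), Q.IsPrime → Q ≠ ⊥ → (∀ ℓ ∈ S, (((ℓ : Nat.Primes) : ℕ) : 𝓞 L) ∉ Q) →
      ∀ σ : L ≃ₐ[↥F] L, (∀ x : 𝓞 L, σ • x - x ∈ Q) → σ = 1)
    (φ : L →ₐ[↥F] Ω) : (embRange φ.toRingHom).IsUnramifiedOutside S := by
  refine ⟨finiteDimensional_embRange _, fun q hq A hA σ hσ => ?_⟩
  rw [IntermediateField.mem_fixingSubgroup_iff]
  rintro _ ⟨x, rfl⟩
  exact apply_eq_of_mem_inertia_of_unramified L hunr φ hq A hA hσ (hF.2 q hq A hA hσ) x

theorem le_embRange {F : IntermediateField ℚ Ω} (L : Type) [Field L] [NumberField L]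
    [Algebra ↥F L] (φ : L →ₐ[↥F] Ω) : F ≤ embRange φ.toRingHom := by
  intro y hy
  exact ⟨algebraMap ↥F L ⟨y, hy⟩, φ.commutes ⟨y, hy⟩⟩

/-- **BRIDGE**, level form: under the same hypotheses there is a level `F'` containing `F` and
`φ(L)`. -/
theorem exists_isLevel_ge_of_unramified {F : IntermediateField ℚ Ω} (hF : F.IsUnramifiedOutside S)
    (L : Type) [Field L] [NumberField L] [Algebra ↥F L] [IsGalois ↥F L]
    (hunr : ∀ Q : Ideal (𝓞 L), Q.IsPrime → Q ≠ ⊥ → (∀ ℓ ∈ S, (((ℓ : Nat.Primes) : ℕ) : 𝓞 L) ∉ Q) →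
      ∀ σ : L ≃ₐ[↥F] L, (∀ x : 𝓞 L, σ • x - x ∈ Q) → σ = 1)
    (φ : L →ₐ[↥F] Ω) :
    ∃ F' : IntermediateField ℚ Ω, IsLevel S F' ∧ F ≤ F' ∧ ∀ x : L, φ x ∈ F' := by
  obtain ⟨F', hF', hle⟩ := exists_isLevel_ge (isUnramifiedOutside_embRange hF L hunr φ)
  exact ⟨F', hF', (le_embRange L φ).trans hle, fun x => hle ⟨x, rfl⟩⟩

/-- an `F`-embedding of a finite extension into `Ω` exists. -/
theorem exists_algHom_of_finite {F : IntermediateField ℚ Ω} (L : Type) [Field L]
    [Algebra ↥F L] [Algebra.IsAlgebraic ↥F L] : Nonempty (L →ₐ[↥F] Ω) :=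
  ⟨IsAlgClosed.lift⟩

end bridge

end Fermat.Agent.CFT.Arith
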