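/-
S55 (Poitou–Tate), package PT3 (arithmetic modules), helper7.
PT3.f.1: Kummer capitulation. For a finite extension `F/ℚ` unramified outside `S` (`p ∈ S`) and
a finite idele `x` of `F`, some prime-to-`p` power of `x` becomes, over `ℚ_S`, the product of a
principal idele and an idele all of whose components are units.
-/
import Fermat.Agent.CFT.Arith.JS_helper7
import Fermat.Agent.CFT.Arith.LevelBridge_helper7
import Fermat.Agent.CFT.Global.G04_lead_Content
import Fermat.Agent.CFT.Global.G04_helper6_Integral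
import Fermat.Agent.CFT.Global.CycloArtin_lead_Units

set_option autoImplicit false
set_option linter.unusedSectionVars false
set_option linter.style.haveILetI false

open scoped TensorProduct Pointwise NumberField nonZeroDivisors
open IsDedekindDomain

namespace Fermat.Agent.CFT.Arith

open Fermat.Agent.CFT

/-! ### The class number in idelic form -/

section classnumber

variable (F : Type) [Field F] [NumberField F]

/-- **finiteness of the class group, idelic form**: there is `h > 0` such that the `h`-th power of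
every finite idele is a principal idele times an idele with unit components. -/
theorem exists_pow_mul_inv_mem_unitGroup :
    ∃ h : ℕ, 0 < h ∧ ∀ x : FinIdele F, ∃ a : Fˣ, ∀ ℓ : Nat.Primes,
      (x ^ h * (FinIdele.diag F a)⁻¹) ℓ ∈ SemiLocal.unitGroup ℓ F := by
  classical
  haveI : Fintype (ClassGroup (𝓞 F)) := inferInstance
  refine ⟨Fintype.card (ClassGroup (𝓞 F)), Fintype.card_pos, fun x => ?_⟩
  set h := Fintype.card (ClassGroup (𝓞 F)) with hh
  have hfin : ∀ᶠ P : HeightOneSpectrum (𝓞 F) in Filter.cofinite, x.ordP P = 0 := by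
    rw [Filter.eventually_cofinite]; exact x.finite_setOf_ordP_ne_zero
  set I : FractionalIdeal (𝓞 F)⁰ F :=
    ∏ᶠ P : HeightOneSpectrum (𝓞 F), (P.asIdeal : FractionalIdeal (𝓞 F)⁰ F) ^ x.ordP P with hI
  have hI0 : I ≠ 0 := by
    rw [hI, finprod_eq_prod_of_mulSupport_subset (s := x.finite_setOf_ordP_ne_zero.toFinset)]
    · refine Finset.prod_ne_zero_iff.2 fun P _ => zpow_ne_zero _ ?_
      exact FractionalIdeal.coeIdeal_ne_zero.2 P.ne_bot
    · intro P hP
      rw [Function.mem_mulSupport] at hP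
      rw [Set.Finite.coe_toFinset, Set.mem_ofPred_eq]
      intro h0
      rw [h0, zpow_zero] at hP
      exact hP rfl
  have hcount : ∀ P, FractionalIdeal.count F P I = x.ordP P := fun P =>
    FractionalIdeal.count_finprod F P _ hfin
  set Iu : (FractionalIdeal (𝓞 F)⁰ F)ˣ := Units.mk0 I hI0 with hIu
  have h1 : ClassGroup.mk F (Iu ^ h) = 1 := by
    rw [map_pow, hh]
    exact pow_card_eq_one
  rw [ClassGroup.mk_eq_one_iff] at h1
  obtain ⟨a, ha⟩ := @Submodule.IsPrincipal.principal _ _ _ _ _ _ h1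
  have ha' : ((Iu ^ h : (FractionalIdeal (𝓞 F)⁰ F)ˣ) : FractionalIdeal (𝓞 F)⁰ F) =
      FractionalIdeal.spanSingleton (𝓞 F)⁰ a := by
    apply Subtype.coe_injective
    simp only [FractionalIdeal.val_eq_coe, ha, FractionalIdeal.coe_spanSingleton]
  have ha0 : a ≠ 0 := by
    rintro rfl
    rw [FractionalIdeal.spanSingleton_zero] at ha'
    exact Units.ne_zero _ ha'
  have hIeq : I ^ h = FractionalIdeal.spanSingleton (𝓞 F)⁰ a := by
    rw [← ha', Units.val_pow_eq_pow_val, hIu, Units.val_mk0]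
  refine ⟨Units.mk0 a ha0, fun ℓ => ?_⟩
  rw [FinIdele.mem_unitGroup_iff_ordP]
  intro P hP
  have hpow : ∀ n : ℕ, (x ^ n).ordP P = n * x.ordP P := by
    intro n
    induction n with
    | zero => rw [pow_zero, FinIdele.ordP_one]; simp
    | succ n ih => rw [pow_succ, FinIdele.ordP_mul, ih]; push_cast; ring
  have hcountpow : FractionalIdeal.count F P (I ^ h) = h * x.ordP P := by
    rw [FractionalIdeal.count_pow, hcount]
  rw [FinIdele.ordP_mul, FinIdele.ordP_inv, FinIdele.ordP_diag, Units.val_mk0,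
    ← count_spanSingleton P ha0, ← hIeq, hcountpow, hpow]
  ring

end classnumber

/-! ### From integrality in `ℚ_ℓ ⊗ F` to valuation subrings of `Ω` -/

section integrality

/-- `Ω = AlgebraicClosure ℚ`. -/
local notation "Ω" => AlgebraicClosure ℚ
/-- `Γ = Gal(Ω/ℚ)`. -/
local notation "Γ" => (AlgebraicClosure ℚ ≃ₐ[ℚ] AlgebraicClosure ℚ)

/-- an integer prime to `ℓ` is a unit in every valuation subring over `ℓ`. -/
theorem valuation_intCast_eq_one_of_not_dvd' {K : Type*} [Field K] (A : ValuationSubring K)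
    {ℓ : ℕ} (hℓ : ℓ.Prime) (hA : A.LiesOverPrime ℓ) {d : ℤ} (hd : ¬ (ℓ : ℤ) ∣ d) :
    A.valuation (d : K) = 1 := by
  have hcop : IsCoprime (ℓ : ℤ) d :=
    (Int.prime_iff_natAbs_prime.mpr (by simpa using hℓ)).coprime_iff_not_dvd.mpr hd
  obtain ⟨u, v, huv⟩ := hcop
  have hℓA : A.valuation ((ℓ : ℕ) : K) < 1 := A.mem_nonunits_iff.mp hA
  have hint : ∀ n : ℤ, A.valuation (n : K) ≤ 1 := fun n =>
    (A.valuation_le_one_iff _).mpr (intCast_mem A n)
  have h1 : A.valuation ((u : K) * ((ℓ : ℕ) : K)) < 1 := by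
    rw [map_mul]
    calc A.valuation (u : K) * A.valuation ((ℓ : ℕ) : K) ≤ 1 * A.valuation ((ℓ : ℕ) : K) :=
          mul_le_mul_left (hint u) _
      _ < 1 := by rwa [one_mul]
  have h2 : (v : K) * (d : K) = 1 - (u : K) * ((ℓ : ℕ) : K) := by
    have := congrArg (fun n : ℤ => (n : K)) huv
    push_cast at this
    rw [← this]; ring
  have h3 : A.valuation ((v : K) * (d : K)) = 1 := by
    rw [h2]
    have := Valuation.map_one_sub_of_lt (v := A.valuation) h1
    exact this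
  rw [map_mul] at h3
  refine le_antisymm (hint d) ?_
  calc (1 : _) = A.valuation (v : K) * A.valuation (d : K) := h3.symm
    _ ≤ 1 * A.valuation (d : K) := mul_le_mul_left (hint v) _
    _ = A.valuation (d : K) := one_mul _

variable {F : IntermediateField ℚ Ω} [FiniteDimensional ℚ F]

/-- `F` is a number field. -/
theorem numberField_of_finiteDimensional : NumberField ↥F :=
  { to_charZero := inferInstance
    to_finiteDimensional := ‹FiniteDimensional ℚ F› }

/-- an element of `F` which is integral in `ℚ_ℓ ⊗ F` lies in every valuation subring of `Ω` over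
`ℓ`. -/
theorem mem_valuationSubring_of_of_mem_integers {ℓ : Nat.Primes} {z : ↥F}
    (hz : SemiLocal.of (ℓ : ℕ) ↥F z ∈ SemiLocal.integers (ℓ : ℕ) ↥F) (A : ValuationSubring Ω)
    (hA : A.LiesOverPrime (ℓ : ℕ)) : (z : Ω) ∈ A := by
  haveI : NumberField ↥F := numberField_of_finiteDimensional
  obtain ⟨d, hd, hint⟩ := exists_not_dvd_isIntegral_smul ℓ ((of_mem_integers_iff ℓ).mp hz)
  have h1 : IsIntegral ℤ ((d • z : ↥F) : Ω) := hint.map (F.val.toRingHom.toIntAlgHom)
  have h2 : ((d • z : ↥F) : Ω) ∈ A := mem_valuationSubring_of_isIntegral_int A h1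
  have h3 : ((d • z : ↥F) : Ω) = (d : Ω) * (z : Ω) := by
    rw [zsmul_eq_mul]
    push_cast
    rfl
  rw [h3, ← A.valuation_le_one_iff, map_mul,
    valuation_intCast_eq_one_of_not_dvd' A ℓ.2 hA hd, one_mul] at h2
  exact (A.valuation_le_one_iff _).mp h2

/-- a unit of `F` which is a unit of the maximal order of `ℚ_ℓ ⊗ F` is a unit of every valuation
subring of `Ω` over `ℓ`. -/
theorem mem_unitGroup_of_ofUnits_mem_unitGroup {ℓ : Nat.Primes} {z : (↥F)ˣ}
    (hz : SemiLocal.ofUnits (ℓ : ℕ) z ∈ SemiLocal.unitGroup (ℓ : ℕ) ↥F) (A : ValuationSubring Ω)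
    (hA : A.LiesOverPrime (ℓ : ℕ)) :
    Units.map (algebraMap ↥F Ω : ↥F →* Ω) z ∈ A.unitGroup := by
  rw [SemiLocal.mem_unitGroup_iff] at hz
  have h1 : ((z : ↥F) : Ω) ∈ A := mem_valuationSubring_of_of_mem_integers hz.1 A hA
  have h2 : (((z⁻¹ : (↥F)ˣ) : ↥F) : Ω) ∈ A := by
    apply mem_valuationSubring_of_of_mem_integers _ A hA
    have := hz.2
    rwa [← map_inv] at this
  rw [ValuationSubring.mem_unitGroup_iff]
  have e1 : ((Units.map (algebraMap ↥F Ω : ↥F →* Ω) z : Ωˣ) : Ω) = ((z : ↥F) : Ω) := rfl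
  rw [e1]
  have h3 : A.valuation ((z : ↥F) : Ω) * A.valuation (((z⁻¹ : (↥F)ˣ) : ↥F) : Ω) = 1 := by
    rw [← map_mul, ← IntermediateField.coe_mul, ← Units.val_mul, mul_inv_cancel, Units.val_one,
      IntermediateField.coe_one, map_one]
  have h4 := (A.valuation_le_one_iff _).mpr h1
  have h5 := (A.valuation_le_one_iff _).mpr h2
  refine le_antisymm h4 ?_
  calc (1 : _) = A.valuation ((z : ↥F) : Ω) * A.valuation (((z⁻¹ : (↥F)ˣ) : ↥F) : Ω) := h3.symm
    _ ≤ A.valuation ((z : ↥F) : Ω) * 1 := mul_le_mul_right h5 _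
    _ = A.valuation ((z : ↥F) : Ω) := mul_one _

end integrality

/-! ### Roots in `ℚ_S` -/

section roots

/-- `Ω = AlgebraicClosure ℚ`. -/
local notation "Ω" => AlgebraicClosure ℚ
/-- `Γ = Gal(Ω/ℚ)`. -/
local notation "Γ" => (AlgebraicClosure ℚ ≃ₐ[ℚ] AlgebraicClosure ℚ)

variable {S : Finset Nat.Primes}

/-- inertia outside `S` fixes `ℚ_S`. -/
theorem apply_eq_of_mem_QS {c : Ω} (hc : c ∈ QS S) {q : Nat.Primes} (hq : q ∉ S)
    (A : ValuationSubring Ω) (hA : A.LiesOverPrime (q : ℕ)) {σ : Γ}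
    (hσ : σ ∈ A.inertiaSubgroupIn ℚ) : σ c = c := by
  obtain ⟨F, hF, hcF⟩ := hc
  exact (IntermediateField.mem_fixingSubgroup_iff F σ).mp (hF.2 q hq A hA hσ) c hcF

/-- **`p`-th roots in `ℚ_S`** (`p ∈ S`): if `y ^ p ∈ ℚ_S` and, at every valuation subring `A`
outside `S`, `y` is a unit up to an element of `ℚ_S`, then `y ∈ ℚ_S`. -/
theorem mem_QS_of_pow_mem_of_local {p : ℕ} (hp : p.Prime) (hpS : (⟨p, hp⟩ : Nat.Primes) ∈ S)
    {y : Ω} (hy0 : y ≠ 0) (hy : y ^ p ∈ QS S)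
    (hloc : ∀ q : Nat.Primes, q ∉ S → ∀ A : ValuationSubring Ω, A.LiesOverPrime (q : ℕ) →
      ∃ c : Ω, c ∈ QS S ∧ c ≠ 0 ∧ A.valuation (y / c) = 1) : y ∈ QS S := by
  obtain ⟨F, hF, hxF⟩ := hy
  haveI := hF.1
  have hyint : IsIntegral ℚ y := (Algebra.IsAlgebraic.isAlgebraic y).isIntegral
  haveI : FiniteDimensional ℚ (IntermediateField.adjoin ℚ {y}) :=
    IntermediateField.adjoin.finiteDimensional hyint
  refine ⟨F ⊔ IntermediateField.adjoin ℚ {y},
    ⟨IntermediateField.finiteDimensional_sup _ _, fun q hq A hA σ hσ => ?_⟩,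
    (le_sup_right : _ ≤ F ⊔ IntermediateField.adjoin ℚ {y})
      (IntermediateField.mem_adjoin_simple_self ℚ y)⟩
  rw [IntermediateField.fixingSubgroup_sup]
  refine ⟨hF.2 q hq A hA hσ, ?_⟩
  -- `σ y = y`
  have hσx : σ (y ^ p) = y ^ p :=
    (IntermediateField.mem_fixingSubgroup_iff F σ).mp (hF.2 q hq A hA hσ) _ hxF
  obtain ⟨c, hc, hc0, hval⟩ := hloc q hq A hA
  have hσc : σ c = c := apply_eq_of_mem_QS hc hq A hA hσ
  set y' : Ω := y / c with hy'
  have hy'0 : y' ≠ 0 := div_ne_zero hy0 hc0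
  have hy'A : y' ∈ A := (A.valuation_le_one_iff _).mp hval.le
  have hy'invA : y'⁻¹ ∈ A := by
    rw [← A.valuation_le_one_iff, map_inv₀, hval, inv_one]
  set ζ : Ω := σ y * y⁻¹ with hζ
  have hζp : ζ ^ p = 1 := by
    rw [hζ, mul_pow, ← map_pow, hσx, ← mul_pow, mul_inv_cancel₀ hy0, one_pow]
  have hσy' : σ y' = ζ * y' := by
    rw [hy', map_div₀, hσc, hζ]
    field_simp
  have hζ1 : ζ - 1 ∈ A.nonunits := by
    have h1 := (mem_inertiaSubgroupIn_iff.mp hσ).2 y' hy'A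
    have h2 : ζ - 1 = (σ y' - y') * y'⁻¹ := by
      rw [hσy']
      field_simp
    rw [h2, ValuationSubring.mem_nonunits_iff, map_mul]
    rw [ValuationSubring.mem_nonunits_iff] at h1
    calc A.valuation (σ y' - y') * A.valuation y'⁻¹
        ≤ A.valuation (σ y' - y') * 1 :=
          mul_le_mul_right ((A.valuation_le_one_iff _).mpr hy'invA) _
      _ < 1 := by rwa [mul_one]
  have hpq : p ≠ (q : ℕ) := by
    rintro rfl
    exact hq hpS
  have hζone := eq_one_of_pow_eq_one_of_sub_one_mem_nonunits hp q.2 hpq hA hζp hζ1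
  have hσy : σ y = y := by
    have := congrArg (· * y) hζone
    simpa [hζ, mul_assoc, hy0] using this
  change σ ∈ (IntermediateField.adjoin ℚ {y}).fixingSubgroup
  rw [IntermediateField.mem_fixingSubgroup_iff]
  intro x hx
  induction hx using IntermediateField.adjoin_induction with
  | mem x hx => rw [Set.mem_singleton_iff.mp hx]; exact hσy
  | algebraMap x => exact σ.commutes x
  | add x y _ _ hx hy => rw [map_add, hx, hy]
  | inv x _ hx => rw [map_inv₀, hx]
  | mul x y _ _ hx hy => rw [map_mul, hx, hy]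

/-- **`p^k`-th roots in `ℚ_S`** (`p ∈ S`). -/
theorem mem_QS_of_pow_pow_mem_of_local {p : ℕ} (hp : p.Prime)
    (hpS : (⟨p, hp⟩ : Nat.Primes) ∈ S) (k : ℕ) :
    ∀ {y : Ω}, y ≠ 0 → y ^ (p ^ k) ∈ QS S →
      (∀ q : Nat.Primes, q ∉ S → ∀ A : ValuationSubring Ω, A.LiesOverPrime (q : ℕ) →
        ∃ c : Ω, c ∈ QS S ∧ c ≠ 0 ∧ A.valuation (y / c) = 1) → y ∈ QS S := by
  induction k with
  | zero =>
    intro y _ hy _
    simpa using hy
  | succ k ih =>
    intro y hy0 hy hloc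
    have h1 : y ^ p ∈ QS S := by
      apply ih (pow_ne_zero p hy0)
      · rw [← pow_mul, ← pow_succ']
        exact hy
      · intro q hq A hA
        obtain ⟨c, hc, hc0, hval⟩ := hloc q hq A hA
        refine ⟨c ^ p, pow_mem hc p, pow_ne_zero p hc0, ?_⟩
        rw [← div_pow, map_pow, hval, one_pow]
    exact mem_QS_of_pow_mem_of_local hp hpS hy0 h1 hloc

end roots

/-! ### Capitulation -/

section capitulation

/-- `Ω = AlgebraicClosure ℚ`. -/
local notation "Ω" => AlgebraicClosure ℚ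
/-- `Γ = Gal(Ω/ℚ)`. -/
local notation "Γ" => (AlgebraicClosure ℚ ≃ₐ[ℚ] AlgebraicClosure ℚ)

variable {S : Finset Nat.Primes}

/-- a unit of `ℚ_ℓ ⊗ F` some positive power of which is a unit of the maximal order is a unit of
the maximal order. -/
theorem mem_unitGroup_of_pow_mem_unitGroup {ℓ : ℕ} [Fact ℓ.Prime] {F : Type*} [Field F]
    [CharZero F] {w : (SemiLocal ℓ F)ˣ} {n : ℕ} (hn : 0 < n)
    (h : w ^ n ∈ SemiLocal.unitGroup ℓ F) : w ∈ SemiLocal.unitGroup ℓ F := by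
  rw [SemiLocal.mem_unitGroup_iff] at h ⊢
  refine ⟨IsIntegral.of_pow hn ?_, IsIntegral.of_pow hn ?_⟩
  · have := h.1
    rwa [Units.val_pow_eq_pow_val] at this
  · have := h.2
    rwa [← inv_pow, Units.val_pow_eq_pow_val] at this

/-- **KUMMER CAPITULATION** (`p ∈ S`): for a finite extension `F/ℚ` unramified outside `S` and a
finite idele `x` of `F` there are `m` prime to `p` and `β ∈ ℚ_Sˣ` such that `x ^ m / β`, viewed in
`∏_ℓ (ℚ_ℓ ⊗ Ω)ˣ`, has all its components in the unit groups of the maximal orders. -/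
theorem exists_capitulation {p : ℕ} (hp : p.Prime) (hpS : (⟨p, hp⟩ : Nat.Primes) ∈ S)
    {F : IntermediateField ℚ Ω} (hF : F.IsUnramifiedOutside S) (x : FinIdele ↥F) :
    ∃ m : ℕ, 0 < m ∧ ¬ p ∣ m ∧ ∃ β : Ωˣ, (β : Ω) ∈ QS S ∧ ∀ ℓ : Nat.Primes,
      SemiLocal.unitsMap (ℓ : ℕ) (algebraMap ↥F Ω) (x ℓ) ^ m * (SemiLocal.ofUnits (ℓ : ℕ) β)⁻¹ ∈
        SemiLocal.unitGroup (ℓ : ℕ) Ω := by
  haveI := hF.1
  haveI : NumberField ↥F := numberField_of_finiteDimensional
  obtain ⟨h, hpos, hh⟩ := exists_pow_mul_inv_mem_unitGroup ↥F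
  obtain ⟨a, ha⟩ := hh x
  obtain ⟨k, m, hm, hkm⟩ := Nat.exists_eq_pow_mul_and_not_dvd hpos.ne' p hp.ne_one
  have hmpos : 0 < m := Nat.pos_of_ne_zero (by rintro rfl; exact hm (dvd_zero p))
  -- a `p^k`-th root of `a`
  obtain ⟨β, hβ⟩ := IsAlgClosed.exists_pow_nat_eq (((a : ↥F) : Ω)) (pow_pos hp.pos k)
  have ha0 : ((a : ↥F) : Ω) ≠ 0 := fun h0 => a.ne_zero (Subtype.ext h0)
  have hβ0 : β ≠ 0 := by
    rintro rfl
    rw [zero_pow (pow_pos hp.pos k).ne'] at hβ
    exact ha0 hβ.symm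
  -- the components: `(x_ℓ)^h = a · u_ℓ`
  have hu : ∀ ℓ : Nat.Primes, (x ℓ) ^ h * (SemiLocal.ofUnits (ℓ : ℕ) a)⁻¹ ∈
      SemiLocal.unitGroup (ℓ : ℕ) ↥F := fun ℓ => ha ℓ
  -- `β ∈ ℚ_S`
  have hβQS : β ∈ QS S := by
    apply mem_QS_of_pow_pow_mem_of_local hp hpS k hβ0
    · rw [hβ]
      exact le_QS hF a.1.2
    · intro q hq A hA
      obtain ⟨c, u', hu', hxc⟩ := SemiLocal.exists_ofUnits_mul_eq (q : ℕ) ↥F ((x q) ^ m)
      -- `z = a / c^(p^k)` is a unit at `q`
      have hz : SemiLocal.ofUnits (q : ℕ) (a * (c ^ (p ^ k))⁻¹) ∈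
          SemiLocal.unitGroup (q : ℕ) ↥F := by
        have h1 : SemiLocal.ofUnits (q : ℕ) (a * (c ^ (p ^ k))⁻¹) =
            ((x q) ^ h * (SemiLocal.ofUnits (q : ℕ) a)⁻¹)⁻¹ * u' ^ (p ^ k) := by
          have h2 : (x q) ^ h = (SemiLocal.ofUnits (q : ℕ) c * u') ^ (p ^ k) := by
            rw [← hxc, ← pow_mul, mul_comm m, ← hkm]
          have key : ∀ A C U : (SemiLocal (q : ℕ) ↥F)ˣ, A * C⁻¹ = (C * U * A⁻¹)⁻¹ * U := by
            intro A C U
            rw [mul_inv_rev, mul_inv_rev, inv_inv]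
            rw [mul_comm U⁻¹, mul_assoc, mul_assoc, inv_mul_cancel, mul_one]
          rw [h2, map_mul, map_inv, map_pow, mul_pow]
          exact key _ _ _
        rw [h1]
        exact mul_mem (inv_mem (hu q)) (pow_mem hu' _)
      have hzA := mem_unitGroup_of_ofUnits_mem_unitGroup hz A hA
      rw [ValuationSubring.mem_unitGroup_iff] at hzA
      have hc0 : ((c : ↥F) : Ω) ≠ 0 := fun h0 => c.ne_zero (Subtype.ext h0)
      refine ⟨((c : ↥F) : Ω), le_QS hF c.1.2, hc0, ?_⟩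
      have h3 : (β / ((c : ↥F) : Ω)) ^ (p ^ k) =
          ((Units.map (algebraMap ↥F Ω : ↥F →* Ω) (a * (c ^ (p ^ k))⁻¹) : Ωˣ) : Ω) := by
        rw [div_pow, hβ]
        change _ = (((a * (c ^ (p ^ k))⁻¹ : (↥F)ˣ) : ↥F) : Ω)
        rw [Units.val_mul, Units.val_inv_eq_inv_val, Units.val_pow_eq_pow_val]
        push_cast
        rw [div_eq_mul_inv]
      have h4 : A.valuation (β / ((c : ↥F) : Ω)) ^ (p ^ k) = 1 := by
        rw [← map_pow, h3]
        exact hzA
      exact (pow_eq_one_iff_of_nonneg zero_le (pow_pos hp.pos k).ne').mp h4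
  refine ⟨m, hmpos, hm, Units.mk0 β hβ0, hβQS, fun ℓ => ?_⟩
  apply mem_unitGroup_of_pow_mem_unitGroup (pow_pos hp.pos k)
  have h5 : (SemiLocal.unitsMap (ℓ : ℕ) (algebraMap ↥F Ω) (x ℓ) ^ m *
      (SemiLocal.ofUnits (ℓ : ℕ) (Units.mk0 β hβ0))⁻¹) ^ (p ^ k) =
      SemiLocal.unitsMap (ℓ : ℕ) (algebraMap ↥F Ω)
        ((x ℓ) ^ h * (SemiLocal.ofUnits (ℓ : ℕ) a)⁻¹) := by
    have h6 : (Units.mk0 β hβ0) ^ (p ^ k) = Units.map (algebraMap ↥F Ω : ↥F →* Ω) a :=
      Units.ext (by simpa using hβ)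
    have h7 : SemiLocal.unitsMap (ℓ : ℕ) (algebraMap ↥F Ω) (SemiLocal.ofUnits (ℓ : ℕ) a) =
        SemiLocal.ofUnits (ℓ : ℕ) (Units.map (algebraMap ↥F Ω : ↥F →* Ω) a) := Units.ext rfl
    rw [mul_pow, ← pow_mul, mul_comm m, ← hkm, inv_pow, ← map_pow (SemiLocal.ofUnits (ℓ : ℕ)),
      h6, map_mul, map_inv, map_pow, h7]
  rw [h5]
  exact SemiLocal.unitsMap_mem_unitGroup (ℓ : ℕ) _ (hu ℓ)

end capitulation

end Fermat.Agent.CFT.Arith
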