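/-
S55 (Poitou–Tate), package PT3 (arithmetic modules), helper7.
`p`-power roots of unity lie in `ℚ_S` (`p ∈ S`): the cyclotomic fields `ℚ(ζ_{p^n}) ⊆ Ω` and all
their subfields are unramified outside `S` (in the Prelude's sense), hence contained in levels.
-/
import Fermat.Agent.CFT.Arith.ES_helper7

set_option autoImplicit false
set_option linter.unusedSectionVars false
set_option linter.style.haveILetI false

open scoped Pointwise

namespace Fermat.Agent.CFT.Arith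

section cyclo

/-- `Ω = AlgebraicClosure ℚ`. -/
local notation "Ω" => AlgebraicClosure ℚ
/-- `Γ = Gal(Ω/ℚ)`. -/
local notation "Γ" => (AlgebraicClosure ℚ ≃ₐ[ℚ] AlgebraicClosure ℚ)

variable {S : Finset Nat.Primes}

/-- `E_S` is closed under `p^n`-th roots (`p ∈ S`). -/
theorem mem_ES_of_pow_pow_mem {p : ℕ} (hp : p.Prime) (hpS : (⟨p, hp⟩ : Nat.Primes) ∈ S) (n : ℕ) :
    ∀ {y : Ωˣ}, y ^ (p ^ n) ∈ ES S → y ∈ ES S := by
  induction n with
  | zero => intro y hy; simpa using hy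
  | succ n ih =>
    intro y hy
    apply mem_ES_of_pow_mem hp hpS
    apply ih
    rw [← pow_mul, ← pow_succ']
    exact hy

/-- every `p^n`-th root of unity lies in `E_S` (`p ∈ S`). -/
theorem mem_ES_of_pow_pow_eq_one {p : ℕ} (hp : p.Prime) (hpS : (⟨p, hp⟩ : Nat.Primes) ∈ S) (n : ℕ)
    {y : Ωˣ} (hy : y ^ (p ^ n) = 1) : y ∈ ES S :=
  mem_ES_of_pow_pow_mem hp hpS n (by rw [hy]; exact one_mem _)

/-- every `p^n`-th root of unity lies in `ℚ_S` (`p ∈ S`). -/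
theorem mem_QS_of_pow_pow_eq_one {p : ℕ} (hp : p.Prime) (hpS : (⟨p, hp⟩ : Nat.Primes) ∈ S) (n : ℕ)
    {ζ : Ω} (hζ : ζ ^ (p ^ n) = 1) : ζ ∈ QS S := by
  have h0 : ζ ≠ 0 := by
    rintro rfl
    rw [zero_pow (pow_pos hp.pos n).ne'] at hζ
    exact zero_ne_one hζ
  have h1 : (Units.mk0 ζ h0) ^ (p ^ n) = 1 := Units.ext (by simpa using hζ)
  exact (mem_ES_of_pow_pow_eq_one hp hpS n h1).1

/-- **the cyclotomic field `ℚ(ζ)`, `ζ^(p^n) = 1`, is unramified outside `S`** (`p ∈ S`), in the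
Prelude's sense. -/
theorem isUnramifiedOutside_adjoin_of_pow_pow_eq_one {p : ℕ} (hp : p.Prime)
    (hpS : (⟨p, hp⟩ : Nat.Primes) ∈ S) (n : ℕ) {ζ : Ω} (hζ : ζ ^ (p ^ n) = 1) :
    (IntermediateField.adjoin ℚ {ζ}).IsUnramifiedOutside S := by
  have hint : IsIntegral ℚ ζ := (Algebra.IsAlgebraic.isAlgebraic ζ).isIntegral
  haveI : FiniteDimensional ℚ (IntermediateField.adjoin ℚ {ζ}) :=
    IntermediateField.adjoin.finiteDimensional hint
  apply isUnramifiedOutside_of_le_QS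
  rw [IntermediateField.adjoin_le_iff]
  rintro _ rfl
  exact mem_QS_of_pow_pow_eq_one hp hpS n hζ

/-- every subfield of `ℚ(ζ)`, `ζ^(p^n) = 1`, is unramified outside `S` (`p ∈ S`). -/
theorem isUnramifiedOutside_of_le_adjoin_of_pow_pow_eq_one {p : ℕ} (hp : p.Prime)
    (hpS : (⟨p, hp⟩ : Nat.Primes) ∈ S) (n : ℕ) {ζ : Ω} (hζ : ζ ^ (p ^ n) = 1)
    {F : IntermediateField ℚ Ω} (hF : F ≤ IntermediateField.adjoin ℚ {ζ}) :
    F.IsUnramifiedOutside S :=
  (isUnramifiedOutside_adjoin_of_pow_pow_eq_one hp hpS n hζ).of_le hF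

/-- every subfield `F` of `ℚ(ζ)`, `ζ^(p^n) = 1`, which is stable under `Γ` is a level (`p ∈ S`);
stability is automatic for abelian extensions, see `isLevel_of_le_adjoin_of_pow_pow_eq_one'`. -/
theorem isLevel_of_le_adjoin_of_pow_pow_eq_one {p : ℕ} (hp : p.Prime)
    (hpS : (⟨p, hp⟩ : Nat.Primes) ∈ S) (n : ℕ) {ζ : Ω} (hζ : ζ ^ (p ^ n) = 1)
    {F : IntermediateField ℚ Ω} (hF : F ≤ IntermediateField.adjoin ℚ {ζ})
    (hstab : ∀ (σ : Γ) (x : Ω), x ∈ F → σ x ∈ F) : IsLevel S F :=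
  ⟨isUnramifiedOutside_of_le_adjoin_of_pow_pow_eq_one hp hpS n hζ hF, hstab⟩

/-- two automorphisms commute on a root of unity. -/
theorem comm_apply_of_pow_eq_one {m : ℕ} (hm : 0 < m) {ζ : Ω} (hζ : ζ ^ m = 1) (σ τ : Γ) :
    σ (τ ζ) = τ (σ ζ) := by
  -- `ζ` is a primitive root of its order, and conjugates of `ζ` are powers of `ζ`
  set d := orderOf ζ with hd
  have hd0 : 0 < d := orderOf_pos_iff.mpr (isOfFinOrder_iff_pow_eq_one.mpr ⟨m, hm, hζ⟩)
  haveI : NeZero d := ⟨hd0.ne'⟩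
  have hprim : IsPrimitiveRoot ζ d := IsPrimitiveRoot.orderOf ζ
  have hpow : ∀ ρ : Γ, ∃ a : ℕ, ρ ζ = ζ ^ a := by
    intro ρ
    have h1 : (ρ ζ) ^ d = 1 := by rw [← map_pow, hprim.pow_eq_one, map_one]
    obtain ⟨a, -, ha⟩ := hprim.eq_pow_of_pow_eq_one h1
    exact ⟨a, ha.symm⟩
  obtain ⟨a, ha⟩ := hpow σ
  obtain ⟨b, hb⟩ := hpow τ
  rw [hb, map_pow, ha, map_pow, hb, ← pow_mul, ← pow_mul, mul_comm]

/-- every subfield of `ℚ(ζ)`, `ζ` a root of unity, is stable under `Γ`. -/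
theorem map_mem_of_le_adjoin_of_pow_eq_one {m : ℕ} (hm : 0 < m) {ζ : Ω} (hζ : ζ ^ m = 1)
    {F : IntermediateField ℚ Ω} (hF : F ≤ IntermediateField.adjoin ℚ {ζ}) (σ : Γ) {x : Ω}
    (hx : x ∈ F) : σ x ∈ F := by
  -- all automorphisms commute on `ℚ(ζ)`
  have hcomm : ∀ (ρ τ : Γ) (y : Ω), y ∈ IntermediateField.adjoin ℚ {ζ} → ρ (τ y) = τ (ρ y) := by
    intro ρ τ y hy
    induction hy using IntermediateField.adjoin_induction with
    | mem y hy => rw [Set.mem_singleton_iff.mp hy]; exact comm_apply_of_pow_eq_one hm hζ ρ τ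
    | algebraMap y => rw [τ.commutes, ρ.commutes, τ.commutes]
    | add y z _ _ hy hz => rw [map_add, map_add, hy, hz, map_add, map_add]
    | inv y _ hy => rw [map_inv₀, map_inv₀, hy, map_inv₀, map_inv₀]
    | mul y z _ _ hy hz => rw [map_mul, map_mul, hy, hz, map_mul, map_mul]
  rw [← InfiniteGalois.fixedField_fixingSubgroup F, IntermediateField.mem_fixedField_iff]
  intro h hh
  rw [hcomm h σ x (hF hx)]
  exact congrArg σ ((IntermediateField.mem_fixingSubgroup_iff F h).mp hh x hx)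

/-- **every subfield of `ℚ(ζ_{p^n}) ⊆ Ω` is a level** for `S ∋ p`. -/
theorem isLevel_of_le_adjoin_of_pow_pow_eq_one' {p : ℕ} (hp : p.Prime)
    (hpS : (⟨p, hp⟩ : Nat.Primes) ∈ S) (n : ℕ) {ζ : Ω} (hζ : ζ ^ (p ^ n) = 1)
    {F : IntermediateField ℚ Ω} (hF : F ≤ IntermediateField.adjoin ℚ {ζ}) : IsLevel S F :=
  isLevel_of_le_adjoin_of_pow_pow_eq_one hp hpS n hζ hF
    (fun σ _ hx => map_mem_of_le_adjoin_of_pow_eq_one (pow_pos hp.pos n) hζ hF σ hx)

end cyclo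

end Fermat.Agent.CFT.Arith
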