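/-
S55 / CFT (PT3.f / PT8 glue), helper7: consequences of the computation of the invariants of
`C' = DSm S` in the literal shapes of the abstract class formation theorem:
* `fin_DSm`: `C'^U / p` is finite for every open `U` (field `fin` of `PLevelFormation`);
* `rec_kerU_DSm`, `hker_DSm`: the existence theorem mod `p` in kernel form for the open subgroups
  below `G_{ℚ(ζ_p)}` (hypothesis `hker` of `PLevelFormation.isGlobalBelow`).
-/
import Fermat.Agent.CFT.Arith.DSInvEquiv_helper7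
import Fermat.Agent.CFT.Arith.CycloLevel_helper7
import Fermat.Agent.CFT.Global.PT6_helper1_RecKer

set_option autoImplicit false
set_option linter.unusedSectionVars false
set_option linter.style.haveILetI false

open scoped TensorProduct RestrictedProduct NumberField

namespace Fermat.Agent.CFT.Arith

open Fermat.Agent.CFT Fermat.Agent.CFT.Sm

/-- `Ω = AlgebraicClosure ℚ`. -/
local notation "Ω" => AlgebraicClosure ℚ
/-- `Γ = Gal(Ω/ℚ)`. -/
local notation "Γ" => (AlgebraicClosure ℚ ≃ₐ[ℚ] AlgebraicClosure ℚ)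

section consequences

variable {S : Finset Nat.Primes} {p : ℕ} [hp : Fact p.Prime]

/-- `U^S` in the two vocabularies. -/
theorem unitsOutside_eq_exUnits (K : Type) [Field K] [NumberField K] (T : Set Nat.Primes) :
    FinIdele.unitsOutside K T = PT6.exUnits K T := rfl

/-- **`fin`**: `C'^U/p` is finite for every open subgroup `U`. -/
theorem fin_DSm (hS : S.Nonempty) (hsplit : UnitsCocyclesSplit (S : Set Nat.Primes))
    (U : Subgroup Γ) (hU : (levelBasis S).IsOpen U) :
    ∃ T : Finset (DSm S).obj.V, ∀ c : (DSm S).obj.V, (∀ g ∈ U, (DSm S).obj.ρ g c = c) →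
      ∃ t ∈ T, ∃ c' : (DSm S).obj.V, (∀ g ∈ U, (DSm S).obj.ρ g c' = c') ∧ c = t + p • c' := by
  obtain ⟨E, hE, rfl⟩ := exists_eq_fixingSubgroup_of_isOpen hU
  haveI := hE.1
  haveI : NumberField ↥E := numberField_of_finiteDimensional
  obtain ⟨T, hT⟩ := PT6.fin_of_addEquiv (p := p) (S := S) (resSub (DSm S) E.fixingSubgroup) ↥E _ rfl
    (invDSEquiv hS hsplit hE)
  refine ⟨T, fun c hc => ?_⟩
  obtain ⟨t, ht, c', hc', h⟩ := hT c (fun g => hc g.1 g.2)
  exact ⟨t, ht, c', fun g hg => hc' ⟨g, hg⟩, h⟩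

/-- **existence theorem mod `p`, kernel form**, for `U = Gal(Ω/E)` with `ζ_p ∈ E`. -/
theorem rec_kerU_DSm (hp2 : p ≠ 2) (hpS : (⟨p, hp.out⟩ : Nat.Primes) ∈ S)
    (hsplit : UnitsCocyclesSplit (S : Set Nat.Primes))
    {E : IntermediateField ℚ Ω} [NumberField ↥E] (hE : E.IsUnramifiedOutside S)
    {ζ : ↥E} (hζ : IsPrimitiveRoot ζ p)
    (inv : smH ((levelBasis S).sub E.fixingSubgroup) (resSub (DSm S) E.fixingSubgroup) 2 →+
      AddCircle (1 : ℚ))
    (hsurj : ∀ φ : CharacterModule (smH ((levelBasis S).sub E.fixingSubgroup)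
        (trivSm ℤ ((levelBasis S).sub E.fixingSubgroup) (ZMod p)) 1),
      ∃ (c : (resSub (DSm S) E.fixingSubgroup).obj.V)
        (hc : ∀ g, (resSub (DSm S) E.fixingSubgroup).obj.ρ g c = c),
        recMap ((levelBasis S).sub E.fixingSubgroup) p (resSub (DSm S) E.fixingSubgroup) inv c hc
          = φ) :
    ∀ (c : (resSub (DSm S) E.fixingSubgroup).obj.V)
      (hc : ∀ g, (resSub (DSm S) E.fixingSubgroup).obj.ρ g c = c),
      recMap ((levelBasis S).sub E.fixingSubgroup) p (resSub (DSm S) E.fixingSubgroup) inv c hc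
        = 0 →
      ∃ c' : (resSub (DSm S) E.fixingSubgroup).obj.V,
        (∀ g, (resSub (DSm S) E.fixingSubgroup).obj.ρ g c' = c') ∧ p • c' = c :=
  PT6.rec_ker_of_addEquiv hp2 hpS hE hζ (resSub (DSm S) E.fixingSubgroup) inv hsurj _ rfl
    (invDSEquiv ⟨_, hpS⟩ hsplit hE)

/-- `G_{ℚ(ζ_p)}` is open. -/
theorem isOpen_fixingSubgroup_adjoin_zeta (hpS : (⟨p, hp.out⟩ : Nat.Primes) ∈ S) {ζ₀ : Ω}
    (hζ₀ : ζ₀ ^ p = 1) :
    (levelBasis S).IsOpen (IntermediateField.adjoin ℚ {ζ₀}).fixingSubgroup :=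
  isOpen_fixingSubgroup (isUnramifiedOutside_adjoin_of_pow_pow_eq_one hp.out hpS 1
    (by rwa [pow_one]))

/-- **`hker`** of `PLevelFormation.isGlobalBelow` for `C' = DSm S` and `U₀ = G_{ℚ(ζ_p)}`: the
existence theorem mod `p` in kernel form for every open subgroup `U ≤ G_{ℚ(ζ_p)}`, for any
`p`-class formation on `DSm S`. -/
theorem hker_DSm (hp2 : p ≠ 2) (hpS : (⟨p, hp.out⟩ : Nat.Primes) ∈ S)
    (hsplit : UnitsCocyclesSplit (S : Set Nat.Primes)) {ζ₀ : Ω} (hζ₀ : IsPrimitiveRoot ζ₀ p)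
    (form : PClassFormation (levelBasis S) p (DSm S)) :
    ∀ (U : Subgroup Γ) (hU : (levelBasis S).IsOpen U),
      U ≤ (IntermediateField.adjoin ℚ {ζ₀}).fixingSubgroup →
      ∀ (c : (resSub (DSm S) U).obj.V) (hc : ∀ g, (resSub (DSm S) U).obj.ρ g c = c),
        recMap ((levelBasis S).sub U) p (resSub (DSm S) U) (form.invU U hU) c hc = 0 →
        ∃ c' : (resSub (DSm S) U).obj.V,
          (∀ g, (resSub (DSm S) U).obj.ρ g c' = c') ∧ p • c' = c := by
  intro U hU hle
  obtain ⟨E, hE, rfl⟩ := exists_eq_fixingSubgroup_of_isOpen hU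
  haveI := hE.1
  haveI : NumberField ↥E := numberField_of_finiteDimensional
  have hζE : ζ₀ ∈ E := by
    have h1 := IntermediateField.fixedField_antitone hle
    rw [InfiniteGalois.fixedField_fixingSubgroup, InfiniteGalois.fixedField_fixingSubgroup] at h1
    exact h1 (IntermediateField.mem_adjoin_simple_self ℚ ζ₀)
  have hζ : IsPrimitiveRoot (⟨ζ₀, hζE⟩ : ↥E) p :=
    IsPrimitiveRoot.coe_submonoidClass_iff.mp hζ₀
  exact rec_kerU_DSm hp2 hpS hsplit hE hζ (form.invU _ hU) (form.baseU _ hU).rec_surj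

end consequences

end Fermat.Agent.CFT.Arith
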