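/-
S55 / CFT (PT3.f), helper7: the big arithmetic objects at infinite level.

* `FinIdele.unitsOutside F S` (`U^S_F`: units outside `S`, `1` at `S`), for any field `F`;
* descent of finite ideles at infinite level: `(J_Ω)^{Gal(Ω/F)} = J_F`;
* `IdS S` (`𝕁`): the `S`-unramified finite ideles of `Ω = ℚ̄` (union of the `J_F`, `F` finite
  unramified outside `S`), a discrete `Γ`-module;
* `QSx S` (`ℚ_Sˣ`), its diagonal image `PS S ≤ IdS S`, the units `US S ≤ IdS S` (`𝕌^S`);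
* `IdClS S := 𝕁 / ℚ_Sˣ` (the idele class group of `ℚ_S`) and `DS S := 𝕁 / (ℚ_Sˣ · 𝕌^S)`
  (the `S`-idele class group `C_S(ℚ_S)` of Neukirch–Schmidt–Wingberg), discrete `Γ`-modules.
-/
import Fermat.Agent.CFT.Arith.CS_helper7
import Fermat.Agent.CFT.Arith.Basis_helper7
import Fermat.Agent.CFT.Global.G01_helper7_Invariants

set_option autoImplicit false
set_option linter.unusedSectionVars false
set_option linter.style.haveILetI false

open scoped TensorProduct RestrictedProduct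

namespace Fermat.Agent.CFT

/-! ### Units outside `S` -/

namespace FinIdele

section unitsOutside

variable (F : Type*) [Field F] [CharZero F]

/-- `U^S`: the finite ideles which are units outside `S` and `1` at the primes of `S`. -/
def unitsOutside (S : Set Nat.Primes) : Subgroup (FinIdele F) where
  carrier := {x | (∀ ℓ : Nat.Primes, ℓ ∉ S → x ℓ ∈ SemiLocal.unitGroup ℓ F) ∧
    ∀ ℓ : Nat.Primes, ℓ ∈ S → x ℓ = 1}
  mul_mem' := fun {x y} hx hy =>
    ⟨fun ℓ hℓ => (SemiLocal.unitGroup ℓ F).mul_mem (hx.1 ℓ hℓ) (hy.1 ℓ hℓ), fun ℓ hℓ => by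
      have : (x * y) ℓ = x ℓ * y ℓ := rfl
      rw [this, hx.2 ℓ hℓ, hy.2 ℓ hℓ, one_mul]⟩
  one_mem' := ⟨fun ℓ _ => (SemiLocal.unitGroup ℓ F).one_mem, fun _ _ => rfl⟩
  inv_mem' := fun {x} hx =>
    ⟨fun ℓ hℓ => (SemiLocal.unitGroup ℓ F).inv_mem (hx.1 ℓ hℓ), fun ℓ hℓ => by
      have : (x⁻¹) ℓ = (x ℓ)⁻¹ := rfl
      rw [this, hx.2 ℓ hℓ, inv_one]⟩

variable {F}

theorem mem_unitsOutside_iff {S : Set Nat.Primes} {x : FinIdele F} :
    x ∈ unitsOutside F S ↔ (∀ ℓ : Nat.Primes, ℓ ∉ S → x ℓ ∈ SemiLocal.unitGroup ℓ F) ∧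
      ∀ ℓ : Nat.Primes, ℓ ∈ S → x ℓ = 1 := Iff.rfl

theorem smul_mem_unitsOutside_iff {G : Type*} [Group G] [MulSemiringAction G F]
    {S : Set Nat.Primes} (g : G) {x : FinIdele F} :
    g • x ∈ unitsOutside F S ↔ x ∈ unitsOutside F S := by
  rw [mem_unitsOutside_iff, mem_unitsOutside_iff]
  refine and_congr (forall₂_congr fun ℓ _ => ?_) (forall₂_congr fun ℓ _ => ?_)
  · rw [smul_apply]
    exact SemiLocal.smul_mem_unitGroup_iff (ℓ : ℕ) g
  · rw [smul_apply]
    constructor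
    · intro h
      have := congrArg (fun y => g⁻¹ • y) h
      simpa using this
    · intro h
      rw [h, smul_one]

end unitsOutside

section mapUnitsOutside

variable (K L : Type*) [Field K] [CharZero K] [Field L] [CharZero L] [Algebra K L]

theorem map_mem_unitsOutside_iff {S : Set Nat.Primes} {x : FinIdele K} :
    FinIdele.map (algebraMap K L) x ∈ unitsOutside L S ↔ x ∈ unitsOutside K S := by
  rw [mem_unitsOutside_iff, mem_unitsOutside_iff]
  refine and_congr (forall₂_congr fun ℓ _ => ?_) (forall₂_congr fun ℓ _ => ?_)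
  · rw [map_apply]
    exact SemiLocal.unitsMap_mem_unitGroup_iff (ℓ : ℕ) K L
  · rw [map_apply]
    constructor
    · intro h
      apply SemiLocal.unitsMap_injective (ℓ : ℕ) K L
      rw [h, map_one]
    · intro h
      rw [h, map_one]

end mapUnitsOutside

end FinIdele

end Fermat.Agent.CFT

namespace Fermat.Agent.CFT.Arith

/-- `Ω = AlgebraicClosure ℚ`. -/
local notation "Ω" => AlgebraicClosure ℚ
/-- `Γ = Gal(Ω/ℚ)`. -/
local notation "Γ" => (AlgebraicClosure ℚ ≃ₐ[ℚ] AlgebraicClosure ℚ)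

/-! ### Descent of finite ideles at infinite level -/

section descent

/-- **Galois descent of finite ideles at infinite level**: the invariants of `Gal(Ω/F)` in the
finite ideles of `Ω` are the finite ideles of `F`, for every intermediate field `F`. -/
theorem finIdele_mem_range_map_iff_fixed (F : IntermediateField ℚ Ω) (x : FinIdele Ω) :
    x ∈ (FinIdele.map (algebraMap F Ω)).range ↔ ∀ σ ∈ F.fixingSubgroup, σ • x = x := by
  constructor
  · rintro ⟨z, rfl⟩ σ hσ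
    apply RestrictedProduct.ext
    intro ℓ
    rw [FinIdele.smul_apply, FinIdele.map_apply]
    exact (units_mem_range_unitsMap_iff_fixed (ℓ : ℕ) F _).mp ⟨z ℓ, rfl⟩ σ hσ
  · intro h
    have h1 : ∀ ℓ : Nat.Primes, ∃ z : (SemiLocal ℓ F)ˣ,
        SemiLocal.unitsMap ℓ (algebraMap F Ω) z = x ℓ := by
      intro ℓ
      apply (units_mem_range_unitsMap_iff_fixed (ℓ : ℕ) F _).mpr
      intro σ hσ
      rw [← FinIdele.smul_apply, h σ hσ]
    choose z hz using h1
    refine ⟨⟨z, ?_⟩, ?_⟩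
    · filter_upwards [x.2] with ℓ hℓ
      have hℓ' : SemiLocal.unitsMap ℓ (algebraMap F Ω) (z ℓ) ∈ SemiLocal.unitGroup (ℓ : ℕ) Ω := by
        rw [hz ℓ]; exact hℓ
      exact (SemiLocal.unitsMap_mem_unitGroup_iff (ℓ : ℕ) F Ω).mp hℓ'
    · apply RestrictedProduct.ext
      intro ℓ
      exact hz ℓ

theorem range_finIdeleMap_mono {F F' : IntermediateField ℚ Ω} (h : F ≤ F') :
    (FinIdele.map (algebraMap F Ω)).range ≤ (FinIdele.map (algebraMap F' Ω)).range := by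
  intro x hx
  rw [finIdele_mem_range_map_iff_fixed] at hx ⊢
  exact fun σ hσ => hx σ (IntermediateField.fixingSubgroup_antitone h hσ)

end descent

/-! ### The `S`-unramified ideles `𝕁` -/

section IdS

variable (S : Finset Nat.Primes)

/-- `𝕁`: the finite ideles of `Ω` coming from `J_F` for some finite `F` unramified outside `S`. -/
def IdS : Subgroup (FinIdele Ω) where
  carrier := {x | ∃ F : IntermediateField ℚ Ω, F.IsUnramifiedOutside S ∧
    x ∈ (FinIdele.map (algebraMap F Ω)).range}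
  mul_mem' := by
    rintro x y ⟨F, hF, hx⟩ ⟨F', hF', hy⟩
    exact ⟨F ⊔ F', hF.sup hF', mul_mem (range_finIdeleMap_mono le_sup_left hx)
      (range_finIdeleMap_mono le_sup_right hy)⟩
  one_mem' := ⟨⊥, IntermediateField.isUnramifiedOutside_bot S, one_mem _⟩
  inv_mem' := by
    rintro x ⟨F, hF, hx⟩
    exact ⟨F, hF, inv_mem hx⟩

variable {S}

theorem mem_IdS_iff {x : FinIdele Ω} : x ∈ IdS S ↔
    ∃ F : IntermediateField ℚ Ω, F.IsUnramifiedOutside S ∧
      x ∈ (FinIdele.map (algebraMap F Ω)).range := Iff.rfl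

theorem mem_IdS_iff_exists_isLevel {x : FinIdele Ω} : x ∈ IdS S ↔
    ∃ F : IntermediateField ℚ Ω, IsLevel S F ∧
      x ∈ (FinIdele.map (algebraMap F Ω)).range := by
  constructor
  · rintro ⟨F, hF, hx⟩
    obtain ⟨F', hF', hle⟩ := exists_isLevel_ge hF
    exact ⟨F', hF', range_finIdeleMap_mono hle hx⟩
  · rintro ⟨F, hF, hx⟩
    exact ⟨F, hF.1, hx⟩

/-- **discreteness of `𝕁`**: every element is fixed by `Gal(Ω/F)` for some level `F`. -/
theorem exists_isLevel_fixes_of_mem_IdS {x : FinIdele Ω} (hx : x ∈ IdS S) :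
    ∃ F : IntermediateField ℚ Ω, IsLevel S F ∧ ∀ σ ∈ F.fixingSubgroup, σ • x = x := by
  obtain ⟨F, hF, hx⟩ := mem_IdS_iff_exists_isLevel.mp hx
  exact ⟨F, hF, (finIdele_mem_range_map_iff_fixed F x).mp hx⟩

/-- **invariants of `𝕁`**: the elements of `𝕁` fixed by `Gal(Ω/F)`, `F` unramified outside `S`,
are the finite ideles of `F`. -/
theorem mem_IdS_and_fixed_iff {F : IntermediateField ℚ Ω} (hF : F.IsUnramifiedOutside S)
    {x : FinIdele Ω} : (x ∈ IdS S ∧ ∀ σ ∈ F.fixingSubgroup, σ • x = x) ↔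
      x ∈ (FinIdele.map (algebraMap F Ω)).range := by
  constructor
  · rintro ⟨-, h⟩
    exact (finIdele_mem_range_map_iff_fixed F x).mpr h
  · intro h
    exact ⟨⟨F, hF, h⟩, (finIdele_mem_range_map_iff_fixed F x).mp h⟩

theorem map_mem_IdS {F : IntermediateField ℚ Ω} (hF : F.IsUnramifiedOutside S)
    (y : FinIdele F) : FinIdele.map (algebraMap F Ω) y ∈ IdS S := ⟨F, hF, y, rfl⟩

/-- `𝕁` is stable under `Γ`. -/
theorem smul_mem_IdS (σ : Γ) {x : FinIdele Ω} (hx : x ∈ IdS S) : σ • x ∈ IdS S := by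
  obtain ⟨F, hF, hx⟩ := mem_IdS_iff_exists_isLevel.mp hx
  refine ⟨F, hF.1, ?_⟩
  rw [finIdele_mem_range_map_iff_fixed] at hx ⊢
  intro τ hτ
  haveI := hF.normal_fixingSubgroup
  have h1 : σ⁻¹ * τ * σ ∈ F.fixingSubgroup := by
    have := Subgroup.Normal.conj_mem ‹(F.fixingSubgroup).Normal› τ hτ σ⁻¹
    simpa using this
  have h2 := hx _ h1
  rw [← smul_smul, ← smul_smul, inv_smul_eq_iff] at h2
  exact h2

theorem smul_mem_IdS_iff (σ : Γ) {x : FinIdele Ω} : σ • x ∈ IdS S ↔ x ∈ IdS S :=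
  ⟨fun h => by have := smul_mem_IdS σ⁻¹ h; rwa [inv_smul_smul] at this, smul_mem_IdS σ⟩

/-- `Γ` acts on `𝕁`. -/
noncomputable instance IdSAction : MulDistribMulAction Γ (IdS S) where
  smul σ x := ⟨σ • (x : FinIdele Ω), smul_mem_IdS σ x.2⟩
  one_smul x := Subtype.ext (one_smul Γ (x : FinIdele Ω))
  mul_smul σ τ x := Subtype.ext (mul_smul σ τ (x : FinIdele Ω))
  smul_mul σ x y := Subtype.ext (smul_mul' σ (x : FinIdele Ω) (y : FinIdele Ω))
  smul_one σ := Subtype.ext (smul_one σ)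

@[simp] theorem coe_smul_IdS (σ : Γ) (x : IdS S) :
    ((σ • x : IdS S) : FinIdele Ω) = σ • (x : FinIdele Ω) := rfl

theorem exists_isLevel_fixes_IdS (x : IdS S) :
    ∃ F : IntermediateField ℚ Ω, IsLevel S F ∧ ∀ σ ∈ F.fixingSubgroup, σ • x = x := by
  obtain ⟨F, hF, h⟩ := exists_isLevel_fixes_of_mem_IdS x.2
  exact ⟨F, hF, fun σ hσ => Subtype.ext (h σ hσ)⟩

end IdS

/-! ### Quotients of discrete modules -/

section quotientAction

variable {G M : Type*} [Group G] [CommGroup M] [MulDistribMulAction G M]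

/-- the action on the quotient of a commutative group by a stable subgroup. -/
@[reducible] noncomputable def quotientMulDistribMulAction (N : Subgroup M)
    (hN : ∀ (g : G) (x : M), x ∈ N → g • x ∈ N) : MulDistribMulAction G (M ⧸ N) where
  smul g := QuotientGroup.map N N (MulDistribMulAction.toMonoidHom M g)
    (fun x hx => Subgroup.mem_comap.mpr (hN g x hx))
  one_smul x := by
    induction x using QuotientGroup.induction_on with
    | H x => exact congrArg (QuotientGroup.mk' N) (one_smul G x)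
  mul_smul g h x := by
    induction x using QuotientGroup.induction_on with
    | H x => exact congrArg (QuotientGroup.mk' N) (mul_smul g h x)
  smul_mul g x y := map_mul _ x y
  smul_one g := map_one _

end quotientAction

/-! ### `ℚ_Sˣ`, the principal ideles and the units outside `S` -/

section subgroups

variable (S : Finset Nat.Primes)

/-- `ℚ_Sˣ` as a subgroup of `Ωˣ`. -/
def QSx : Subgroup Ωˣ where
  carrier := {a | (a : Ω) ∈ QS S}
  mul_mem' := by
    intro a b ha hb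
    change ((a * b : Ωˣ) : Ω) ∈ QS S
    rw [Units.val_mul]
    exact mul_mem ha hb
  one_mem' := by
    change ((1 : Ωˣ) : Ω) ∈ QS S
    rw [Units.val_one]
    exact one_mem _
  inv_mem' := by
    intro a ha
    change ((a⁻¹ : Ωˣ) : Ω) ∈ QS S
    rw [Units.val_inv_eq_inv_val]
    exact inv_mem ha

variable {S}

theorem mem_QSx_iff {a : Ωˣ} : a ∈ QSx S ↔ (a : Ω) ∈ QS S := Iff.rfl

theorem ES_le_QSx : ES S ≤ QSx S := fun _ hx => hx.1

theorem smul_mem_QSx (σ : Γ) {a : Ωˣ} (ha : a ∈ QSx S) : σ • a ∈ QSx S :=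
  map_mem_QS σ ha

/-- `Γ` acts on `ℚ_Sˣ`. -/
noncomputable instance QSxAction : MulDistribMulAction Γ (QSx S) where
  smul σ x := ⟨σ • (x : Ωˣ), smul_mem_QSx σ x.2⟩
  one_smul x := Subtype.ext (one_smul Γ (x : Ωˣ))
  mul_smul σ τ x := Subtype.ext (mul_smul σ τ (x : Ωˣ))
  smul_mul σ x y := Subtype.ext (smul_mul' σ (x : Ωˣ) (y : Ωˣ))
  smul_one σ := Subtype.ext (smul_one σ)

@[simp] theorem coe_smul_QSx (σ : Γ) (x : QSx S) : ((σ • x : QSx S) : Ωˣ) = σ • (x : Ωˣ) := rfl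

/-- the diagonal image of `ℚ_Sˣ` lies in `𝕁`. -/
theorem diag_mem_IdS {a : Ωˣ} (ha : a ∈ QSx S) : FinIdele.diag Ω a ∈ IdS S := by
  obtain ⟨F, hF, haF⟩ := ha
  refine ⟨F, hF, ?_⟩
  haveI := hF.1
  haveI : Algebra.IsAlgebraic ℚ ↥F := Algebra.IsAlgebraic.of_finite ℚ ↥F
  have ha0 : (⟨(a : Ω), haF⟩ : F) ≠ 0 := fun h => a.ne_zero (congrArg Subtype.val h)
  refine ⟨FinIdele.diag F (Units.mk0 ⟨(a : Ω), haF⟩ ha0), ?_⟩
  rw [FinIdele.map_diag]
  congr 1
  apply Units.ext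
  rfl

variable (S)

/-- the diagonal embedding `ℚ_Sˣ → 𝕁`. -/
noncomputable def diagQS : QSx S →* IdS S where
  toFun a := ⟨FinIdele.diag Ω (a : Ωˣ), diag_mem_IdS a.2⟩
  map_one' := Subtype.ext (map_one (FinIdele.diag Ω))
  map_mul' a b := Subtype.ext (map_mul (FinIdele.diag Ω) (a : Ωˣ) (b : Ωˣ))

variable {S}

@[simp] theorem coe_diagQS (a : QSx S) :
    ((diagQS S a : IdS S) : FinIdele Ω) = FinIdele.diag Ω (a : Ωˣ) := rfl

theorem diagQS_injective : Function.Injective (diagQS S) := by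
  intro a b h
  apply Subtype.ext
  exact FinIdele.diag_injective (congrArg Subtype.val h)

theorem diagQS_smul (σ : Γ) (a : QSx S) : diagQS S (σ • a) = σ • diagQS S a := by
  apply Subtype.ext
  rw [coe_smul_IdS, coe_diagQS, coe_diagQS, FinIdele.smul_diag]
  rfl

variable (S)

/-- the principal ideles `ℚ_Sˣ ≤ 𝕁`. -/
noncomputable def PS : Subgroup (IdS S) := (diagQS S).range

/-- the units outside `S`, `𝕌^S ≤ 𝕁`. -/
noncomputable def US : Subgroup (IdS S) := (FinIdele.unitsOutside Ω (S : Set Nat.Primes)).subgroupOf (IdS S)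

variable {S}

theorem mem_PS_iff {x : IdS S} : x ∈ PS S ↔ ∃ a : QSx S, diagQS S a = x := Iff.rfl

theorem mem_US_iff {x : IdS S} : x ∈ US S ↔
    (∀ ℓ : Nat.Primes, ℓ ∉ S → (x : FinIdele Ω) ℓ ∈ SemiLocal.unitGroup ℓ Ω) ∧
      ∀ ℓ : Nat.Primes, ℓ ∈ S → (x : FinIdele Ω) ℓ = 1 := Iff.rfl

theorem smul_mem_PS (σ : Γ) {x : IdS S} (hx : x ∈ PS S) : σ • x ∈ PS S := by
  obtain ⟨a, rfl⟩ := hx
  exact ⟨σ • a, diagQS_smul σ a⟩

theorem smul_mem_US (σ : Γ) {x : IdS S} (hx : x ∈ US S) : σ • x ∈ US S :=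
  (FinIdele.smul_mem_unitsOutside_iff σ).mpr hx

theorem smul_mem_PS_sup_US (σ : Γ) {x : IdS S} (hx : x ∈ PS S ⊔ US S) : σ • x ∈ PS S ⊔ US S := by
  obtain ⟨y, hy, z, hz, rfl⟩ := Subgroup.mem_sup.mp hx
  rw [smul_mul']
  exact Subgroup.mul_mem_sup (smul_mem_PS σ hy) (smul_mem_US σ hz)

/-- `ℚ_Sˣ ∩ 𝕌^S = 1` (for `S ≠ ∅`). -/
theorem PS_inf_US (hS : S.Nonempty) : PS S ⊓ US S = ⊥ := by
  rw [eq_bot_iff]
  rintro x ⟨⟨a, rfl⟩, hx2⟩
  obtain ⟨ℓ, hℓ⟩ := hS
  have h1 : SemiLocal.ofUnits (ℓ : ℕ) (a : Ωˣ) = 1 := hx2.2 ℓ hℓ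
  have h2 : (a : Ωˣ) = 1 := by
    apply SemiLocal.ofUnits_injective (ℓ : ℕ)
    rw [h1, map_one]
  have h3 : a = 1 := Subtype.ext h2
  rw [h3, map_one]
  exact Subgroup.mem_bot.mpr rfl

/-- uniqueness of the decomposition in `ℚ_Sˣ · 𝕌^S`. -/
theorem eq_and_eq_of_mul_eq_mul (hS : S.Nonempty) {a b u v : IdS S} (ha : a ∈ PS S)
    (hb : b ∈ PS S) (hu : u ∈ US S) (hv : v ∈ US S) (h : a * u = b * v) : a = b ∧ u = v := by
  have h1 : b⁻¹ * a = v * u⁻¹ := by
    rw [inv_mul_eq_iff_eq_mul, ← mul_assoc, ← h, mul_assoc, mul_inv_cancel, mul_one]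
  have h2 : b⁻¹ * a ∈ PS S ⊓ US S :=
    Subgroup.mem_inf.mpr ⟨(PS S).mul_mem ((PS S).inv_mem hb) ha,
      by rw [h1]; exact (US S).mul_mem hv ((US S).inv_mem hu)⟩
  rw [PS_inf_US hS, Subgroup.mem_bot] at h2
  have h3 : a = b := by rw [inv_mul_eq_one] at h2; exact h2.symm
  refine ⟨h3, ?_⟩
  rw [h3] at h
  exact mul_left_cancel h

end subgroups

/-! ### The idele class group of `ℚ_S` and the `S`-idele class group -/

section classes

variable (S : Finset Nat.Primes)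

/-- `ℂ = 𝕁 / ℚ_Sˣ`: the (finite) idele class group of `ℚ_S`. -/
def IdClS : Type := IdS S ⧸ PS S

noncomputable instance IdClS.commGroup : CommGroup (IdClS S) :=
  inferInstanceAs (CommGroup (IdS S ⧸ PS S))

/-- `C' = 𝕁 / (ℚ_Sˣ · 𝕌^S)`: the `S`-idele class group of `ℚ_S` (Neukirch–Schmidt–Wingberg's
`C_S(ℚ_S) = colim_F J_F / (Fˣ · U^S_F)`). -/
def DS : Type := IdS S ⧸ (PS S ⊔ US S)

noncomputable instance DS.commGroup : CommGroup (DS S) :=
  inferInstanceAs (CommGroup (IdS S ⧸ (PS S ⊔ US S)))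

/-- The projection `𝕁 → ℂ`. -/
noncomputable def mkIdClS : IdS S →* IdClS S := QuotientGroup.mk' _

/-- The projection `𝕁 → C'`. -/
noncomputable def mkDS : IdS S →* DS S := QuotientGroup.mk' _

/-- The projection `ℂ → C'`. -/
noncomputable def IdClSToDS : IdClS S →* DS S :=
  QuotientGroup.map (PS S) (PS S ⊔ US S) (MonoidHom.id _) (fun _ hx => Subgroup.mem_comap.mpr
    ((le_sup_left : PS S ≤ PS S ⊔ US S) hx))

variable {S}

theorem mkIdClS_surjective : Function.Surjective (mkIdClS S) := QuotientGroup.mk'_surjective _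

theorem mkDS_surjective : Function.Surjective (mkDS S) := QuotientGroup.mk'_surjective _

theorem mkIdClS_eq_one_iff {x : IdS S} : mkIdClS S x = 1 ↔ x ∈ PS S := by
  change ((x : IdS S ⧸ PS S) = 1) ↔ _
  rw [QuotientGroup.eq_one_iff]

theorem mkDS_eq_one_iff {x : IdS S} : mkDS S x = 1 ↔ x ∈ PS S ⊔ US S := by
  change ((x : IdS S ⧸ (PS S ⊔ US S)) = 1) ↔ _
  rw [QuotientGroup.eq_one_iff]

theorem mkDS_eq_mkDS_iff {x y : IdS S} : mkDS S x = mkDS S y ↔ x⁻¹ * y ∈ PS S ⊔ US S := by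
  change ((x : IdS S ⧸ (PS S ⊔ US S)) = (y : IdS S ⧸ (PS S ⊔ US S))) ↔ _
  rw [QuotientGroup.eq]

theorem mkIdClS_eq_mkIdClS_iff {x y : IdS S} : mkIdClS S x = mkIdClS S y ↔ x⁻¹ * y ∈ PS S := by
  change ((x : IdS S ⧸ PS S) = (y : IdS S ⧸ PS S)) ↔ _
  rw [QuotientGroup.eq]

@[simp] theorem IdClSToDS_mkIdClS (x : IdS S) : IdClSToDS S (mkIdClS S x) = mkDS S x := rfl

theorem IdClSToDS_surjective : Function.Surjective (IdClSToDS S) := by
  intro y
  obtain ⟨x, rfl⟩ := mkDS_surjective y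
  exact ⟨mkIdClS S x, rfl⟩

/-- The induced action of `Γ` on `ℂ`. -/
noncomputable instance IdClSAction : MulDistribMulAction Γ (IdClS S) :=
  quotientMulDistribMulAction (PS S) (fun σ _ hx => smul_mem_PS σ hx)

/-- The induced action of `Γ` on `C'`. -/
noncomputable instance DSAction : MulDistribMulAction Γ (DS S) :=
  quotientMulDistribMulAction (PS S ⊔ US S) (fun σ _ hx => smul_mem_PS_sup_US σ hx)

@[simp] theorem smul_mkIdClS (g : Γ) (x : IdS S) : g • mkIdClS S x = mkIdClS S (g • x) := rfl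

@[simp] theorem smul_mkDS (g : Γ) (x : IdS S) : g • mkDS S x = mkDS S (g • x) := rfl

theorem IdClSToDS_smul (g : Γ) (c : IdClS S) : IdClSToDS S (g • c) = g • IdClSToDS S c := by
  obtain ⟨x, rfl⟩ := mkIdClS_surjective c
  rfl

/-- `ℂ` is discrete. -/
theorem exists_isLevel_fixes_IdClS (x : IdClS S) :
    ∃ F : IntermediateField ℚ Ω, IsLevel S F ∧ ∀ σ ∈ F.fixingSubgroup, σ • x = x := by
  obtain ⟨y, rfl⟩ := mkIdClS_surjective x
  obtain ⟨F, hF, h⟩ := exists_isLevel_fixes_IdS y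
  exact ⟨F, hF, fun σ hσ => by rw [smul_mkIdClS, h σ hσ]⟩

/-- `C'` is discrete. -/
theorem exists_isLevel_fixes_DS (x : DS S) :
    ∃ F : IntermediateField ℚ Ω, IsLevel S F ∧ ∀ σ ∈ F.fixingSubgroup, σ • x = x := by
  obtain ⟨y, rfl⟩ := mkDS_surjective x
  obtain ⟨F, hF, h⟩ := exists_isLevel_fixes_IdS y
  exact ⟨F, hF, fun σ hσ => by rw [smul_mkDS, h σ hσ]⟩

end classes

end Fermat.Agent.CFT.Arith
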