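/-
S55 / CFT (PT3.f), helper7: the finite-level hypothesis `H¹(T, U^S_L) = 0` in elementary
(cocycle) form, consumed by the computation of the invariants of `C' = 𝕁/(ℚ_Sˣ·𝕌^S)`.
-/
import Fermat.Agent.CFT.Arith.IdS_helper7

set_option autoImplicit false

open scoped NumberField

namespace Fermat.Agent.CFT.Arith

open Fermat.Agent.CFT

/-- **`H¹(T, U^S_L) = 0`** for every finite Galois extension `L/ℚ` unramified outside `S`
(ideal-theoretic inertia form) and every subgroup `T ≤ Gal(L/ℚ)`, in elementary form: every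
1-cocycle of `T` with values in the units outside `S` (`1` at `S`) of the finite ideles of `L` is
a coboundary.  (To be supplied from the acyclicity of unramified semi-local units.) -/
def UnitsCocyclesSplit (S : Set Nat.Primes) : Prop :=
  ∀ (L : Type) [Field L] [NumberField L] [IsGalois ℚ L],
    (∀ ℓ : Nat.Primes, ℓ ∉ S → ∀ Q : Ideal (𝓞 L), Q.IsPrime → (((ℓ : ℕ) : ℕ) : 𝓞 L) ∈ Q →
      ∀ σ : L ≃ₐ[ℚ] L, (∀ x : 𝓞 L, σ • x - x ∈ Q) → σ = 1) →
    ∀ (T : Subgroup (L ≃ₐ[ℚ] L)) (u : T → FinIdele L),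
      (∀ t, u t ∈ FinIdele.unitsOutside L S) →
      (∀ s t : T, u (s * t) = u s * (s : L ≃ₐ[ℚ] L) • u t) →
      ∃ v ∈ FinIdele.unitsOutside L S, ∀ t : T, u t = (t : L ≃ₐ[ℚ] L) • v / v

end Fermat.Agent.CFT.Arith
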