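/-
S55 / CFT (PT3.f / PT8 glue), helper7: the unconditional versions of the computation of the
invariants of `C' = DSm S` and its consequences (`fin`, `hker`), obtained by plugging helper8's
`PT8.unitsCocyclesSplit` into the results of `DSInv_helper7`, `DSInvEquiv_helper7`, `DSFin_helper7`.
-/
import Fermat.Agent.CFT.Arith.DSFin_helper7
import Fermat.Agent.CFT.PT8.UnitsSplit_helper8

set_option autoImplicit false
set_option linter.unusedSectionVars false
set_option linter.style.haveILetI false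

open scoped TensorProduct RestrictedProduct NumberField

namespace Fermat.Agent.CFT.Arith

open Fermat.Agent.CFT Fermat.Agent.CFT.Sm

/-- `Ω = AlgebraicClosure ℚ`. -/
local notation "Ω" => AlgebraicClosure ℚ
/-- `Γ = Gal(Ω/ℚ)`. -/
local notation "Γ" => (AlgebraicClosure ℚ ≃ₐ[ℚ] AlgebraicClosure ℚ)

section final

variable {S : Finset Nat.Primes} {p : ℕ} [hp : Fact p.Prime]

/-- **(surj)**, unconditional: every `G_E`-invariant class of `C'` comes from a finite idèle
of `E`. -/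
theorem exists_mkDS_mapIdS_eq' (hS : S.Nonempty) {E : IntermediateField ℚ Ω} [NumberField ↥E]
    (hE : E.IsUnramifiedOutside S) (c : DS S) (hc : ∀ g ∈ E.fixingSubgroup, g • c = c) :
    ∃ z : FinIdele ↥E, mkDS S (mapIdS hE z) = c :=
  exists_mkDS_mapIdS_eq hS (PT8.unitsCocyclesSplit _) hE c hc

/-- **(H7.3)**, unconditional: `C'^{G_E} ≃ J_E / (E^× U^S_E)`. -/
noncomputable def invDSEquiv' (hS : S.Nonempty) {E : IntermediateField ℚ Ω} [NumberField ↥E]
    (hE : E.IsUnramifiedOutside S) :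
    ↥(Sm.smInvariants (Sm.resSub (DSm S) E.fixingSubgroup)) ≃+
      Additive (FinIdele ↥E ⧸ (principalIdeles ↥E ⊔ FinIdele.unitsOutside ↥E
        (S : Set Nat.Primes))) :=
  invDSEquiv hS (PT8.unitsCocyclesSplit _) hE

/-- **`fin`** of `PLevelFormation (levelBasis S) p (DSm S)`, unconditional. -/
theorem fin_DSm' (hS : S.Nonempty) (U : Subgroup Γ) (hU : (levelBasis S).IsOpen U) :
    ∃ T : Finset (DSm S).obj.V, ∀ c : (DSm S).obj.V, (∀ g ∈ U, (DSm S).obj.ρ g c = c) →
      ∃ t ∈ T, ∃ c' : (DSm S).obj.V, (∀ g ∈ U, (DSm S).obj.ρ g c' = c') ∧ c = t + p • c' :=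
  fin_DSm hS (PT8.unitsCocyclesSplit _) U hU

/-- **`hker`** of `PLevelFormation.isGlobalBelow` for `C' = DSm S`, `U₀ = G_{ℚ(ζ_p)}`,
unconditional. -/
theorem hker_DSm' (hp2 : p ≠ 2) (hpS : (⟨p, hp.out⟩ : Nat.Primes) ∈ S) {ζ₀ : Ω}
    (hζ₀ : IsPrimitiveRoot ζ₀ p) (form : PClassFormation (levelBasis S) p (DSm S)) :
    ∀ (U : Subgroup Γ) (hU : (levelBasis S).IsOpen U),
      U ≤ (IntermediateField.adjoin ℚ {ζ₀}).fixingSubgroup →
      ∀ (c : (resSub (DSm S) U).obj.V) (hc : ∀ g, (resSub (DSm S) U).obj.ρ g c = c),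
        recMap ((levelBasis S).sub U) p (resSub (DSm S) U) (form.invU U hU) c hc = 0 →
        ∃ c' : (resSub (DSm S) U).obj.V,
          (∀ g, (resSub (DSm S) U).obj.ρ g c' = c') ∧ p • c' = c :=
  hker_DSm hp2 hpS (PT8.unitsCocyclesSplit _) hζ₀ form

/-- A primitive `p`-th root of unity in `Ω`. -/
theorem exists_isPrimitiveRoot_Omega (p : ℕ) [hp : Fact p.Prime] :
    ∃ ζ₀ : Ω, IsPrimitiveRoot ζ₀ p :=
  haveI : NeZero (p : Ω) := ⟨by exact_mod_cast hp.out.ne_zero⟩
  HasEnoughRootsOfUnity.exists_primitiveRoot Ω p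

end final

end Fermat.Agent.CFT.Arith
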