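/-
S55 / CFT (PT3.f), helper7: the map `π : J_S → C' = 𝕁/(ℚ_Sˣ·𝕌^S)`.

* integrality bridge: `a ∈ Ω` lying in all valuation subrings over `ℓ` is integral in `ℚ_ℓ ⊗ Ω`;
  `E_S = {a ∈ ℚ_Sˣ | 1 ⊗ a ∈ (ℚ_ℓ ⊗ Ω)ˣ is integral-unit for all ℓ ∉ S}`;
* `extJS : J_S → 𝕁` (extension by `1` outside `S`), `piJS : J_S → C'`;
* `ker π = E_S` (diagonal);
* `coker π` is torsion of order prime to `p` (Kummer capitulation + finiteness of class groups).
-/
import Fermat.Agent.CFT.Arith.IdS_helper7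
import Fermat.Agent.CFT.Arith.Capitulation_helper7
import Fermat.Agent.S54_ValuationRing

set_option autoImplicit false
set_option linter.unusedSectionVars false
set_option linter.style.haveILetI false

open scoped TensorProduct RestrictedProduct

namespace Fermat.Agent.CFT.Arith

open Fermat.Agent.CFT

/-- `Ω = AlgebraicClosure ℚ`. -/
local notation "Ω" => AlgebraicClosure ℚ
/-- `Γ = Gal(Ω/ℚ)`. -/
local notation "Γ" => (AlgebraicClosure ℚ ≃ₐ[ℚ] AlgebraicClosure ℚ)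

/-! ### Integrality bridge -/

section bridge

/-- an element of `Ω` lying in every valuation subring over `ℓ` has an integral multiple by an
integer prime to `ℓ`. -/
theorem exists_not_dvd_isIntegral_smul_of_forall_mem {ℓ : Nat.Primes} {a : Ω}
    (h : ∀ A : ValuationSubring Ω, A.LiesOverPrime (ℓ : ℕ) → a ∈ A) :
    ∃ d : ℤ, ¬ ((ℓ : ℕ) : ℤ) ∣ d ∧ IsIntegral ℤ (d • a) := by
  by_contra hcon
  push Not at hcon
  have hℓp : Prime (((ℓ : ℕ) : ℤ)) := Nat.prime_iff_prime_int.mp ℓ.2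
  -- the conductor ideal of `a`
  let D : Ideal (integralClosure ℤ Ω) :=
    { carrier := {s | IsIntegral ℤ (a * (s : Ω))}
      add_mem' := by
        intro s t hs ht
        change IsIntegral ℤ (a * ((s + t : integralClosure ℤ Ω) : Ω))
        rw [Subalgebra.coe_add, mul_add]
        exact hs.add ht
      zero_mem' := by
        change IsIntegral ℤ (a * ((0 : integralClosure ℤ Ω) : Ω))
        rw [Subalgebra.coe_zero, mul_zero]
        exact isIntegral_zero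
      smul_mem' := by
        intro c s hs
        change IsIntegral ℤ (a * ((c * s : integralClosure ℤ Ω) : Ω))
        rw [Subalgebra.coe_mul, mul_left_comm]
        exact c.2.mul hs }
  -- the integers prime to `ℓ`
  let M : Submonoid (integralClosure ℤ Ω) :=
    { carrier := {s | ∃ d : ℤ, ¬ ((ℓ : ℕ) : ℤ) ∣ d ∧ (s : Ω) = (d : Ω)}
      mul_mem' := by
        rintro s t ⟨d, hd, hs⟩ ⟨e, he, ht⟩
        refine ⟨d * e, fun hde => ?_, ?_⟩
        · rcases hℓp.dvd_or_dvd hde with h1 | h1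
          · exact hd h1
          · exact he h1
        · rw [Subalgebra.coe_mul, hs, ht]
          push_cast
          rfl
      one_mem' := ⟨1, fun h1 => hℓp.not_isUnit (isUnit_of_dvd_one h1), by simp⟩ }
  have hdisj : Disjoint (D : Set (integralClosure ℤ Ω)) (M : Set (integralClosure ℤ Ω)) := by
    rw [Set.disjoint_left]
    rintro s hsD ⟨d, hd, hs⟩
    apply hcon d hd
    have : IsIntegral ℤ (a * (s : Ω)) := hsD
    rw [hs, mul_comm] at this
    rwa [zsmul_eq_mul]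
  obtain ⟨Q, hQ, hDQ, hQM⟩ := Ideal.exists_le_prime_disjoint D M hdisj
  haveI := hQ
  obtain ⟨A, hA, hA'⟩ := @Fermat.Agent.S54V.exists_valuationSubring_of_prime Ω _ _ _ Q hQ
  -- `ℓ ∈ Q`
  have halg : IsAlgebraic ℤ a :=
    (IsFractionRing.isAlgebraic_iff ℤ ℚ Ω).mpr (Algebra.IsAlgebraic.isAlgebraic a)
  obtain ⟨n, hn0, hn⟩ := halg.exists_integral_multiple
  have hfin : FiniteMultiplicity (((ℓ : ℕ) : ℤ)) n :=
    Int.finiteMultiplicity_iff.mpr ⟨by simpa using ℓ.2.ne_one, hn0⟩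
  obtain ⟨m, hnm, hm⟩ := hfin.exists_eq_pow_mul_and_not_dvd
  set e := multiplicity (((ℓ : ℕ) : ℤ)) n with he
  have hnD : ((n : ℤ) : integralClosure ℤ Ω) ∈ D := by
    change IsIntegral ℤ (a * (((n : ℤ) : integralClosure ℤ Ω) : Ω))
    have : (((n : ℤ) : integralClosure ℤ Ω) : Ω) = (n : Ω) := by simp
    rw [this, mul_comm, ← zsmul_eq_mul]
    exact hn
  have hnQ := hDQ hnD
  have hmM : ((m : ℤ) : integralClosure ℤ Ω) ∈ M := ⟨m, hm, by simp⟩
  have hmQ : ((m : ℤ) : integralClosure ℤ Ω) ∉ Q := fun hmQ =>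
    Set.disjoint_left.mp hQM hmQ hmM
  have hℓQ : (((ℓ : ℕ) : ℤ) : integralClosure ℤ Ω) ∈ Q := by
    rw [hnm] at hnQ
    push_cast at hnQ
    rcases hQ.mem_or_mem hnQ with h1 | h1
    · have := hQ.mem_of_pow_mem e h1
      simpa using this
    · exact absurd h1 (by simpa using hmQ)
  have hAℓ : A.LiesOverPrime (ℓ : ℕ) := by
    change ((ℓ : ℕ) : Ω) ∈ A.nonunits
    rw [hA']
    refine ⟨(((ℓ : ℕ) : ℤ) : integralClosure ℤ Ω), 1, hℓQ, ?_, by simp⟩
    exact fun h1 => hQ.ne_top ((Ideal.eq_top_iff_one Q).mpr h1)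
  obtain ⟨b, s, hsQ, hbs⟩ := (hA a).mp (h A hAℓ)
  apply hsQ
  apply hDQ
  change IsIntegral ℤ (a * (s : Ω))
  rw [hbs]
  exact b.2

/-- a unit of `Ω` which is a unit of every valuation subring over `ℓ` is a unit of the maximal
order of `ℚ_ℓ ⊗ Ω`. -/
theorem ofUnits_mem_unitGroup_of_forall_mem {ℓ : Nat.Primes} {a : Ωˣ}
    (h : ∀ A : ValuationSubring Ω, A.LiesOverPrime (ℓ : ℕ) → a ∈ A.unitGroup) :
    SemiLocal.ofUnits (ℓ : ℕ) a ∈ SemiLocal.unitGroup (ℓ : ℕ) Ω := by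
  have key : ∀ b : Ωˣ, (∀ A : ValuationSubring Ω, A.LiesOverPrime (ℓ : ℕ) → b ∈ A.unitGroup) →
      SemiLocal.of (ℓ : ℕ) Ω (b : Ω) ∈ SemiLocal.integers (ℓ : ℕ) Ω := by
    intro b hb
    obtain ⟨d, hd, hint⟩ := exists_not_dvd_isIntegral_smul_of_forall_mem (ℓ := ℓ) (a := (b : Ω))
      (fun A hA => by
        have h1 := hb A hA
        rw [ValuationSubring.mem_unitGroup_iff] at h1
        exact (A.valuation_le_one_iff _).mp h1.le)
    exact SemiLocal.of_mem_integers_of_not_dvd (ℓ : ℕ) hint hd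
  rw [SemiLocal.mem_unitGroup_iff]
  refine ⟨key a h, ?_⟩
  have h2 := key a⁻¹ (fun A hA => inv_mem (h A hA))
  rw [← map_inv]
  exact h2

/-- a unit of `Ω` which is a unit of the maximal order of `ℚ_ℓ ⊗ Ω` is a unit of every valuation
subring over `ℓ`. -/
theorem mem_unitGroup_of_ofUnits_mem_unitGroup_top {ℓ : Nat.Primes} {a : Ωˣ}
    (h : SemiLocal.ofUnits (ℓ : ℕ) a ∈ SemiLocal.unitGroup (ℓ : ℕ) Ω)
    (A : ValuationSubring Ω) (hA : A.LiesOverPrime (ℓ : ℕ)) : a ∈ A.unitGroup := by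
  have hint : IsIntegral ℚ (a : Ω) := (Algebra.IsAlgebraic.isAlgebraic (a : Ω)).isIntegral
  haveI : FiniteDimensional ℚ (IntermediateField.adjoin ℚ {(a : Ω)}) :=
    IntermediateField.adjoin.finiteDimensional hint
  have haF : (a : Ω) ∈ IntermediateField.adjoin ℚ {(a : Ω)} :=
    IntermediateField.mem_adjoin_simple_self ℚ _
  have ha0 : (⟨(a : Ω), haF⟩ : IntermediateField.adjoin ℚ {(a : Ω)}) ≠ 0 :=
    fun h0 => a.ne_zero (congrArg Subtype.val h0)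
  set z : (↥(IntermediateField.adjoin ℚ {(a : Ω)}))ˣ := Units.mk0 ⟨(a : Ω), haF⟩ ha0 with hz
  have h1 : SemiLocal.unitsMap (ℓ : ℕ) (algebraMap (IntermediateField.adjoin ℚ {(a : Ω)}) Ω)
      (SemiLocal.ofUnits (ℓ : ℕ) z) = SemiLocal.ofUnits (ℓ : ℕ) a := by
    apply Units.ext
    rfl
  have h2 : SemiLocal.ofUnits (ℓ : ℕ) z ∈
      SemiLocal.unitGroup (ℓ : ℕ) (IntermediateField.adjoin ℚ {(a : Ω)}) := by
    rw [← SemiLocal.unitsMap_mem_unitGroup_iff (ℓ : ℕ) (IntermediateField.adjoin ℚ {(a : Ω)}) Ω, h1]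
    exact h
  have h3 := mem_unitGroup_of_ofUnits_mem_unitGroup h2 A hA
  have h4 : Units.map (algebraMap (IntermediateField.adjoin ℚ {(a : Ω)}) Ω :
      (IntermediateField.adjoin ℚ {(a : Ω)}) →* Ω) z = a := by
    apply Units.ext
    rfl
  rwa [h4] at h3

variable {S : Finset Nat.Primes}

/-- **`E_S` in semi-local terms**: the elements of `ℚ_Sˣ` which are integral units of `ℚ_ℓ ⊗ Ω`
for all `ℓ ∉ S`. -/
theorem mem_ES_iff_ofUnits {a : Ωˣ} : a ∈ ES S ↔ a ∈ QSx S ∧ ∀ ℓ : Nat.Primes, ℓ ∉ S →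
    SemiLocal.ofUnits (ℓ : ℕ) a ∈ SemiLocal.unitGroup (ℓ : ℕ) Ω := by
  constructor
  · rintro ⟨h1, h2⟩
    exact ⟨h1, fun ℓ hℓ => ofUnits_mem_unitGroup_of_forall_mem (h2 ℓ hℓ)⟩
  · rintro ⟨h1, h2⟩
    exact ⟨h1, fun ℓ hℓ A hA => mem_unitGroup_of_ofUnits_mem_unitGroup_top (h2 ℓ hℓ) A hA⟩

end bridge

/-! ### The map `π : J_S → C'` -/

section pi

variable (S : Finset Nat.Primes)

/-- extension by `1` outside `S`, as a finite idele of `Ω`. -/
noncomputable def extFun (x : JS S) : FinIdele Ω :=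
  ⟨fun ℓ => if h : ℓ ∈ S then
      ((x ⟨ℓ, h⟩ : JSl S ((ℓ : Nat.Primes) : ℕ)) : (SemiLocal ((ℓ : Nat.Primes) : ℕ) Ω)ˣ)
    else 1, by
    rw [Filter.eventually_cofinite]
    refine S.finite_toSet.subset ?_
    intro ℓ hℓ
    by_contra h
    apply hℓ
    have h' : ℓ ∉ S := h
    simp only [dif_neg h']
    exact (SemiLocal.unitGroup ℓ Ω).one_mem⟩

variable {S}

theorem extFun_apply_of_mem (x : JS S) {ℓ : Nat.Primes} (h : ℓ ∈ S) :
    extFun S x ℓ = ((x ⟨ℓ, h⟩ : JSl S ((ℓ : Nat.Primes) : ℕ)) :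
      (SemiLocal ((ℓ : Nat.Primes) : ℕ) Ω)ˣ) := by
  unfold extFun
  exact dif_pos h

theorem extFun_apply_of_not_mem (x : JS S) {ℓ : Nat.Primes} (h : ℓ ∉ S) :
    extFun S x ℓ = 1 := by
  unfold extFun
  exact dif_neg h

theorem extFun_one : extFun S (1 : JS S) = 1 := by
  apply RestrictedProduct.ext
  intro ℓ
  by_cases h : ℓ ∈ S
  · rw [extFun_apply_of_mem _ h]; rfl
  · rw [extFun_apply_of_not_mem _ h]; rfl

theorem extFun_mul (x y : JS S) : extFun S (x * y) = extFun S x * extFun S y := by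
  apply RestrictedProduct.ext
  intro ℓ
  have e : (extFun S x * extFun S y) ℓ = extFun S x ℓ * extFun S y ℓ := rfl
  rw [e]
  by_cases h : ℓ ∈ S
  · rw [extFun_apply_of_mem _ h, extFun_apply_of_mem _ h, extFun_apply_of_mem _ h]; rfl
  · rw [extFun_apply_of_not_mem _ h, extFun_apply_of_not_mem _ h, extFun_apply_of_not_mem _ h,
      one_mul]

theorem extFun_smul (σ : Γ) (x : JS S) : extFun S (σ • x) = σ • extFun S x := by
  apply RestrictedProduct.ext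
  intro ℓ
  rw [FinIdele.smul_apply]
  by_cases h : ℓ ∈ S
  · rw [extFun_apply_of_mem _ h, extFun_apply_of_mem _ h]; rfl
  · rw [extFun_apply_of_not_mem _ h, extFun_apply_of_not_mem _ h, smul_one]

theorem extFun_mem_IdS (x : JS S) : extFun S x ∈ IdS S := by
  obtain ⟨F, hF, hfix⟩ := exists_isLevel_fixes_JS x
  refine ⟨F, hF.1, ?_⟩
  rw [finIdele_mem_range_map_iff_fixed]
  intro σ hσ
  rw [← extFun_smul, hfix σ hσ]

variable (S)

/-- `J_S → 𝕁`: extension by `1` outside `S`. -/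
noncomputable def extJS : JS S →* IdS S where
  toFun x := ⟨extFun S x, extFun_mem_IdS x⟩
  map_one' := Subtype.ext extFun_one
  map_mul' x y := Subtype.ext (extFun_mul x y)

/-- `π : J_S → C'`. -/
noncomputable def piJS : JS S →* DS S := (mkDS S).comp (extJS S)

variable {S}

@[simp] theorem coe_extJS (x : JS S) : ((extJS S x : IdS S) : FinIdele Ω) = extFun S x := rfl

theorem extJS_smul (σ : Γ) (x : JS S) : extJS S (σ • x) = σ • extJS S x :=
  Subtype.ext (extFun_smul σ x)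

theorem extJS_injective : Function.Injective (extJS S) := by
  intro x y h
  apply JS.ext
  intro ℓ
  apply Subtype.ext
  have h1 := congrArg (fun z : IdS S => (z : FinIdele Ω) ℓ.1) h
  simp only [coe_extJS] at h1
  rw [extFun_apply_of_mem _ ℓ.2, extFun_apply_of_mem _ ℓ.2] at h1
  exact h1

theorem piJS_apply (x : JS S) : piJS S x = mkDS S (extJS S x) := rfl

theorem piJS_smul (σ : Γ) (x : JS S) : piJS S (σ • x) = σ • piJS S x := by
  rw [piJS_apply, extJS_smul, piJS_apply, smul_mkDS]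

/-- the components of an element of `𝕁` lie in `J_{S,ℓ}`. -/
theorem apply_mem_JSl_of_mem_IdS {w : FinIdele Ω} (hw : w ∈ IdS S) (ℓ : Nat.Primes) :
    w ℓ ∈ JSl S (ℓ : ℕ) := by
  obtain ⟨F, hF, z, rfl⟩ := hw
  exact ⟨F, hF, z ℓ, rfl⟩

/-- **`ker π = E_S`**. -/
theorem piJS_eq_one_iff {x : JS S} : piJS S x = 1 ↔ x ∈ (diagES S).range := by
  rw [piJS_apply, mkDS_eq_one_iff]
  constructor
  · intro h
    obtain ⟨y, ⟨a, rfl⟩, u, hu, hyu⟩ := Subgroup.mem_sup.mp h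
    have hcomp : ∀ ℓ : Nat.Primes, SemiLocal.ofUnits (ℓ : ℕ) (a : Ωˣ) * (u : FinIdele Ω) ℓ =
        extFun S x ℓ := by
      intro ℓ
      have := congrArg (fun z : IdS S => (z : FinIdele Ω) ℓ) hyu
      exact this
    have haES : (a : Ωˣ) ∈ ES S := by
      rw [mem_ES_iff_ofUnits]
      refine ⟨a.2, fun ℓ hℓ => ?_⟩
      have h1 := hcomp ℓ
      rw [extFun_apply_of_not_mem _ hℓ] at h1
      have h2 : SemiLocal.ofUnits (ℓ : ℕ) (a : Ωˣ) = ((u : FinIdele Ω) ℓ)⁻¹ :=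
        eq_inv_of_mul_eq_one_left h1
      rw [h2]
      exact inv_mem (hu.1 ℓ hℓ)
    refine ⟨⟨(a : Ωˣ), haES⟩, ?_⟩
    apply JS.ext
    intro ℓ
    apply Subtype.ext
    have h1 := hcomp ℓ.1
    have h3 : (u : FinIdele Ω) ℓ.1 = 1 := hu.2 ℓ.1 ℓ.2
    rw [extFun_apply_of_mem _ ℓ.2, h3, mul_one] at h1
    exact h1
  · rintro ⟨a, rfl⟩
    have haQ : (a : Ωˣ) ∈ QSx S := ES_le_QSx a.2
    have hu : (diagQS S ⟨(a : Ωˣ), haQ⟩)⁻¹ * extJS S (diagES S a) ∈ US S := by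
      rw [mem_US_iff]
      have e : ∀ ℓ : Nat.Primes,
          (((diagQS S ⟨(a : Ωˣ), haQ⟩)⁻¹ * extJS S (diagES S a) : IdS S) : FinIdele Ω) ℓ =
            (SemiLocal.ofUnits (ℓ : ℕ) (a : Ωˣ))⁻¹ * extFun S (diagES S a) ℓ := fun ℓ => rfl
      refine ⟨fun ℓ hℓ => ?_, fun ℓ hℓ => ?_⟩
      · rw [e, extFun_apply_of_not_mem _ hℓ, mul_one]
        exact inv_mem ((mem_ES_iff_ofUnits.mp a.2).2 ℓ hℓ)
      · rw [e, extFun_apply_of_mem _ hℓ]
        exact inv_mul_cancel _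
    have : extJS S (diagES S a) = diagQS S ⟨(a : Ωˣ), haQ⟩ *
        ((diagQS S ⟨(a : Ωˣ), haQ⟩)⁻¹ * extJS S (diagES S a)) := by
      rw [mul_inv_cancel_left]
    rw [this]
    exact Subgroup.mul_mem_sup ⟨_, rfl⟩ hu

/-- **`coker π` is torsion of order prime to `p`** (Kummer capitulation and finiteness of class
groups). -/
theorem exists_piJS_eq_pow {p : ℕ} (hp : p.Prime) (hpS : (⟨p, hp⟩ : Nat.Primes) ∈ S)
    (c : DS S) : ∃ m : ℕ, ¬ p ∣ m ∧ ∃ x : JS S, piJS S x = c ^ m := by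
  obtain ⟨y, rfl⟩ := mkDS_surjective c
  obtain ⟨F, hF, z, hz⟩ := y.2
  obtain ⟨m, -, hpm, β, hβ, hcap⟩ := exists_capitulation hp hpS hF z
  refine ⟨m, hpm, ?_⟩
  -- `w = y^m / β` has unit components everywhere
  set w : IdS S := y ^ m * (diagQS S ⟨β, hβ⟩)⁻¹ with hw
  have hwcomp : ∀ ℓ : Nat.Primes, (w : FinIdele Ω) ℓ =
      SemiLocal.unitsMap ℓ (algebraMap ↥F Ω) (z ℓ) ^ m * (SemiLocal.ofUnits ℓ β)⁻¹ := by
    intro ℓ
    have e1 : (w : FinIdele Ω) ℓ = ((y : FinIdele Ω) ^ m) ℓ * (SemiLocal.ofUnits ℓ β)⁻¹ := rfl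
    have e2 : ((y : FinIdele Ω) ^ m) ℓ = ((y : FinIdele Ω) ℓ) ^ m :=
      map_pow (RestrictedProduct.evalMonoidHom _ ℓ) (y : FinIdele Ω) m
    rw [e1, e2, ← hz]
    rfl
  have hwunit : ∀ ℓ : Nat.Primes, (w : FinIdele Ω) ℓ ∈ SemiLocal.unitGroup ℓ Ω := by
    intro ℓ
    rw [hwcomp]
    exact hcap ℓ
  set x : JS S := fun ℓ => ⟨(w : FinIdele Ω) ℓ.1, apply_mem_JSl_of_mem_IdS w.2 ℓ.1⟩ with hx
  refine ⟨x, ?_⟩
  rw [piJS_apply, ← map_pow, mkDS_eq_mkDS_iff]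
  have hu : (extJS S x)⁻¹ * w ∈ US S := by
    rw [mem_US_iff]
    have e : ∀ ℓ : Nat.Primes, (((extJS S x)⁻¹ * w : IdS S) : FinIdele Ω) ℓ =
        (extFun S x ℓ)⁻¹ * (w : FinIdele Ω) ℓ := fun ℓ => rfl
    refine ⟨fun ℓ hℓ => ?_, fun ℓ hℓ => ?_⟩
    · rw [e, extFun_apply_of_not_mem _ hℓ, inv_one, one_mul]
      exact hwunit ℓ
    · rw [e, extFun_apply_of_mem _ hℓ]
      exact inv_mul_cancel _
  have : (extJS S x)⁻¹ * y ^ m = diagQS S ⟨β, hβ⟩ * ((extJS S x)⁻¹ * w) := by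
    rw [hw, mul_left_comm (diagQS S ⟨β, hβ⟩) ((extJS S x)⁻¹),
      mul_left_comm (diagQS S ⟨β, hβ⟩) (y ^ m), mul_inv_cancel, mul_one]
  rw [this]
  exact Subgroup.mul_mem_sup ⟨_, rfl⟩ hu

end pi

end Fermat.Agent.CFT.Arith
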