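/-
S55 / CFT (PT3.f), helper7: the big arithmetic objects as smooth representations.

`IdSSm S` (`𝕁`), `QSxSm S` (`ℚ_Sˣ`), `USSm S` (`𝕌^S`), `IdClSSm S` (`ℂ = 𝕁/ℚ_Sˣ`),
`DSm S` (`C' = 𝔻 = 𝕁/(ℚ_Sˣ·𝕌^S)`) in `SmRep ℤ (levelBasis S)`, the morphism
`piSm S : JSSm S ⟶ DSm S` with `ker = E_S` and cokernel uniquely `p`-divisible, in the
elementwise forms (Q1), (Q2) consumed by the duality engine.
-/
import Fermat.Agent.CFT.Arith.PiS_helper7
import Fermat.Agent.CFT.Arith.SmObjects_helper7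

set_option autoImplicit false
set_option linter.unusedSectionVars false
set_option linter.style.haveILetI false

open scoped TensorProduct RestrictedProduct
open CategoryTheory

namespace Fermat.Agent.CFT.Arith

open Fermat.Agent.CFT

/-- `Ω = AlgebraicClosure ℚ`. -/
local notation "Ω" => AlgebraicClosure ℚ
/-- `Γ = Gal(Ω/ℚ)`. -/
local notation "Γ" => (AlgebraicClosure ℚ ≃ₐ[ℚ] AlgebraicClosure ℚ)

section reps

variable (S : Finset Nat.Primes)

/-- `Γ` acts on `𝕌^S`. -/
noncomputable instance USAction : MulDistribMulAction Γ (US S) where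
  smul σ x := ⟨σ • (x : IdS S), smul_mem_US σ x.2⟩
  one_smul x := Subtype.ext (one_smul Γ (x : IdS S))
  mul_smul σ τ x := Subtype.ext (mul_smul σ τ (x : IdS S))
  smul_mul σ x y := Subtype.ext (smul_mul' σ (x : IdS S) (y : IdS S))
  smul_one σ := Subtype.ext (smul_one σ)

@[simp] theorem coe_smul_US (σ : Γ) (x : US S) : ((σ • x : US S) : IdS S) = σ • (x : IdS S) := rfl

/-- `𝕁` as a representation of `Γ` over `ℤ`. -/
noncomputable def IdSRep : Rep ℤ Γ := Rep.ofMulDistribMulAction Γ (IdS S)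

/-- `ℚ_Sˣ` as a representation of `Γ` over `ℤ`. -/
noncomputable def QSxRep : Rep ℤ Γ := Rep.ofMulDistribMulAction Γ (QSx S)

/-- `𝕌^S` as a representation of `Γ` over `ℤ`. -/
noncomputable def USRep : Rep ℤ Γ := Rep.ofMulDistribMulAction Γ (US S)

/-- `ℂ = 𝕁/ℚ_Sˣ` as a representation of `Γ` over `ℤ`. -/
noncomputable def IdClSRep : Rep ℤ Γ := Rep.ofMulDistribMulAction Γ (IdClS S)

/-- `C' = 𝕁/(ℚ_Sˣ·𝕌^S)` as a representation of `Γ` over `ℤ`. -/
noncomputable def DSRep : Rep ℤ Γ := Rep.ofMulDistribMulAction Γ (DS S)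

/-- `𝕁 → C'` as a morphism of representations. -/
noncomputable def mkDSHom : IdSRep S ⟶ DSRep S :=
  Rep.ofHom
    { toLinearMap := (MonoidHom.toAdditive (mkDS S)).toIntLinearMap
      isIntertwining' := fun _ => LinearMap.ext fun _ => rfl }

/-- `𝕁 → ℂ` as a morphism of representations. -/
noncomputable def mkIdClSHom : IdSRep S ⟶ IdClSRep S :=
  Rep.ofHom
    { toLinearMap := (MonoidHom.toAdditive (mkIdClS S)).toIntLinearMap
      isIntertwining' := fun _ => LinearMap.ext fun _ => rfl }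

/-- `ℂ → C'` as a morphism of representations. -/
noncomputable def IdClSToDSHom : IdClSRep S ⟶ DSRep S :=
  Rep.ofHom
    { toLinearMap := (MonoidHom.toAdditive (IdClSToDS S)).toIntLinearMap
      isIntertwining' := fun σ => LinearMap.ext fun x => by
        change Additive.ofMul (IdClSToDS S (σ • x.toMul)) =
          Additive.ofMul (σ • IdClSToDS S x.toMul)
        rw [IdClSToDS_smul] }

/-- `ℚ_Sˣ → 𝕁` as a morphism of representations. -/
noncomputable def diagQSHom : QSxRep S ⟶ IdSRep S :=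
  Rep.ofHom
    { toLinearMap := (MonoidHom.toAdditive (diagQS S)).toIntLinearMap
      isIntertwining' := fun σ => LinearMap.ext fun x => by
        change Additive.ofMul (diagQS S (σ • x.toMul)) = Additive.ofMul (σ • diagQS S x.toMul)
        rw [diagQS_smul] }

/-- `𝕌^S → 𝕁` as a morphism of representations. -/
noncomputable def inclUSHom : USRep S ⟶ IdSRep S :=
  Rep.ofHom
    { toLinearMap := (MonoidHom.toAdditive (US S).subtype).toIntLinearMap
      isIntertwining' := fun _ => LinearMap.ext fun _ => rfl }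

/-- `J_S → 𝕁` as a morphism of representations. -/
noncomputable def extJSHom : JSRep S ⟶ IdSRep S :=
  Rep.ofHom
    { toLinearMap := (MonoidHom.toAdditive (extJS S)).toIntLinearMap
      isIntertwining' := fun σ => LinearMap.ext fun x => by
        change Additive.ofMul (extJS S (σ • x.toMul)) = Additive.ofMul (σ • extJS S x.toMul)
        rw [extJS_smul] }

/-- `π : J_S → C'` as a morphism of representations. -/
noncomputable def piHom : JSRep S ⟶ DSRep S :=
  Rep.ofHom
    { toLinearMap := (MonoidHom.toAdditive (piJS S)).toIntLinearMap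
      isIntertwining' := fun σ => LinearMap.ext fun x => by
        change Additive.ofMul (piJS S (σ • x.toMul)) = Additive.ofMul (σ • piJS S x.toMul)
        rw [piJS_smul] }

variable {S}

theorem piHom_apply (x : (JSRep S).V) :
    (piHom S).hom x = Additive.ofMul (piJS S (Additive.toMul (α := JS S) x)) := rfl

theorem mkDSHom_surjective : Function.Surjective (mkDSHom S).hom := by
  intro y
  obtain ⟨x, hx⟩ := mkDS_surjective y.toMul
  exact ⟨Additive.ofMul x, congrArg Additive.ofMul hx⟩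

theorem mkIdClSHom_surjective : Function.Surjective (mkIdClSHom S).hom := by
  intro y
  obtain ⟨x, hx⟩ := mkIdClS_surjective y.toMul
  exact ⟨Additive.ofMul x, congrArg Additive.ofMul hx⟩

theorem IdClSToDSHom_surjective : Function.Surjective (IdClSToDSHom S).hom := by
  intro y
  obtain ⟨x, hx⟩ := IdClSToDS_surjective y.toMul
  exact ⟨Additive.ofMul x, congrArg Additive.ofMul hx⟩

theorem extJSHom_mkDSHom : extJSHom S ≫ mkDSHom S = piHom S := rfl

/-- **`ker π = im(E_S → J_S)`**. -/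
theorem diagESHom_piHom_exact : Function.Exact (diagESHom S).hom (piHom S).hom := by
  intro x
  constructor
  · intro hx
    have h1 : piJS S x.toMul = 1 := congrArg Additive.toMul hx
    obtain ⟨a, ha⟩ := piJS_eq_one_iff.mp h1
    exact ⟨Additive.ofMul a, congrArg Additive.ofMul ha⟩
  · rintro ⟨a, rfl⟩
    have : piJS S (diagES S a.toMul) = 1 := piJS_eq_one_iff.mpr ⟨_, rfl⟩
    exact congrArg Additive.ofMul this

/-- `coker π` is torsion of order prime to `p`, elementwise. -/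
theorem exists_piHom_eq_nsmul {p : ℕ} (hp : p.Prime) (hpS : (⟨p, hp⟩ : Nat.Primes) ∈ S)
    (c : (DSRep S).V) : ∃ m : ℕ, ¬ p ∣ m ∧ ∃ j : (JSRep S).V, (piHom S).hom j = m • c := by
  obtain ⟨m, hm, x, hx⟩ := exists_piJS_eq_pow hp hpS (Additive.toMul (α := DS S) c)
  exact ⟨m, hm, Additive.ofMul x, congrArg Additive.ofMul hx⟩

/-- **(Q1)**: `C' = π(J_S) + p C'`. -/
theorem exists_eq_piHom_add_nsmul {p : ℕ} (hp : p.Prime) (hpS : (⟨p, hp⟩ : Nat.Primes) ∈ S)
    (c : (DSRep S).V) : ∃ (j : (JSRep S).V) (c' : (DSRep S).V), c = (piHom S).hom j + p • c' := by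
  obtain ⟨m, hm, j, hj⟩ := exists_piHom_eq_nsmul hp hpS c
  have hcop : IsCoprime (m : ℤ) (p : ℤ) := by
    rw [Int.isCoprime_iff_gcd_eq_one, Int.gcd_natCast_natCast, Nat.gcd_comm]
    exact (Nat.Prime.coprime_iff_not_dvd hp).mpr hm
  obtain ⟨a, b, hab⟩ := hcop
  refine ⟨a • j, b • c, ?_⟩
  rw [map_zsmul, hj]
  have : c = (a * (m : ℤ) + b * (p : ℤ)) • c := by rw [hab, one_smul]
  rw [add_smul, mul_smul, mul_smul, natCast_zsmul, natCast_zsmul] at this
  rw [smul_comm p b c]
  exact this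

/-- **(Q2)**: `π(J_S) ∩ p C' = p π(J_S)`, in the form: `p c ∈ im π ⇒ c ∈ im π`. -/
theorem exists_piHom_eq_of_nsmul {p : ℕ} (hp : p.Prime) (hpS : (⟨p, hp⟩ : Nat.Primes) ∈ S)
    (c : (DSRep S).V) (h : ∃ j : (JSRep S).V, (piHom S).hom j = p • c) :
    ∃ j' : (JSRep S).V, (piHom S).hom j' = c := by
  obtain ⟨j₁, hj₁⟩ := h
  obtain ⟨m, hm, j, hj⟩ := exists_piHom_eq_nsmul hp hpS c
  have hcop : IsCoprime (m : ℤ) (p : ℤ) := by
    rw [Int.isCoprime_iff_gcd_eq_one, Int.gcd_natCast_natCast, Nat.gcd_comm]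
    exact (Nat.Prime.coprime_iff_not_dvd hp).mpr hm
  obtain ⟨a, b, hab⟩ := hcop
  refine ⟨a • j + b • j₁, ?_⟩
  rw [map_add, map_zsmul, map_zsmul, hj, hj₁]
  have : c = (a * (m : ℤ) + b * (p : ℤ)) • c := by rw [hab, one_smul]
  rw [add_smul, mul_smul, mul_smul, natCast_zsmul, natCast_zsmul] at this
  exact this.symm

/-- `coker π` is uniquely `p`-divisible: uniqueness part, elementwise. -/
theorem exists_piHom_eq_sub_of_nsmul_eq {p : ℕ} (hp : p.Prime)
    (hpS : (⟨p, hp⟩ : Nat.Primes) ∈ S) (c c' : (DSRep S).V) (h : p • c = p • c') :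
    ∃ j : (JSRep S).V, (piHom S).hom j = c - c' := by
  apply exists_piHom_eq_of_nsmul hp hpS
  refine ⟨0, ?_⟩
  rw [map_zero, smul_sub, h, sub_self]

/-! ### Smoothness -/

theorem isSmooth_IdSRep : Sm.IsSmooth (levelBasis S) (IdSRep S) := by
  intro a
  obtain ⟨F, hF, h⟩ := exists_isLevel_fixes_IdS (Additive.toMul a : IdS S)
  exact ⟨_, fixingSubgroup_mem_levelBasis hF, fun g hg => congrArg Additive.ofMul (h g hg)⟩

theorem isSmooth_IdClSRep : Sm.IsSmooth (levelBasis S) (IdClSRep S) := by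
  intro a
  obtain ⟨F, hF, h⟩ := exists_isLevel_fixes_IdClS (Additive.toMul a : IdClS S)
  exact ⟨_, fixingSubgroup_mem_levelBasis hF, fun g hg => congrArg Additive.ofMul (h g hg)⟩

theorem isSmooth_DSRep : Sm.IsSmooth (levelBasis S) (DSRep S) := by
  intro a
  obtain ⟨F, hF, h⟩ := exists_isLevel_fixes_DS (Additive.toMul a : DS S)
  exact ⟨_, fixingSubgroup_mem_levelBasis hF, fun g hg => congrArg Additive.ofMul (h g hg)⟩

theorem isSmooth_USRep : Sm.IsSmooth (levelBasis S) (USRep S) := by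
  intro a
  obtain ⟨F, hF, h⟩ := exists_isLevel_fixes_IdS ((Additive.toMul a : US S) : IdS S)
  exact ⟨_, fixingSubgroup_mem_levelBasis hF,
    fun g hg => congrArg Additive.ofMul (Subtype.ext (h g hg))⟩

theorem isSmooth_QSxRep : Sm.IsSmooth (levelBasis S) (QSxRep S) := by
  intro a
  obtain ⟨F, hF, hxF⟩ := exists_isLevel_mem (Additive.toMul a : QSx S).2
  refine ⟨_, fixingSubgroup_mem_levelBasis hF, fun g hg => congrArg Additive.ofMul ?_⟩
  apply Subtype.ext
  apply Units.ext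
  exact (IntermediateField.mem_fixingSubgroup_iff F g).mp hg _ hxF

variable (S)

/-- `𝕁` as a smooth representation. -/
noncomputable def IdSSm : Sm.SmRep ℤ (levelBasis S) := ⟨IdSRep S, isSmooth_IdSRep⟩

/-- `ℚ_Sˣ` as a smooth representation. -/
noncomputable def QSxSm : Sm.SmRep ℤ (levelBasis S) := ⟨QSxRep S, isSmooth_QSxRep⟩

/-- `𝕌^S` as a smooth representation. -/
noncomputable def USSm : Sm.SmRep ℤ (levelBasis S) := ⟨USRep S, isSmooth_USRep⟩

/-- `ℂ = 𝕁/ℚ_Sˣ` as a smooth representation. -/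
noncomputable def IdClSSm : Sm.SmRep ℤ (levelBasis S) := ⟨IdClSRep S, isSmooth_IdClSRep⟩

/-- **`C' = 𝔻 = 𝕁/(ℚ_Sˣ·𝕌^S)` as a smooth representation.** -/
noncomputable def DSm : Sm.SmRep ℤ (levelBasis S) := ⟨DSRep S, isSmooth_DSRep⟩

/-- `π : J_S ⟶ C'` in `SmRep`. -/
noncomputable def piSm : JSSm S ⟶ DSm S := ObjectProperty.homMk (piHom S)

/-- `𝕁 ⟶ C'` in `SmRep`. -/
noncomputable def mkDSSm : IdSSm S ⟶ DSm S := ObjectProperty.homMk (mkDSHom S)

/-- `𝕁 ⟶ ℂ` in `SmRep`. -/
noncomputable def mkIdClSSm : IdSSm S ⟶ IdClSSm S := ObjectProperty.homMk (mkIdClSHom S)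

/-- `ℂ ⟶ C'` in `SmRep`. -/
noncomputable def IdClSToDSSm : IdClSSm S ⟶ DSm S := ObjectProperty.homMk (IdClSToDSHom S)

/-- `ℚ_Sˣ ⟶ 𝕁` in `SmRep`. -/
noncomputable def diagQSSm : QSxSm S ⟶ IdSSm S := ObjectProperty.homMk (diagQSHom S)

/-- `𝕌^S ⟶ 𝕁` in `SmRep`. -/
noncomputable def inclUSSm : USSm S ⟶ IdSSm S := ObjectProperty.homMk (inclUSHom S)

/-- `J_S ⟶ 𝕁` in `SmRep`. -/
noncomputable def extJSSm : JSSm S ⟶ IdSSm S := ObjectProperty.homMk (extJSHom S)

theorem diagESSm_piSm : diagESSm S ≫ piSm S = 0 := by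
  apply ObjectProperty.hom_ext
  apply Rep.hom_ext
  apply Representation.IntertwiningMap.ext
  apply LinearMap.ext
  intro x
  exact (diagESHom_piHom_exact (S := S) _).mpr ⟨x, rfl⟩

/-- The complex `E_S → J_S → C'` in `SmRep ℤ 𝒰_S` (exact at `E_S` and `J_S`; the cokernel of the
second map is uniquely `p`-divisible). -/
noncomputable def arithComplex' : ShortComplex (Sm.SmRep ℤ (levelBasis S)) :=
  ShortComplex.mk (diagESSm S) (piSm S) (diagESSm_piSm S)

end reps

end Fermat.Agent.CFT.Arith
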