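/-
S55 / CFT (UNR) — lead.
Converse of helper7's LevelBridge: a finite Galois subfield `F ⊆ Ω = ℚ̄` which is unramified
outside `S` in the Prelude's sense (inertia subgroups of valuation subrings of `Ω` above `ℓ ∉ S`
fix `F`) is unramified outside `S` in the ideal-theoretic sense (inertia groups of primes of
`𝓞 F` above `ℓ ∉ S` are trivial).  Proof: lifting of inertia (as in helper5's
`S14.exists_lift_mem_inertiaSubgroupIn`, redone for an arbitrary intermediate field `F`).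
-/
import Mathlib
import Fermat.Agent.CFT.S14.Inertia_helper5
import Fermat.Prelude.Def_GroupCohomology_ContinuousUnramified

set_option autoImplicit false
set_option linter.style.haveILetI false
set_option linter.unusedSectionVars false

open IntermediateField
open scoped NumberField Pointwise

namespace Fermat.Agent.CFT.Arith

open Fermat.Agent.CFT.S14

section unr

/-- `Ω = AlgebraicClosure ℚ`. -/
local notation "Ω" => AlgebraicClosure ℚ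
/-- `Γ = Gal(Ω/ℚ)`. -/
local notation "Γ" => (AlgebraicClosure ℚ ≃ₐ[ℚ] AlgebraicClosure ℚ)

variable (F : IntermediateField ℚ Ω)

theorem coe_algebraMap_ringOfIntegers (a : 𝓞 ↥F) :
    ((algebraMap (𝓞 ↥F) (𝓞 Ω) a : 𝓞 Ω) : Ω) = ((a : ↥F) : Ω) := rfl

instance instSMulCommClassFixing : SMulCommClass ↥F.fixingSubgroup (𝓞 ↥F) (𝓞 Ω) where
  smul_comm n a b := by
    apply NumberField.RingOfIntegers.ext
    rw [Algebra.smul_def, Algebra.smul_def]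
    show (n : Γ) ((algebraMap (𝓞 ↥F) (𝓞 Ω) a : 𝓞 Ω) * b : 𝓞 Ω) = _
    push_cast
    rw [map_mul]
    congr 1
    show (n : Γ) (((a : ↥F) : Ω)) = ((a : ↥F) : Ω)
    exact (IntermediateField.mem_fixingSubgroup_iff F n).mp n.2 _ (a : ↥F).2

instance instIsInvariantFixing : Algebra.IsInvariant (𝓞 ↥F) (𝓞 Ω) ↥F.fixingSubgroup where
  isInvariant b hb := by
    have hfix : ∀ σ ∈ F.fixingSubgroup, σ (b : Ω) = (b : Ω) := fun σ hσ =>
      congrArg (fun y : 𝓞 Ω => (y : Ω)) (hb ⟨σ, hσ⟩)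
    have hmem : (b : Ω) ∈ F := by
      rw [← InfiniteGalois.fixedField_fixingSubgroup F, IntermediateField.mem_fixedField_iff]
      exact hfix
    have hint : IsIntegral ℤ (⟨(b : Ω), hmem⟩ : ↥F) := by
      have h1 : IsIntegral ℤ (b : Ω) := b.2
      exact (isIntegral_algebraMap_iff (algebraMap ↥F Ω).injective).mp h1
    exact ⟨⟨⟨(b : Ω), hmem⟩, hint⟩, NumberField.RingOfIntegers.ext rfl⟩

instance instCompactSpaceFixing : CompactSpace ↥F.fixingSubgroup :=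
  isCompact_iff_compactSpace.mp (InfiniteGalois.fixingSubgroup_isClosed F).isCompact

instance instIsIntegralRingOfIntegers : Algebra.IsIntegral (𝓞 ↥F) (𝓞 Ω) :=
  ⟨fun b => by
    have h1 : IsIntegral ℤ b := NumberField.RingOfIntegers.isIntegral b
    exact h1.tower_top⟩

/-- transitivity of `Gal(Ω/F)` on the primes of `𝓞 Ω` above a prime of `𝓞 F`. -/
theorem exists_smul_eq_of_under_eq' (P Q : Ideal (𝓞 Ω)) [P.IsPrime] [Q.IsPrime]
    (hPQ : P.under (𝓞 ↥F) = Q.under (𝓞 ↥F)) : ∃ n : ↥F.fixingSubgroup, Q = n • P := by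
  letI : TopologicalSpace (𝓞 Ω) := ⊥
  haveI : DiscreteTopology (𝓞 Ω) := ⟨rfl⟩
  haveI : ContinuousSMul Γ (𝓞 Ω) := continuousSMul_GQ
  exact Algebra.IsInvariant.exists_smul_of_under_eq_of_profinite (A := 𝓞 ↥F)
    (G := ↥F.fixingSubgroup) P Q hPQ

/-- surjectivity onto residue automorphisms for `Gal(Ω/F)`. -/
theorem stabilizerHom_surjective_fixing (P : Ideal (𝓞 ↥F)) (Q : Ideal (𝓞 Ω)) [Q.IsPrime]
    [Q.LiesOver P] : Function.Surjective (Ideal.Quotient.stabilizerHom Q P ↥F.fixingSubgroup) := by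
  letI : TopologicalSpace (𝓞 Ω) := ⊥
  haveI : DiscreteTopology (𝓞 Ω) := ⟨rfl⟩
  haveI : ContinuousSMul Γ (𝓞 Ω) := continuousSMul_GQ
  exact Ideal.Quotient.stabilizerHom_surjective_of_profinite (G := ↥F.fixingSubgroup) P Q

variable {F}

theorem coe_algebraMap_smul_restrictNormal [Normal ℚ ↥F] (σ : Γ) (x : 𝓞 ↥F) :
    σ • (algebraMap (𝓞 ↥F) (𝓞 Ω) x) =
      algebraMap (𝓞 ↥F) (𝓞 Ω) (AlgEquiv.restrictNormalHom ↥F σ • x) := by
  apply NumberField.RingOfIntegers.ext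
  show σ (((x : ↥F) : Ω)) = (((AlgEquiv.restrictNormalHom ↥F σ • x : 𝓞 ↥F) : ↥F) : Ω)
  exact (AlgEquiv.restrictNormal_commutes σ ↥F (x : ↥F)).symm

theorem restrictNormalHom_eq_one_of_mem_fixingSubgroup [Normal ℚ ↥F] {σ : Γ}
    (hσ : σ ∈ F.fixingSubgroup) : AlgEquiv.restrictNormalHom ↥F σ = 1 := by
  ext x
  have h := AlgEquiv.restrictNormal_commutes σ ↥F x
  have h2 : σ ((x : ↥F) : Ω) = (x : Ω) := (IntermediateField.mem_fixingSubgroup_iff F σ).mp hσ _ x.2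
  exact h.trans h2

theorem mem_fixingSubgroup_of_restrictNormalHom_eq_one [Normal ℚ ↥F] {σ : Γ}
    (hσ : AlgEquiv.restrictNormalHom ↥F σ = 1) : σ ∈ F.fixingSubgroup := by
  rw [IntermediateField.mem_fixingSubgroup_iff]
  intro x hx
  have h := AlgEquiv.restrictNormal_commutes σ ↥F (⟨x, hx⟩ : ↥F)
  have h1 : AlgEquiv.restrictNormal σ ↥F = AlgEquiv.restrictNormalHom ↥F σ := rfl
  rw [h1, hσ] at h
  exact h.symm

/-- **Lifting inertia**: every element of the inertia group (in `Gal(F/ℚ)`) of a prime `𝔔` of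
a normal subfield `F ⊆ Ω` containing the rational prime `ℓ` is the restriction of an element of
`G_ℚ` lying in the inertia subgroup of a valuation subring of `Ω` above `ℓ`. -/
theorem exists_lift_mem_inertiaSubgroupIn_field [Normal ℚ ↥F] (𝔔 : Ideal (𝓞 ↥F)) [𝔔.IsPrime]
    {ℓ : ℕ} (hℓ𝔔 : (ℓ : 𝓞 ↥F) ∈ 𝔔)
    (s : ↥F ≃ₐ[ℚ] ↥F) (hs : ∀ x : 𝓞 ↥F, s • x - x ∈ 𝔔) :
    ∃ (A : ValuationSubring Ω) (σ : Γ),
      A.LiesOverPrime ℓ ∧ σ ∈ A.inertiaSubgroupIn ℚ ∧ AlgEquiv.restrictNormalHom ↥F σ = s := by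
  classical
  -- a prime of `𝓞 Ω` above `𝔔`
  obtain ⟨Q, -, hQprime, hQ𝔔⟩ := Ideal.exists_ideal_over_prime_of_isIntegral 𝔔
    (⊥ : Ideal (𝓞 Ω)) (by
      rw [← RingHom.ker_eq_comap_bot]
      have : Function.Injective (algebraMap (𝓞 ↥F) (𝓞 Ω)) :=
        FaithfulSMul.algebraMap_injective _ _
      rw [(RingHom.injective_iff_ker_eq_bot _).mp this]
      exact bot_le)
  haveI := hQprime
  haveI : Q.LiesOver 𝔔 := ⟨hQ𝔔.symm⟩
  -- `s` preserves `𝔔`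
  have hs𝔔 : ∀ x : 𝓞 ↥F, s • x ∈ 𝔔 ↔ x ∈ 𝔔 := by
    intro x
    constructor
    · intro h; have := 𝔔.sub_mem h (hs x); simpa using this
    · intro h; have := 𝔔.add_mem (hs x) h; simpa using this
  -- a first lift
  obtain ⟨σ₀, hσ₀s⟩ := AlgEquiv.restrictNormalHom_surjective (F := ℚ) (K₁ := ↥F) Ω s
  -- `σ₀ • Q` lies over `𝔔` as well
  have hunder : (σ₀ • Q).under (𝓞 ↥F) = Q.under (𝓞 ↥F) := by
    ext x
    rw [Ideal.under_def, Ideal.under_def, Ideal.mem_comap, Ideal.mem_comap,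
      Ideal.mem_pointwise_smul_iff_inv_smul_mem,
      coe_algebraMap_smul_restrictNormal σ₀⁻¹ x]
    have e : AlgEquiv.restrictNormalHom ↥F σ₀⁻¹ = s⁻¹ := by
      rw [map_inv, hσ₀s]
    rw [e]
    show s⁻¹ • x ∈ Q.under (𝓞 ↥F) ↔ x ∈ Q.under (𝓞 ↥F)
    rw [← Ideal.over_def Q 𝔔]
    rw [← hs𝔔 (s⁻¹ • x), smul_inv_smul]
  obtain ⟨n, hn⟩ := exists_smul_eq_of_under_eq' F (σ₀ • Q) Q hunder
  set σ₁ : Γ := (n : Γ) * σ₀ with hσ₁
  have hσ₁Q : σ₁ • Q = Q := by rw [hσ₁, mul_smul]; exact hn.symm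
  have hσ₁s : AlgEquiv.restrictNormalHom ↥F σ₁ = s := by
    rw [hσ₁, map_mul, hσ₀s, restrictNormalHom_eq_one_of_mem_fixingSubgroup n.2, one_mul]
  -- the automorphism of `𝓞 Ω / Q` over `𝓞 F / 𝔔` induced by `σ₁`
  let r : (𝓞 Ω ⧸ Q) ≃+* (𝓞 Ω ⧸ Q) :=
    Ideal.quotientEquiv Q Q (MulSemiringAction.toRingEquiv Γ (𝓞 Ω) σ₁) (by
      conv_lhs => rw [← hσ₁Q]
      rfl)
  have hr : ∀ b : 𝓞 Ω, r (Ideal.Quotient.mk Q b) = Ideal.Quotient.mk Q (σ₁ • b) := fun b => rfl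
  let abar : (𝓞 Ω ⧸ Q) ≃ₐ[𝓞 ↥F ⧸ 𝔔] (𝓞 Ω ⧸ Q) :=
    AlgEquiv.ofRingEquiv (f := r) (by
      intro x
      obtain ⟨x, rfl⟩ := Ideal.Quotient.mk_surjective x
      show r (Ideal.Quotient.mk Q (algebraMap _ _ x)) = Ideal.Quotient.mk Q (algebraMap _ _ x)
      rw [hr, coe_algebraMap_smul_restrictNormal σ₁ x, hσ₁s, Ideal.Quotient.eq, ← map_sub]
      show s • x - x ∈ Q.under (𝓞 ↥F)
      rw [← Ideal.over_def Q 𝔔]
      exact hs x)
  obtain ⟨⟨n', hn'Q⟩, hn'⟩ := stabilizerHom_surjective_fixing F 𝔔 Q abar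
  set σ : Γ := ((n' : Γ))⁻¹ * σ₁ with hσdef
  have hσs : AlgEquiv.restrictNormalHom ↥F σ = s := by
    rw [hσdef, map_mul, hσ₁s,
      restrictNormalHom_eq_one_of_mem_fixingSubgroup (inv_mem n'.2), one_mul]
  -- `σ` acts trivially on `𝓞 Ω / Q`
  have hσtriv : ∀ b : 𝓞 Ω, σ • b - b ∈ Q := by
    intro b
    rw [← Ideal.Quotient.eq]
    have h1 : Ideal.Quotient.stabilizerHom Q 𝔔 ↥F.fixingSubgroup ⟨n', hn'Q⟩
        (Ideal.Quotient.mk Q (σ • b)) = abar (Ideal.Quotient.mk Q b) := by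
      rw [Ideal.Quotient.stabilizerHom_apply]
      show Ideal.Quotient.mk Q ((n' : Γ) • σ • b) = r (Ideal.Quotient.mk Q b)
      rw [hr, hσdef, mul_smul, smul_inv_smul]
    rw [hn'] at h1
    exact abar.injective h1
  obtain ⟨A, hA, hA'⟩ := exists_valuationSubring_of_prime_Qbar Q
  refine ⟨A, σ, ?_, mem_inertiaSubgroupIn_of_forall_sub_mem hA hA' σ hσtriv, hσs⟩
  apply liesOverPrime_of_mem hA'
  have : algebraMap (𝓞 ↥F) (𝓞 Ω) (ℓ : 𝓞 ↥F) ∈ Q := by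
    show (ℓ : 𝓞 ↥F) ∈ Q.under (𝓞 ↥F)
    rw [← Ideal.over_def Q 𝔔]
    exact hℓ𝔔
  simpa using this

/-- **(UNR)**: a finite Galois subfield `F ⊆ Ω` unramified outside `S` in the Prelude's sense has
trivial inertia groups at all primes of `𝓞 F` above rational primes `ℓ ∉ S`. -/
theorem inertia_eq_one_of_isUnramifiedOutside {S : Finset Nat.Primes}
    {F : IntermediateField ℚ Ω} [NumberField ↥F] [IsGalois ℚ ↥F]
    (hF : F.IsUnramifiedOutside S) (ℓ : Nat.Primes) (hℓ : ℓ ∉ S) (Q : Ideal (𝓞 ↥F))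
    (hQ : Q.IsPrime) (hℓQ : (((ℓ : ℕ) : ℕ) : 𝓞 ↥F) ∈ Q) (σ : ↥F ≃ₐ[ℚ] ↥F)
    (hσ : ∀ x : 𝓞 ↥F, σ • x - x ∈ Q) : σ = 1 := by
  haveI := hQ
  haveI : Normal ℚ ↥F := IsGalois.to_normal
  obtain ⟨A, σ', hA, hσ'A, hσ'⟩ := exists_lift_mem_inertiaSubgroupIn_field Q hℓQ σ hσ
  have h1 : σ' ∈ F.fixingSubgroup := hF.2 ℓ hℓ A hA hσ'A
  rw [← hσ', restrictNormalHom_eq_one_of_mem_fixingSubgroup h1]

/-- a nonzero prime of the ring of integers of a number field contains a rational prime. -/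
theorem exists_prime_natCast_mem_of_ne_bot {K : Type*} [Field K] [NumberField K]
    (𝔔 : Ideal (𝓞 K)) [𝔔.IsPrime] (h𝔔 : 𝔔 ≠ ⊥) :
    ∃ ℓ : ℕ, ℓ.Prime ∧ (ℓ : 𝓞 K) ∈ 𝔔 := by
  have h1 : 𝔔.under ℤ ≠ ⊥ := Ideal.under_ne_bot ℤ h𝔔
  have h2 : (𝔔.under ℤ).IsPrime := inferInstance
  obtain ⟨n, hn⟩ := (IsPrincipalIdealRing.principal (𝔔.under ℤ)).principal
  have hn0 : n ≠ 0 := by
    rintro rfl
    apply h1
    rw [hn]; simp
  have hnprime : Prime n := by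
    have h3 : (Ideal.span {n}).IsPrime := by rw [← Ideal.submodule_span_eq, ← hn]; exact h2
    exact (Ideal.span_singleton_prime hn0).mp h3
  refine ⟨n.natAbs, Int.prime_iff_natAbs_prime.mp hnprime, ?_⟩
  have hmem : ((n.natAbs : ℕ) : ℤ) ∈ 𝔔.under ℤ := by
    rw [hn]
    exact Submodule.mem_span_singleton.mpr (by
      obtain ⟨c, hc⟩ := (Int.dvd_natAbs.mpr (dvd_refl n) : n ∣ ((n.natAbs : ℕ) : ℤ))
      exact ⟨c, by rw [hc]; simp [mul_comm]⟩)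
  have := (Ideal.mem_comap).mp hmem
  simpa using this

/-- **(UNR)**, in the shape of the hypothesis `hunr` of helper7's `LevelBridge` (over `ℚ`):
the inertia group of every nonzero prime of `𝓞 F` containing no prime of `S` is trivial. -/
theorem inertia_eq_one_of_isUnramifiedOutside' {S : Finset Nat.Primes}
    {F : IntermediateField ℚ Ω} [NumberField ↥F] [IsGalois ℚ ↥F]
    (hF : F.IsUnramifiedOutside S) (Q : Ideal (𝓞 ↥F)) (hQ : Q.IsPrime) (hQ0 : Q ≠ ⊥)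
    (hQS : ∀ ℓ ∈ S, (((ℓ : Nat.Primes) : ℕ) : 𝓞 ↥F) ∉ Q) (σ : ↥F ≃ₐ[ℚ] ↥F)
    (hσ : ∀ x : 𝓞 ↥F, σ • x - x ∈ Q) : σ = 1 := by
  haveI := hQ
  obtain ⟨ℓ, hℓ, hℓQ⟩ := exists_prime_natCast_mem_of_ne_bot Q hQ0
  have hℓS : (⟨ℓ, hℓ⟩ : Nat.Primes) ∉ S := fun h => hQS ⟨ℓ, hℓ⟩ h hℓQ
  exact inertia_eq_one_of_isUnramifiedOutside hF ⟨ℓ, hℓ⟩ hℓS Q hQ hℓQ σ hσ

end unr

end Fermat.Agent.CFT.Arith
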