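/-
S55 / CFT (PT3.f), helper7: the invariants of `C' = 𝕁/(ℚ_Sˣ·𝕌^S)`.

For `E ⊆ Ω` finite unramified outside `S` and `U = Gal(Ω/E)`:
`C'^U ≅ J_E/(Eˣ · U^S_E)` (Hilbert 90 and `H¹(T, U^S_{F'}) = 0` at finite levels).
-/
import Fermat.Agent.CFT.Arith.DSm_helper7
import Fermat.Agent.CFT.Arith.UnitsSplit_helper7
import Fermat.Agent.CFT.Arith.Unr_lead

set_option autoImplicit false
set_option linter.unusedSectionVars false
set_option linter.style.haveILetI false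

open scoped TensorProduct RestrictedProduct NumberField

namespace Fermat.Agent.CFT

/-! ### Finite level: Hilbert 90 and splitting for subgroups -/

section finite

variable {L : Type} [Field L] [NumberField L]

/-- **Hilbert 90 for a subgroup of `Gal(L/ℚ)`**, in elementary form. -/
theorem exists_smul_div_eq_of_cocycle (T : Subgroup (L ≃ₐ[ℚ] L)) (a : T → Lˣ)
    (ha : ∀ s t : T, a (s * t) = a s * (s : L ≃ₐ[ℚ] L) • a t) :
    ∃ b : Lˣ, ∀ t : T, a t = (t : L ≃ₐ[ℚ] L) • b / b := by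
  set e := IntermediateField.subgroupEquivAlgEquiv T with he
  have hsmul : ∀ (g : L ≃ₐ[IntermediateField.fixedField T] L) (x : Lˣ),
      ((e.symm g : T) : L ≃ₐ[ℚ] L) • x = g • x := by
    intro g x
    apply Units.ext
    rfl
  have hcoc : groupCohomology.IsMulCocycle₁ (fun g => a (e.symm g)) := by
    intro g h
    change a (e.symm (g * h)) = g • a (e.symm h) * a (e.symm g)
    rw [map_mul, ha, hsmul, mul_comm]
  obtain ⟨b, hb⟩ := groupCohomology.isMulCoboundary₁_of_isMulCocycle₁_of_aut_to_units _ hcoc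
  refine ⟨b, fun t => ?_⟩
  have h1 := hb (e t)
  change e t • b / b = a (e.symm (e t)) at h1
  rw [MulEquiv.symm_apply_apply] at h1
  rw [← h1, ← hsmul (e t) b, MulEquiv.symm_apply_apply]

variable [IsGalois ℚ L]

/-- `Lˣ ∩ U^S_L = 1` (for `S ≠ ∅`). -/
theorem principalIdeles_inf_unitsOutside {S : Set Nat.Primes} (hS : S.Nonempty) :
    principalIdeles L ⊓ FinIdele.unitsOutside L S = ⊥ := by
  rw [eq_bot_iff]
  rintro x ⟨⟨a, rfl⟩, hx2⟩
  obtain ⟨ℓ, hℓ⟩ := hS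
  have h1 : SemiLocal.ofUnits (ℓ : ℕ) a = 1 := hx2.2 ℓ hℓ
  have h2 : a = 1 := by
    apply SemiLocal.ofUnits_injective (ℓ : ℕ)
    rw [h1, map_one]
  rw [h2, map_one]
  exact Subgroup.mem_bot.mpr rfl

/-- uniqueness of the decomposition in `Lˣ · U^S_L`. -/
theorem diag_mul_eq_diag_mul {S : Set Nat.Primes} (hS : S.Nonempty) {a a' : Lˣ}
    {u u' : FinIdele L} (hu : u ∈ FinIdele.unitsOutside L S) (hu' : u' ∈ FinIdele.unitsOutside L S)
    (h : FinIdele.diag L a * u = FinIdele.diag L a' * u') : a = a' ∧ u = u' := by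
  have h1 : (FinIdele.diag L a')⁻¹ * FinIdele.diag L a = u' * u⁻¹ := by
    rw [inv_mul_eq_iff_eq_mul, ← mul_assoc, ← h, mul_assoc, mul_inv_cancel, mul_one]
  have h2 : (FinIdele.diag L a')⁻¹ * FinIdele.diag L a ∈
      principalIdeles L ⊓ FinIdele.unitsOutside L S :=
    Subgroup.mem_inf.mpr ⟨(principalIdeles L).mul_mem ((principalIdeles L).inv_mem ⟨a', rfl⟩)
      ⟨a, rfl⟩, by
        rw [h1]
        exact (FinIdele.unitsOutside L S).mul_mem hu' ((FinIdele.unitsOutside L S).inv_mem hu)⟩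
  rw [principalIdeles_inf_unitsOutside hS, Subgroup.mem_bot, inv_mul_eq_one] at h2
  have h3 : a = a' := (FinIdele.diag_injective h2).symm
  refine ⟨h3, ?_⟩
  rw [h3] at h
  exact mul_left_cancel h

theorem smul_diag_eq (s : L ≃ₐ[ℚ] L) (a : Lˣ) :
    s • FinIdele.diag L a = FinIdele.diag L (s • a) := by
  rw [FinIdele.smul_diag]
  rfl

/-- **finite-level splitting**: an idele of `L` whose class modulo `Lˣ · U^S_L` is invariant under
`T ≤ Gal(L/ℚ)` is congruent modulo `Lˣ · U^S_L` to a `T`-invariant idele (Hilbert 90 and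
`H¹(T, U^S_L) = 0`). -/
theorem exists_fixed_of_class_fixed {S : Set Nat.Primes} (hS : S.Nonempty)
    (T : Subgroup (L ≃ₐ[ℚ] L))
    (hsplit : ∀ u : T → FinIdele L, (∀ t, u t ∈ FinIdele.unitsOutside L S) →
      (∀ s t : T, u (s * t) = u s * (s : L ≃ₐ[ℚ] L) • u t) →
      ∃ v ∈ FinIdele.unitsOutside L S, ∀ t : T, u t = (t : L ≃ₐ[ℚ] L) • v / v)
    (y : FinIdele L)
    (hy : ∀ t : T, y⁻¹ * (t : L ≃ₐ[ℚ] L) • y ∈ principalIdeles L ⊔ FinIdele.unitsOutside L S) :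
    ∃ (b : Lˣ) (v : FinIdele L), v ∈ FinIdele.unitsOutside L S ∧
      ∀ t : T, (t : L ≃ₐ[ℚ] L) • (y / (FinIdele.diag L b * v)) = y / (FinIdele.diag L b * v) := by
  have h1 : ∀ t : T, ∃ a : Lˣ, ∃ u : FinIdele L, u ∈ FinIdele.unitsOutside L S ∧
      FinIdele.diag L a * u = y⁻¹ * (t : L ≃ₐ[ℚ] L) • y := by
    intro t
    obtain ⟨y₁, ⟨a, rfl⟩, u, hu, h⟩ := Subgroup.mem_sup.mp (hy t)
    exact ⟨a, u, hu, h⟩
  choose a u hu hau using h1
  -- the cocycle identity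
  have hcoc : ∀ s t : T, FinIdele.diag L (a (s * t)) * u (s * t) =
      FinIdele.diag L (a s * (s : L ≃ₐ[ℚ] L) • a t) * (u s * (s : L ≃ₐ[ℚ] L) • u t) := by
    intro s t
    rw [hau, map_mul, ← smul_diag_eq, mul_mul_mul_comm, hau, ← smul_mul', hau, smul_mul', smul_inv',
      Subgroup.coe_mul, mul_smul]
    rw [mul_assoc, mul_inv_cancel_left]
  have hcoc' : ∀ s t : T, a (s * t) = a s * (s : L ≃ₐ[ℚ] L) • a t ∧
      u (s * t) = u s * (s : L ≃ₐ[ℚ] L) • u t := fun s t =>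
    diag_mul_eq_diag_mul hS (hu _) ((FinIdele.unitsOutside L S).mul_mem (hu s)
      ((FinIdele.smul_mem_unitsOutside_iff (s : L ≃ₐ[ℚ] L)).mpr (hu t))) (hcoc s t)
  obtain ⟨b, hb⟩ := exists_smul_div_eq_of_cocycle T a (fun s t => (hcoc' s t).1)
  obtain ⟨v, hv, hv'⟩ := hsplit u hu (fun s t => (hcoc' s t).2)
  refine ⟨b, v, hv, fun t => ?_⟩
  have h2 : (t : L ≃ₐ[ℚ] L) • y = y * (FinIdele.diag L (a t) * u t) := by
    rw [hau, mul_inv_cancel_left]
  have h3 : (t : L ≃ₐ[ℚ] L) • (FinIdele.diag L b * v) =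
      (FinIdele.diag L b * v) * (FinIdele.diag L (a t) * u t) := by
    rw [smul_mul', smul_diag_eq, hb t, hv' t, map_div]
    rw [mul_mul_mul_comm, mul_div_cancel, mul_div_cancel]
  rw [smul_div', h2, h3, mul_div_mul_right_eq_div]

end finite

end Fermat.Agent.CFT

namespace Fermat.Agent.CFT.Arith

open Fermat.Agent.CFT

/-- `Ω = AlgebraicClosure ℚ`. -/
local notation "Ω" => AlgebraicClosure ℚ
/-- `Γ = Gal(Ω/ℚ)`. -/
local notation "Γ" => (AlgebraicClosure ℚ ≃ₐ[ℚ] AlgebraicClosure ℚ)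

set_option synthInstance.maxHeartbeats 200000

/-! ### The map `J_E → 𝕁` -/

section mapIdS

variable {S : Finset Nat.Primes} {E : IntermediateField ℚ Ω}

/-- `J_E → 𝕁` for `E` finite unramified outside `S`. -/
noncomputable def mapIdS (hE : E.IsUnramifiedOutside S) : FinIdele ↥E →* IdS S where
  toFun z := ⟨FinIdele.map (algebraMap ↥E Ω) z, map_mem_IdS hE z⟩
  map_one' := Subtype.ext (map_one _)
  map_mul' z w := Subtype.ext (map_mul _ z w)

@[simp] theorem coe_mapIdS (hE : E.IsUnramifiedOutside S) (z : FinIdele ↥E) :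
    ((mapIdS hE z : IdS S) : FinIdele Ω) = FinIdele.map (algebraMap ↥E Ω) z := rfl

theorem mapIdS_injective (hE : E.IsUnramifiedOutside S) : Function.Injective (mapIdS hE) := by
  intro z w h
  exact FinIdele.map_algebraMap_injective ↥E Ω (congrArg Subtype.val h)

theorem smul_mapIdS_of_mem (hE : E.IsUnramifiedOutside S) (z : FinIdele ↥E) {σ : Γ}
    (hσ : σ ∈ E.fixingSubgroup) : σ • mapIdS hE z = mapIdS hE z :=
  Subtype.ext ((finIdele_mem_range_map_iff_fixed E _).mp ⟨z, rfl⟩ σ hσ)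

theorem exists_mapIdS_eq_of_fixed (hE : E.IsUnramifiedOutside S) (x : IdS S)
    (hx : ∀ σ ∈ E.fixingSubgroup, σ • x = x) : ∃ z : FinIdele ↥E, mapIdS hE z = x := by
  obtain ⟨z, hz⟩ := (finIdele_mem_range_map_iff_fixed E (x : FinIdele Ω)).mpr
    (fun σ hσ => congrArg Subtype.val (hx σ hσ))
  exact ⟨z, Subtype.ext hz⟩

/-- equivariance of `J_F → 𝕁` along restriction, for `F` normal. -/
theorem mapIdS_restrictNormalHom_smul {F : IntermediateField ℚ Ω} [Normal ℚ ↥F]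
    (hF : F.IsUnramifiedOutside S) (σ : Γ) (y : FinIdele ↥F) :
    mapIdS hF (AlgEquiv.restrictNormalHom (F := ℚ) (K₁ := Ω) ↥F σ • y) = σ • mapIdS hF y := by
  apply Subtype.ext
  rw [coe_smul_IdS, coe_mapIdS, coe_mapIdS, FinIdele.smul_eq_map, FinIdele.smul_eq_map]
  apply RestrictedProduct.ext
  intro ℓ
  rw [FinIdele.map_apply, FinIdele.map_apply, FinIdele.map_apply, FinIdele.map_apply]
  apply Units.ext
  rw [SemiLocal.coe_unitsMap, SemiLocal.coe_unitsMap, SemiLocal.coe_unitsMap,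
    SemiLocal.coe_unitsMap, SemiLocal.map_map, SemiLocal.map_map]
  congr 2
  ext x
  exact AlgEquiv.restrictNormal_commutes σ ↥F x

end mapIdS

/-! ### The invariants of `C'` -/

section invariants

variable {S : Finset Nat.Primes} {E : IntermediateField ℚ Ω} [NumberField ↥E]

/-- **kernel of `J_E → C'`**: it is `Eˣ · U^S_E`. -/
theorem mapIdS_mem_PS_sup_US_iff (hS : S.Nonempty) (hE : E.IsUnramifiedOutside S)
    (z : FinIdele ↥E) : mapIdS hE z ∈ PS S ⊔ US S ↔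
      z ∈ principalIdeles ↥E ⊔ FinIdele.unitsOutside ↥E (S : Set Nat.Primes) := by
  constructor
  · intro h
    obtain ⟨y, ⟨a, rfl⟩, u, hu, hyu⟩ := Subgroup.mem_sup.mp h
    -- `a` and `u` are fixed by `Gal(Ω/E)`
    have hfix : ∀ σ ∈ E.fixingSubgroup, σ • a = a ∧ σ • u = u := by
      intro σ hσ
      have h1 : diagQS S (σ • a) * σ • u = diagQS S a * u := by
        rw [diagQS_smul, ← smul_mul', hyu, smul_mapIdS_of_mem hE z hσ]
      obtain ⟨h2, h3⟩ := eq_and_eq_of_mul_eq_mul hS ⟨_, rfl⟩ ⟨_, rfl⟩ (smul_mem_US σ hu) hu h1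
      exact ⟨diagQS_injective h2, h3⟩
    have haE : ((a : Ωˣ) : Ω) ∈ E := by
      have h1 : ((a : Ωˣ) : Ω) ∈ IntermediateField.fixedField E.fixingSubgroup := by
        rw [IntermediateField.mem_fixedField_iff]
        intro σ hσ
        exact congrArg (fun b : QSx S => ((b : Ωˣ) : Ω)) (hfix σ hσ).1
      rwa [InfiniteGalois.fixedField_fixingSubgroup] at h1
    obtain ⟨u', hu'⟩ := exists_mapIdS_eq_of_fixed hE u (fun σ hσ => (hfix σ hσ).2)
    have ha0 : (⟨((a : Ωˣ) : Ω), haE⟩ : E) ≠ 0 :=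
      fun h0 => (a : Ωˣ).ne_zero (congrArg Subtype.val h0)
    have hz : z = FinIdele.diag ↥E (Units.mk0 ⟨((a : Ωˣ) : Ω), haE⟩ ha0) * u' := by
      apply mapIdS_injective hE
      rw [map_mul, hu', ← hyu]
      congr 1
      apply Subtype.ext
      rw [coe_mapIdS, FinIdele.map_diag, coe_diagQS]
      congr 1
      apply Units.ext
      rfl
    rw [hz]
    refine Subgroup.mul_mem_sup ⟨_, rfl⟩ ?_
    rw [← FinIdele.map_mem_unitsOutside_iff ↥E Ω]
    have h2 : FinIdele.map (algebraMap ↥E Ω) u' = (u : FinIdele Ω) := congrArg Subtype.val hu'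
    rw [h2]
    exact hu
  · intro h
    obtain ⟨y, ⟨a, rfl⟩, u, hu, rfl⟩ := Subgroup.mem_sup.mp h
    rw [map_mul]
    refine Subgroup.mul_mem_sup ?_ ?_
    · have haQ : Units.map (algebraMap ↥E Ω : ↥E →* Ω) a ∈ QSx S := ⟨E, hE, (a : ↥E).2⟩
      refine ⟨⟨_, haQ⟩, ?_⟩
      apply Subtype.ext
      rw [coe_diagQS, coe_mapIdS, FinIdele.map_diag]
    · change ((mapIdS hE u : IdS S) : FinIdele Ω) ∈ FinIdele.unitsOutside Ω (S : Set Nat.Primes)
      rw [coe_mapIdS, FinIdele.map_mem_unitsOutside_iff ↥E Ω]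
      exact hu

/-- **kernel of `J_E → C'`**, in terms of `mkDS`. -/
theorem mkDS_mapIdS_eq_one_iff (hS : S.Nonempty) (hE : E.IsUnramifiedOutside S)
    (z : FinIdele ↥E) : mkDS S (mapIdS hE z) = 1 ↔
      z ∈ principalIdeles ↥E ⊔ FinIdele.unitsOutside ↥E (S : Set Nat.Primes) := by
  rw [mkDS_eq_one_iff, mapIdS_mem_PS_sup_US_iff hS hE]

/-- the image of `J_E` in `C'` is fixed by `Gal(Ω/E)`. -/
theorem smul_mkDS_mapIdS_of_mem (hE : E.IsUnramifiedOutside S) (z : FinIdele ↥E) {σ : Γ}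
    (hσ : σ ∈ E.fixingSubgroup) : σ • mkDS S (mapIdS hE z) = mkDS S (mapIdS hE z) := by
  rw [smul_mkDS, smul_mapIdS_of_mem hE z hσ]

/-- **the invariants of `C'`**: every element of `C'` fixed by `Gal(Ω/E)` comes from `J_E`
(Hilbert 90 and `H¹(T, U^S_{F'}) = 0` at finite levels). -/
theorem exists_mkDS_mapIdS_eq (hS : S.Nonempty)
    (hsplit : UnitsCocyclesSplit (S : Set Nat.Primes)) (hE : E.IsUnramifiedOutside S)
    (c : DS S) (hc : ∀ σ ∈ E.fixingSubgroup, σ • c = c) :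
    ∃ z : FinIdele ↥E, mkDS S (mapIdS hE z) = c := by
  obtain ⟨x, rfl⟩ := mkDS_surjective c
  obtain ⟨F₁, hF₁, hfix₁⟩ := exists_isLevel_fixes_IdS x
  obtain ⟨F₂, hF₂, hle⟩ := exists_isLevel_ge hE
  have hF' : IsLevel S (F₁ ⊔ F₂) := hF₁.sup hF₂
  set F' := F₁ ⊔ F₂ with hF'def
  have hEF' : E ≤ F' := hle.trans le_sup_right
  have hfix : ∀ σ ∈ F'.fixingSubgroup, σ • x = x := fun σ hσ =>
    hfix₁ σ (IntermediateField.fixingSubgroup_antitone le_sup_left hσ)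
  haveI := hF'.finiteDimensional
  haveI : NumberField ↥F' := numberField_of_finiteDimensional
  haveI : IsGalois ℚ ↥F' := hF'.isGalois
  haveI : Normal ℚ ↥F' := hF'.normal
  obtain ⟨y, hy⟩ := exists_mapIdS_eq_of_fixed hF'.1 x hfix
  -- the image of `Gal(Ω/E)` in `Gal(F'/ℚ)`
  set T : Subgroup (↥F' ≃ₐ[ℚ] ↥F') :=
    (E.fixingSubgroup).map (AlgEquiv.restrictNormalHom (F := ℚ) (K₁ := Ω) ↥F') with hT
  have hyT : ∀ t : T, y⁻¹ * (t : ↥F' ≃ₐ[ℚ] ↥F') • y ∈
      principalIdeles ↥F' ⊔ FinIdele.unitsOutside ↥F' (S : Set Nat.Primes) := by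
    rintro ⟨t, σ, hσ, rfl⟩
    rw [← mapIdS_mem_PS_sup_US_iff hS hF'.1, map_mul, map_inv, mapIdS_restrictNormalHom_smul, hy,
      ← mkDS_eq_mkDS_iff]
    exact (hc σ hσ).symm
  have hin : ∀ ℓ : Nat.Primes, ℓ ∉ (S : Set Nat.Primes) → ∀ Q : Ideal (𝓞 ↥F'), Q.IsPrime →
      (((ℓ : ℕ) : ℕ) : 𝓞 ↥F') ∈ Q → ∀ σ : ↥F' ≃ₐ[ℚ] ↥F', (∀ x : 𝓞 ↥F', σ • x - x ∈ Q) → σ = 1 :=
    fun ℓ hℓ Q hQ hℓQ σ hσ => inertia_eq_one_of_isUnramifiedOutside hF'.1 ℓ
      (fun h => hℓ (Finset.mem_coe.mpr h)) Q hQ hℓQ σ hσ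
  obtain ⟨b, v, hv, hbv⟩ := exists_fixed_of_class_fixed (Finset.coe_nonempty.mpr hS) T
    (hsplit ↥F' hin T) y hyT
  -- the corrected idele is fixed by `Gal(Ω/E)`
  have hfixE : ∀ σ ∈ E.fixingSubgroup,
      σ • mapIdS hF'.1 (y / (FinIdele.diag ↥F' b * v)) =
        mapIdS hF'.1 (y / (FinIdele.diag ↥F' b * v)) := by
    intro σ hσ
    rw [← mapIdS_restrictNormalHom_smul]
    exact congrArg _ (hbv ⟨_, σ, hσ, rfl⟩)
  obtain ⟨z, hz⟩ := exists_mapIdS_eq_of_fixed hE _ hfixE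
  refine ⟨z, ?_⟩
  rw [hz, mkDS_eq_mkDS_iff, ← hy, ← map_inv, ← map_mul, mapIdS_mem_PS_sup_US_iff hS hF'.1,
    inv_div, div_mul_cancel]
  exact Subgroup.mul_mem_sup ⟨b, rfl⟩ hv

end invariants

end Fermat.Agent.CFT.Arith
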