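/-
S55 / CFT (PT3.f), helper7: the invariants of `C' = 𝕁/(ℚ_Sˣ·𝕌^S)` as an additive equivalence.

For `E ⊆ Ω` finite unramified outside `S` and `U = Gal(Ω/E)`:
`J_E/(Eˣ · U^S_E) ≃ C'^U`, in the shapes consumed by the global instantiation (PT8).
-/
import Fermat.Agent.CFT.Arith.DSInv_helper7
import Fermat.Agent.CFT.Sm.RecKer_helper1

set_option autoImplicit false
set_option linter.unusedSectionVars false
set_option linter.style.haveILetI false

open scoped TensorProduct RestrictedProduct NumberField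

namespace Fermat.Agent.CFT.Arith

open Fermat.Agent.CFT

/-- `Ω = AlgebraicClosure ℚ`. -/
local notation "Ω" => AlgebraicClosure ℚ
/-- `Γ = Gal(Ω/ℚ)`. -/
local notation "Γ" => (AlgebraicClosure ℚ ≃ₐ[ℚ] AlgebraicClosure ℚ)

section equiv

variable {S : Finset Nat.Primes} {E : IntermediateField ℚ Ω} [NumberField ↥E]

/-- `J_E/(Eˣ·U^S_E) → C'`. -/
noncomputable def sClassToDS (hS : S.Nonempty) (hE : E.IsUnramifiedOutside S) :
    (FinIdele ↥E ⧸ (principalIdeles ↥E ⊔ FinIdele.unitsOutside ↥E (S : Set Nat.Primes))) →* DS S :=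
  QuotientGroup.lift _ ((mkDS S).comp (mapIdS hE))
    (fun z hz => (mkDS_mapIdS_eq_one_iff hS hE z).mpr hz)

@[simp] theorem sClassToDS_mk (hS : S.Nonempty) (hE : E.IsUnramifiedOutside S) (z : FinIdele ↥E) :
    sClassToDS hS hE (QuotientGroup.mk z) = mkDS S (mapIdS hE z) := rfl

theorem sClassToDS_injective (hS : S.Nonempty) (hE : E.IsUnramifiedOutside S) :
    Function.Injective (sClassToDS hS hE) := by
  rw [injective_iff_map_eq_one]
  intro q hq
  induction q using QuotientGroup.induction_on with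
  | H z =>
    rw [sClassToDS_mk, mkDS_mapIdS_eq_one_iff hS hE] at hq
    exact (QuotientGroup.eq_one_iff z).mpr hq

theorem smul_sClassToDS_of_mem (hS : S.Nonempty) (hE : E.IsUnramifiedOutside S)
    (q : FinIdele ↥E ⧸ (principalIdeles ↥E ⊔ FinIdele.unitsOutside ↥E (S : Set Nat.Primes)))
    {σ : Γ} (hσ : σ ∈ E.fixingSubgroup) : σ • sClassToDS hS hE q = sClassToDS hS hE q := by
  induction q using QuotientGroup.induction_on with
  | H z => exact smul_mkDS_mapIdS_of_mem hE z hσ

theorem exists_sClassToDS_eq (hS : S.Nonempty) (hsplit : UnitsCocyclesSplit (S : Set Nat.Primes))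
    (hE : E.IsUnramifiedOutside S) (c : DS S) (hc : ∀ σ ∈ E.fixingSubgroup, σ • c = c) :
    ∃ q, sClassToDS hS hE q = c := by
  obtain ⟨z, hz⟩ := exists_mkDS_mapIdS_eq hS hsplit hE c hc
  exact ⟨QuotientGroup.mk z, hz⟩

/-- `J_E/(Eˣ·U^S_E) → C'^U`, additively, with values in the invariants of the restriction of
`DSm S` to `U = Gal(Ω/E)`. -/
noncomputable def sClassToInv (hS : S.Nonempty) (hE : E.IsUnramifiedOutside S) :
    Additive (FinIdele ↥E ⧸ (principalIdeles ↥E ⊔ FinIdele.unitsOutside ↥E (S : Set Nat.Primes))) →+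
      ↥(Sm.smInvariants (Sm.resSub (DSm S) E.fixingSubgroup)) where
  toFun q := ⟨Additive.ofMul (sClassToDS hS hE (Additive.toMul q)), fun g =>
    congrArg Additive.ofMul (smul_sClassToDS_of_mem hS hE (Additive.toMul q) g.2)⟩
  map_zero' := Subtype.ext (congrArg Additive.ofMul (map_one (sClassToDS hS hE)))
  map_add' a b := Subtype.ext (congrArg Additive.ofMul
    (map_mul (sClassToDS hS hE) (Additive.toMul a) (Additive.toMul b)))

theorem coe_sClassToInv (hS : S.Nonempty) (hE : E.IsUnramifiedOutside S)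
    (q : Additive (FinIdele ↥E ⧸
      (principalIdeles ↥E ⊔ FinIdele.unitsOutside ↥E (S : Set Nat.Primes)))) :
    ((sClassToInv hS hE q : ↥(Sm.smInvariants (Sm.resSub (DSm S) E.fixingSubgroup))) :
      (Sm.resSub (DSm S) E.fixingSubgroup).obj.V) =
      Additive.ofMul (sClassToDS hS hE (Additive.toMul q)) := rfl

theorem sClassToInv_bijective (hS : S.Nonempty)
    (hsplit : UnitsCocyclesSplit (S : Set Nat.Primes)) (hE : E.IsUnramifiedOutside S) :
    Function.Bijective (sClassToInv hS hE) := by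
  constructor
  · intro a b h
    have h1 := congrArg Subtype.val h
    rw [coe_sClassToInv, coe_sClassToInv] at h1
    have h2 : sClassToDS hS hE (Additive.toMul a) = sClassToDS hS hE (Additive.toMul b) :=
      congrArg Additive.toMul h1
    exact congrArg Additive.ofMul (sClassToDS_injective hS hE h2)
  · rintro ⟨c, hc⟩
    have hc' : ∀ σ ∈ E.fixingSubgroup, σ • (Additive.toMul (α := DS S) c) = Additive.toMul c :=
      fun σ hσ => congrArg Additive.toMul (hc ⟨σ, hσ⟩)
    obtain ⟨q, hq⟩ := exists_sClassToDS_eq hS hsplit hE (Additive.toMul (α := DS S) c) hc'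
    exact ⟨Additive.ofMul q, Subtype.ext (congrArg Additive.ofMul hq)⟩

/-- **(H7.3)** `C'^U ≃+ J_E/(Eˣ·U^S_E)` for `U = Gal(Ω/E)`, `E` finite unramified outside `S`. -/
noncomputable def invDSEquiv (hS : S.Nonempty) (hsplit : UnitsCocyclesSplit (S : Set Nat.Primes))
    (hE : E.IsUnramifiedOutside S) :
    ↥(Sm.smInvariants (Sm.resSub (DSm S) E.fixingSubgroup)) ≃+
      Additive (FinIdele ↥E ⧸
        (principalIdeles ↥E ⊔ FinIdele.unitsOutside ↥E (S : Set Nat.Primes))) :=
  (AddEquiv.ofBijective (sClassToInv hS hE) (sClassToInv_bijective hS hsplit hE)).symm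

theorem invDSEquiv_symm_apply (hS : S.Nonempty) (hsplit : UnitsCocyclesSplit (S : Set Nat.Primes))
    (hE : E.IsUnramifiedOutside S)
    (q : Additive (FinIdele ↥E ⧸
      (principalIdeles ↥E ⊔ FinIdele.unitsOutside ↥E (S : Set Nat.Primes)))) :
    (invDSEquiv hS hsplit hE).symm q = sClassToInv hS hE q := rfl

end equiv

end Fermat.Agent.CFT.Arith
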