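/-
S55 (Poitou–Tate), package PT3 (arithmetic modules), helper7.
PT3.e: the ring homomorphism `ℚ_ℓ ⊗ Ω → PadicAlgCl ℓ` (`Ω = AlgebraicClosure ℚ`) and the
"infinite-level Shapiro" statements: `x ↦ (g ↦ toPadic (g • x))` identifies `ℚ_ℓ ⊗ Ω` with the
level-constant functions `f : Γ → PadicAlgCl ℓ` such that `f (ι τ * g) = τ (f g)` for
`τ ∈ Gal(PadicAlgCl ℓ / ℚ_ℓ)`.
-/
import Fermat.Agent.CFT.Arith.Basis_helper7
import Fermat.Agent.CFT.Local.PadicLevels

set_option autoImplicit false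
set_option linter.unusedSectionVars false
set_option linter.style.haveILetI false

open scoped TensorProduct Pointwise

namespace Fermat.Agent.CFT.Arith

open Fermat.Agent.CFT Fermat.Agent.CFT.Local

/-! ### Dedekind independence in matrix form -/

section dedekind

/-- If `σ_t : F → P` (`t ∈ T`) are pairwise distinct field embeddings, linear over a subfield `K`,
and `b` is a `K`-basis of `F` indexed by `T`, then the square matrix `(σ_t (b_i))` is
invertible. -/
theorem isUnit_embMatrix {K F P T : Type*} [Field K] [Field F] [Field P] [Module K F]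
    [Algebra K P] [Fintype T] [DecidableEq T] (σ : T → (F →+* P)) (hσ : Function.Injective σ)
    (hlin : ∀ t (q : K) (y : F), σ t (q • y) = algebraMap K P q * σ t y)
    (b : Module.Basis T K F) :
    IsUnit (Matrix.of fun t i => σ t (b i) : Matrix T T P) := by
  rw [← Matrix.vecMul_injective_iff_isUnit]
  have hadd : ∀ c c' : T → P, Matrix.vecMul (c - c') (Matrix.of fun t i => σ t (b i)) =
      Matrix.vecMul c (Matrix.of fun t i => σ t (b i)) -
        Matrix.vecMul c' (Matrix.of fun t i => σ t (b i)) := fun c c' => Matrix.sub_vecMul _ _ _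
  intro c c' hcc'
  have h0 : Matrix.vecMul (c - c') (Matrix.of fun t i => σ t (b i) : Matrix T T P) = 0 := by
    rw [hadd]
    exact sub_eq_zero.mpr hcc'
  suffices h : c - c' = 0 from sub_eq_zero.mp h
  set d := c - c' with hd
  have h1 : ∀ i, ∑ t, d t * σ t (b i) = 0 := by
    intro i
    have := congrFun h0 i
    simpa [Matrix.vecMul, dotProduct] using this
  -- the combination vanishes on all of `F`
  have h2 : ∀ y : F, ∑ t, d t * σ t y = 0 := by
    intro y
    have hy : y = ∑ i, b.repr y i • b i := (b.sum_repr y).symm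
    have h3 : ∀ t, σ t y = ∑ i, algebraMap K P (b.repr y i) * σ t (b i) := by
      intro t
      conv_lhs => rw [hy]
      rw [map_sum]
      exact Finset.sum_congr rfl fun i _ => hlin t _ _
    simp_rw [h3, Finset.mul_sum]
    rw [Finset.sum_comm]
    apply Finset.sum_eq_zero
    intro i _
    have h4 : ∀ t, d t * (algebraMap K P (b.repr y i) * σ t (b i)) =
        algebraMap K P (b.repr y i) * (d t * σ t (b i)) := fun t => by ring
    simp_rw [h4]
    rw [← Finset.mul_sum, h1 i, mul_zero]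
  -- Dedekind
  have hli : LinearIndependent P (fun t : T => ((σ t : F →* P) : F → P)) :=
    (linearIndependent_monoidHom F P).comp (fun t : T => ((σ t : F →+* P) : F →* P))
      (fun t t' h => hσ (RingHom.ext fun y => congrArg (fun f : F →* P => f y) h))
  rw [Fintype.linearIndependent_iff] at hli
  funext t
  apply hli d
  funext y
  have := h2 y
  simpa using this

end dedekind

/-! ### The map `ℚ_ℓ ⊗ Ω → PadicAlgCl ℓ` -/

section toPadic

/-- `Ω = AlgebraicClosure ℚ`. -/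
local notation "Ω" => AlgebraicClosure ℚ
/-- `Γ = Gal(Ω/ℚ)`. -/
local notation "Γ" => (AlgebraicClosure ℚ ≃ₐ[ℚ] AlgebraicClosure ℚ)

variable (ℓ : ℕ) [Fact ℓ.Prime]

/-- The ring homomorphism `ℚ_ℓ ⊗ Ω → PadicAlgCl ℓ`, `a ⊗ x ↦ a · emb x`, where `emb` is the fixed
embedding `padicEmbedding ℓ` of the Prelude. -/
noncomputable def toPadic : SemiLocal ℓ Ω →ₐ[ℚ_[ℓ]] PadicAlgCl ℓ :=
  Algebra.TensorProduct.lift (Algebra.ofId ℚ_[ℓ] (PadicAlgCl ℓ)) (padicEmbedding ℓ)
    (fun _ _ => Commute.all _ _)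

theorem toPadic_tmul (a : ℚ_[ℓ]) (x : Ω) :
    toPadic ℓ (a ⊗ₜ[ℚ] x) = algebraMap ℚ_[ℓ] (PadicAlgCl ℓ) a * padicEmbedding ℓ x := by
  rw [toPadic, Algebra.TensorProduct.lift_tmul]
  rfl

theorem toPadic_of (x : Ω) : toPadic ℓ (SemiLocal.of ℓ Ω x) = padicEmbedding ℓ x := by
  rw [SemiLocal.of_apply, toPadic_tmul, map_one, one_mul]

/-- `toPadic` is equivariant for `G_ℓ → Γ`. -/
theorem toPadic_smul (τ : PadicAlgCl ℓ ≃ₐ[ℚ_[ℓ]] PadicAlgCl ℓ) (x : SemiLocal ℓ Ω) :
    toPadic ℓ (localGaloisToGlobal ℓ τ • x) = τ (toPadic ℓ x) := by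
  induction x using TensorProduct.induction_on with
  | zero => simp
  | tmul a y =>
    rw [SemiLocal.smul_tmul', toPadic_tmul, toPadic_tmul, map_mul, τ.commutes]
    congr 1
    exact padicEmbedding_localGaloisToGlobal ℓ τ y
  | add x y hx hy => rw [smul_add, map_add, hx, hy, map_add, map_add]

/-! ### The conjugate embeddings of a finite level -/

variable (F : IntermediateField ℚ Ω)

/-- the embedding `y ↦ emb (g y)` of `F` into `PadicAlgCl ℓ`. -/
noncomputable def embAt (g : Γ) : F →+* PadicAlgCl ℓ :=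
  (padicEmbedding ℓ).toRingHom.comp ((g : Ω →+* Ω).comp (algebraMap F Ω))

theorem embAt_apply (g : Γ) (y : F) : embAt ℓ F g y = padicEmbedding ℓ (g (y : Ω)) := rfl

theorem embAt_mul_of_mem (g : Γ) {s : Γ} (hs : s ∈ F.fixingSubgroup) :
    embAt ℓ F (g * s) = embAt ℓ F g := by
  ext y
  rw [embAt_apply, embAt_apply, AlgEquiv.mul_apply,
    (IntermediateField.mem_fixingSubgroup_iff F s).mp hs _ y.2]

theorem embAt_eq_iff (g g' : Γ) : embAt ℓ F g = embAt ℓ F g' ↔ g⁻¹ * g' ∈ F.fixingSubgroup := by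
  rw [IntermediateField.mem_fixingSubgroup_iff]
  constructor
  · intro h y hy
    have h1 := congrArg (fun f : F →+* PadicAlgCl ℓ => f ⟨y, hy⟩) h
    have h2 : g y = g' y := (padicEmbedding ℓ).injective h1
    change g⁻¹ (g' y) = y
    rw [← h2, ← AlgEquiv.mul_apply, inv_mul_cancel]
    rfl
  · intro h
    ext y
    have h1 := h _ y.2
    change g⁻¹ (g' (y : Ω)) = y at h1
    have h2 := congrArg g h1
    rw [← AlgEquiv.mul_apply, mul_inv_cancel] at h2
    rw [embAt_apply, embAt_apply]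
    exact congrArg (padicEmbedding ℓ) h2.symm

theorem embAt_out (g : Γ) :
    embAt ℓ F (QuotientGroup.mk (s := F.fixingSubgroup) g).out = embAt ℓ F g := by
  obtain ⟨s, hs⟩ := QuotientGroup.mk_out_eq_mul F.fixingSubgroup g
  rw [hs]
  exact embAt_mul_of_mem ℓ F g s.2

theorem embAt_localGaloisToGlobal_mul (τ : PadicAlgCl ℓ ≃ₐ[ℚ_[ℓ]] PadicAlgCl ℓ) (g : Γ) (y : F) :
    embAt ℓ F (localGaloisToGlobal ℓ τ * g) y = τ (embAt ℓ F g y) := by
  rw [embAt_apply, embAt_apply, AlgEquiv.mul_apply]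
  exact padicEmbedding_localGaloisToGlobal ℓ τ _

theorem embAt_rat_smul (g : Γ) (q : ℚ) (y : F) :
    embAt ℓ F g (q • y) = algebraMap ℚ (PadicAlgCl ℓ) q * embAt ℓ F g y := by
  rw [map_rat_smul, Algebra.smul_def]

/-- the value of `toPadic` on the conjugates of an element of `ℚ_ℓ ⊗ F`. -/
theorem toPadic_smul_map_sum {T : Type*} [Fintype T] (c : T → ℚ_[ℓ]) (b : T → F) (g : Γ) :
    toPadic ℓ (g • SemiLocal.map ℓ (algebraMap F Ω) (∑ i, (c i ⊗ₜ[ℚ] b i : SemiLocal ℓ F))) =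
      ∑ i, embAt ℓ F g (b i) * algebraMap ℚ_[ℓ] (PadicAlgCl ℓ) (c i) := by
  rw [map_sum, Finset.smul_sum, map_sum]
  refine Finset.sum_congr rfl fun i _ => ?_
  rw [SemiLocal.map_tmul, SemiLocal.smul_tmul', toPadic_tmul, mul_comm]
  rfl

/-- **Dedekind**: for a finite `F`, there is a basis of `F` indexed by `Γ ⧸ Gal(Ω/F)` such that
the matrix of conjugate embeddings is invertible. -/
theorem exists_basis_isUnit_embMatrix [FiniteDimensional ℚ F]
    [Fintype (Γ ⧸ F.fixingSubgroup)] [DecidableEq (Γ ⧸ F.fixingSubgroup)] :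
    ∃ b : Module.Basis (Γ ⧸ F.fixingSubgroup) ℚ F,
      IsUnit (Matrix.of fun (t : Γ ⧸ F.fixingSubgroup) (i : Γ ⧸ F.fixingSubgroup) =>
        embAt ℓ F t.out (b i) : Matrix (Γ ⧸ F.fixingSubgroup) (Γ ⧸ F.fixingSubgroup)
          (PadicAlgCl ℓ)) := by
  have hcard : Fintype.card (Fin (Module.finrank ℚ F)) = Fintype.card (Γ ⧸ F.fixingSubgroup) := by
    rw [Fintype.card_fin, IntermediateField.finrank_eq_fixingSubgroup_index, Subgroup.index,
      Nat.card_eq_fintype_card]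
  obtain ⟨b⟩ : Nonempty (Module.Basis (Γ ⧸ F.fixingSubgroup) ℚ F) :=
    ⟨(Module.finBasis ℚ F).reindex (Fintype.equivOfCardEq hcard)⟩
  have hinj : Function.Injective (fun t : Γ ⧸ F.fixingSubgroup => embAt ℓ F t.out) := by
    intro t t' h
    have h1 := (embAt_eq_iff ℓ F t.out t'.out).mp h
    rw [← QuotientGroup.out_eq' t, ← QuotientGroup.out_eq' t']
    exact QuotientGroup.eq.mpr h1
  have h3 := @isUnit_embMatrix ℚ F (PadicAlgCl ℓ) (Γ ⧸ F.fixingSubgroup) _ _ _ _ _ _ _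
    (fun t => embAt ℓ F t.out) hinj
  have h4 : ∀ (t : Γ ⧸ F.fixingSubgroup) (q : ℚ) (y : F), embAt ℓ F t.out (q • y) =
      algebraMap ℚ (PadicAlgCl ℓ) q * embAt ℓ F t.out y := by
    intro t q y
    rw [map_rat_smul, Algebra.smul_def]
  exact ⟨b, h3 h4 b⟩

theorem finite_quotient_fixingSubgroup [FiniteDimensional ℚ F] :
    Finite (Γ ⧸ F.fixingSubgroup) := by
  haveI := finiteIndex_fixingSubgroup F
  exact Subgroup.finite_quotient_of_finiteIndex

/-- a function on `Γ` which is right-invariant under `Gal(Ω/F)` only depends on the coset. -/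
theorem apply_out_eq {X : Type*} (f : Γ → X) (h2 : ∀ (g : Γ), ∀ s ∈ F.fixingSubgroup, f (g * s) = f g)
    (g : Γ) : f (QuotientGroup.mk (s := F.fixingSubgroup) g).out = f g := by
  obtain ⟨s, hs⟩ := QuotientGroup.mk_out_eq_mul F.fixingSubgroup g
  rw [hs]
  exact h2 g s s.2

/-- **Infinite-level Shapiro, injectivity**: an element of `ℚ_ℓ ⊗ F` (`F/ℚ` finite) all of whose
`Γ`-conjugates are killed by `toPadic` is zero. -/
theorem eq_zero_of_toPadic_smul_eq_zero [FiniteDimensional ℚ F] {x : SemiLocal ℓ Ω}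
    (hx : x ∈ (SemiLocal.map ℓ (algebraMap F Ω)).range)
    (h : ∀ g : Γ, toPadic ℓ (g • x) = 0) : x = 0 := by
  classical
  haveI := finite_quotient_fixingSubgroup F
  letI : Fintype (Γ ⧸ F.fixingSubgroup) := Fintype.ofFinite _
  obtain ⟨b, hb⟩ := exists_basis_isUnit_embMatrix ℓ F
  obtain ⟨z, rfl⟩ := hx
  obtain ⟨c, hc⟩ := TensorProduct.eq_repr_basis_right b z
  have hz : z = ∑ i, (c i ⊗ₜ[ℚ] b i : SemiLocal ℓ F) := by
    rw [← hc, Finsupp.sum_fintype]
    intro i
    exact TensorProduct.zero_tmul _ _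
  have hmul : (Matrix.of fun (t : Γ ⧸ F.fixingSubgroup) (i : Γ ⧸ F.fixingSubgroup) =>
      embAt ℓ F t.out (b i)).mulVec (fun i => algebraMap ℚ_[ℓ] (PadicAlgCl ℓ) (c i)) = 0 := by
    funext t
    have h1 := h t.out
    change toPadic ℓ (t.out • SemiLocal.map ℓ (algebraMap F Ω) z) = 0 at h1
    rw [hz, toPadic_smul_map_sum] at h1
    simpa [Matrix.mulVec, dotProduct] using h1
  have hzero := (Matrix.mulVec_injective_iff_isUnit.mpr hb)
    (hmul.trans (Matrix.mulVec_zero _).symm)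
  have hc0 : ∀ i, c i = 0 := by
    intro i
    apply (algebraMap ℚ_[ℓ] (PadicAlgCl ℓ)).injective
    rw [map_zero]
    exact congrFun hzero i
  change SemiLocal.map ℓ (algebraMap F Ω) z = 0
  rw [hz, map_sum]
  apply Finset.sum_eq_zero
  intro i _
  rw [hc0 i, TensorProduct.zero_tmul, map_zero]

/-- **Infinite-level Shapiro, surjectivity**: every function `f : Γ → PadicAlgCl ℓ` which is
right-invariant under `Gal(Ω/F)` (`F/ℚ` finite) and equivariant for `G_ℓ → Γ` comes from a unique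
element of `ℚ_ℓ ⊗ F`. -/
theorem exists_toPadic_smul_eq [FiniteDimensional ℚ F] (f : Γ → PadicAlgCl ℓ)
    (h1 : ∀ (τ : PadicAlgCl ℓ ≃ₐ[ℚ_[ℓ]] PadicAlgCl ℓ) (g : Γ),
      f (localGaloisToGlobal ℓ τ * g) = τ (f g))
    (h2 : ∀ (g : Γ), ∀ s ∈ F.fixingSubgroup, f (g * s) = f g) :
    ∃ x ∈ (SemiLocal.map ℓ (algebraMap F Ω)).range, ∀ g : Γ, toPadic ℓ (g • x) = f g := by
  classical
  haveI := finite_quotient_fixingSubgroup F
  letI : Fintype (Γ ⧸ F.fixingSubgroup) := Fintype.ofFinite _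
  obtain ⟨b, hb⟩ := exists_basis_isUnit_embMatrix ℓ F
  set N : Matrix (Γ ⧸ F.fixingSubgroup) (Γ ⧸ F.fixingSubgroup) (PadicAlgCl ℓ) :=
    Matrix.of fun (t : Γ ⧸ F.fixingSubgroup) (i : Γ ⧸ F.fixingSubgroup) =>
      embAt ℓ F t.out (b i) with hN
  obtain ⟨a, ha⟩ := (Matrix.mulVec_surjective_iff_isUnit.mpr hb)
    (fun t : Γ ⧸ F.fixingSubgroup => f t.out)
  have ha' : ∀ t : Γ ⧸ F.fixingSubgroup, ∑ i, embAt ℓ F t.out (b i) * a i = f t.out := by
    intro t
    have := congrFun ha t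
    simpa [hN, Matrix.mulVec, dotProduct] using this
  -- the coefficients are fixed by `G_ℓ`
  have hfix : ∀ (τ : PadicAlgCl ℓ ≃ₐ[ℚ_[ℓ]] PadicAlgCl ℓ) (i : Γ ⧸ F.fixingSubgroup),
      τ (a i) = a i := by
    intro τ
    have h3 : N.mulVec (fun i => τ (a i)) = N.mulVec a := by
      rw [ha]
      funext t
      set g' : Γ := localGaloisToGlobal ℓ τ⁻¹ * t.out with hg'
      have hg : t.out = localGaloisToGlobal ℓ τ * g' := by
        rw [hg', ← mul_assoc, ← map_mul, mul_inv_cancel, map_one, one_mul]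
      have h4 : ∀ i, embAt ℓ F t.out (b i) =
          τ (embAt ℓ F (QuotientGroup.mk (s := F.fixingSubgroup) g').out (b i)) := by
        intro i
        rw [embAt_out, hg, embAt_localGaloisToGlobal_mul]
      have h5 : N.mulVec (fun i => τ (a i)) t = ∑ i, embAt ℓ F t.out (b i) * τ (a i) := by
        simp [hN, Matrix.mulVec, dotProduct]
      rw [h5]
      simp_rw [h4, ← map_mul]
      rw [← map_sum, ha', apply_out_eq F f h2, ← h1, ← hg]
    exact fun i => congrFun (Matrix.mulVec_injective_iff_isUnit.mpr hb h3) i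
  -- hence they lie in `ℚ_ℓ`
  have hmem : ∀ i, ∃ c : ℚ_[ℓ], algebraMap ℚ_[ℓ] (PadicAlgCl ℓ) c = a i := by
    intro i
    have h6 : a i ∈ (⊥ : IntermediateField ℚ_[ℓ] (PadicAlgCl ℓ)) :=
      mem_of_fixed ⊥ (fun τ _ => hfix τ i)
    exact IntermediateField.mem_bot.mp h6
  choose c hc using hmem
  refine ⟨SemiLocal.map ℓ (algebraMap F Ω) (∑ i, (c i ⊗ₜ[ℚ] b i : SemiLocal ℓ F)), ⟨_, rfl⟩, ?_⟩
  intro g
  rw [toPadic_smul_map_sum]
  simp_rw [hc]
  have h7 := ha' (QuotientGroup.mk (s := F.fixingSubgroup) g)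
  rw [embAt_out, apply_out_eq F f h2] at h7
  exact h7

end toPadic

end Fermat.Agent.CFT.Arith
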