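/-
S55 (Poitou–Tate), package PT3 (arithmetic modules), helper7.
PT3.e (continued): the local module `J_v = (ℚ_S·ℚ_ℓ)ˣ ⊆ (PadicAlgCl ℓ)ˣ` and the infinite-level
Shapiro isomorphism `(ℚ_ℓ ⊗ ℚ_S)ˣ ≅ smooth part of coInd_{G_ℓ}^{Γ} J_v`.
-/
import Fermat.Agent.CFT.Arith.ToPadic_helper7
import Fermat.Agent.CFT.Sm.Injectives_helper9

set_option autoImplicit false
set_option linter.unusedSectionVars false
set_option linter.style.haveILetI false

open scoped TensorProduct Pointwise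
open CategoryTheory Rep

namespace Fermat.Agent.CFT.Arith

open Fermat.Agent.CFT Fermat.Agent.CFT.Local

section levelUnitsS

/-- `Ω = AlgebraicClosure ℚ`. -/
local notation "Ω" => AlgebraicClosure ℚ
/-- `Γ = Gal(Ω/ℚ)`. -/
local notation "Γ" => (AlgebraicClosure ℚ ≃ₐ[ℚ] AlgebraicClosure ℚ)

variable (S : Finset Nat.Primes) (ℓ : ℕ) [Fact ℓ.Prime]

/-- `J_v`: the units of `PadicAlgCl ℓ` lying in `F·ℚ_ℓ` for some level `F` (finite Galois over
`ℚ`, unramified outside `S`), i.e. `(ℚ_S·ℚ_ℓ)ˣ`. -/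
def levelUnitsS : Subgroup (PadicAlgCl ℓ)ˣ where
  carrier := {x | ∃ F : IntermediateField ℚ Ω, IsLevel S F ∧
    (x : PadicAlgCl ℓ) ∈ localLevel ℓ F}
  mul_mem' := by
    rintro x y ⟨F, hF, hx⟩ ⟨F', hF', hy⟩
    refine ⟨F ⊔ F', hF.sup hF', ?_⟩
    rw [Units.val_mul]
    exact mul_mem (localLevel_mono le_sup_left hx) (localLevel_mono le_sup_right hy)
  one_mem' := ⟨⊥, isLevel_bot, by rw [Units.val_one]; exact one_mem _⟩
  inv_mem' := by
    rintro x ⟨F, hF, hx⟩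
    refine ⟨F, hF, ?_⟩
    rw [Units.val_inv_eq_inv_val]
    exact inv_mem hx

variable {S ℓ}

theorem mem_levelUnitsS_iff {x : (PadicAlgCl ℓ)ˣ} : x ∈ levelUnitsS S ℓ ↔
    ∃ F : IntermediateField ℚ Ω, IsLevel S F ∧ (x : PadicAlgCl ℓ) ∈ localLevel ℓ F := Iff.rfl

theorem levelUnitsS_le_levelUnits : levelUnitsS S ℓ ≤ levelUnits ℓ := by
  rintro x ⟨F, hF, hx⟩
  exact ⟨F, hF.finiteDimensional, hx⟩

theorem smul_mem_levelUnitsS (τ : PadicAlgCl ℓ ≃ₐ[ℚ_[ℓ]] PadicAlgCl ℓ) {x : (PadicAlgCl ℓ)ˣ}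
    (hx : x ∈ levelUnitsS S ℓ) : τ • x ∈ levelUnitsS S ℓ := by
  obtain ⟨F, hF, hx⟩ := hx
  refine ⟨F, hF, ?_⟩
  haveI := normal_localLevel (q := ℓ) (F := F) hF.2
  have h1 := (IntermediateField.normal_iff_forall_map_le' (K := localLevel ℓ F)).1 inferInstance τ
  exact h1 ⟨x, hx, rfl⟩

/-- `G_ℓ` acts on `J_v`. -/
noncomputable instance levelUnitsSAction :
    MulDistribMulAction (PadicAlgCl ℓ ≃ₐ[ℚ_[ℓ]] PadicAlgCl ℓ) (levelUnitsS S ℓ) where
  smul τ x := ⟨τ • (x : (PadicAlgCl ℓ)ˣ), smul_mem_levelUnitsS τ x.2⟩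
  one_smul x := Subtype.ext (one_smul _ (x : (PadicAlgCl ℓ)ˣ))
  mul_smul σ τ x := Subtype.ext (mul_smul σ τ (x : (PadicAlgCl ℓ)ˣ))
  smul_mul τ x y := Subtype.ext (smul_mul' τ (x : (PadicAlgCl ℓ)ˣ) (y : (PadicAlgCl ℓ)ˣ))
  smul_one τ := Subtype.ext (smul_one τ)

theorem coe_smul_levelUnitsS (τ : PadicAlgCl ℓ ≃ₐ[ℚ_[ℓ]] PadicAlgCl ℓ) (x : levelUnitsS S ℓ) :
    (((τ • x : levelUnitsS S ℓ) : (PadicAlgCl ℓ)ˣ) : PadicAlgCl ℓ) =
      τ ((x : (PadicAlgCl ℓ)ˣ) : PadicAlgCl ℓ) := rfl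

/-- the elements of `J_v` fixed by the preimage of `Gal(Ω/F)` are the units of `F·ℚ_ℓ`. -/
theorem levelUnitsS_fixed_iff (F : IntermediateField ℚ Ω) (x : levelUnitsS S ℓ) :
    (∀ τ : PadicAlgCl ℓ ≃ₐ[ℚ_[ℓ]] PadicAlgCl ℓ, localGaloisToGlobal ℓ τ ∈ F.fixingSubgroup →
      τ • x = x) ↔ (((x : (PadicAlgCl ℓ)ˣ) : PadicAlgCl ℓ)) ∈ localLevel ℓ F := by
  constructor
  · intro h
    apply mem_of_fixed
    intro τ hτ
    have h1 := h τ ((mem_fixingSubgroup_localLevel_iff F τ).mp hτ)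
    exact congrArg (fun y : levelUnitsS S ℓ => (((y : (PadicAlgCl ℓ)ˣ)) : PadicAlgCl ℓ)) h1
  · intro h τ hτ
    apply Subtype.ext
    apply Units.ext
    exact (IntermediateField.mem_fixingSubgroup_iff _ _).1
      ((mem_fixingSubgroup_localLevel_iff F τ).mpr hτ) _ h

variable (S ℓ) in
/-- `J_v` as a representation of `G_ℓ` over `ℤ`. -/
noncomputable def levelUnitsSRep : Rep ℤ (PadicAlgCl ℓ ≃ₐ[ℚ_[ℓ]] PadicAlgCl ℓ) :=
  Rep.ofMulDistribMulAction (PadicAlgCl ℓ ≃ₐ[ℚ_[ℓ]] PadicAlgCl ℓ) (levelUnitsS S ℓ)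

end levelUnitsS

/-! ### `toPadic` on units and the Shapiro map -/

section shapiro

/-- `Ω = AlgebraicClosure ℚ`. -/
local notation "Ω" => AlgebraicClosure ℚ
/-- `Γ = Gal(Ω/ℚ)`. -/
local notation "Γ" => (AlgebraicClosure ℚ ≃ₐ[ℚ] AlgebraicClosure ℚ)

variable (S : Finset Nat.Primes) (ℓ : ℕ) [Fact ℓ.Prime]

/-- `toPadic` maps `ℚ_ℓ ⊗ F` into `F·ℚ_ℓ`. -/
theorem toPadic_map_mem_localLevel (F : IntermediateField ℚ Ω) (z : SemiLocal ℓ F) :
    toPadic ℓ (SemiLocal.map ℓ (algebraMap F Ω) z) ∈ localLevel ℓ F := by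
  induction z using TensorProduct.induction_on with
  | zero => rw [map_zero, map_zero]; exact zero_mem _
  | tmul a y =>
    rw [SemiLocal.map_tmul, toPadic_tmul]
    exact mul_mem (algebraMap_mem _ a) (padicEmbedding_mem_localLevel y.2)
  | add x y hx hy => rw [map_add, map_add]; exact add_mem hx hy

/-- `toPadic` on units. -/
noncomputable def toPadicUnits : (SemiLocal ℓ Ω)ˣ →* (PadicAlgCl ℓ)ˣ :=
  Units.map ((toPadic ℓ : SemiLocal ℓ Ω →ₐ[ℚ_[ℓ]] PadicAlgCl ℓ) : SemiLocal ℓ Ω →* PadicAlgCl ℓ)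

theorem coe_toPadicUnits (x : (SemiLocal ℓ Ω)ˣ) :
    ((toPadicUnits ℓ x : (PadicAlgCl ℓ)ˣ) : PadicAlgCl ℓ) = toPadic ℓ (x : SemiLocal ℓ Ω) := rfl

theorem toPadicUnits_smul (τ : PadicAlgCl ℓ ≃ₐ[ℚ_[ℓ]] PadicAlgCl ℓ) (x : (SemiLocal ℓ Ω)ˣ) :
    toPadicUnits ℓ (localGaloisToGlobal ℓ τ • x) = τ • toPadicUnits ℓ x := by
  apply Units.ext
  rw [coe_toPadicUnits, SemiLocal.coe_smul_units, toPadic_smul]
  rfl

/-- on the diagonal image of `Ωˣ`, `toPadic` is the fixed embedding `Ω → PadicAlgCl ℓ`. -/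
theorem coe_toPadicUnits_ofUnits (x : Ωˣ) :
    ((toPadicUnits ℓ (SemiLocal.ofUnits ℓ x) : (PadicAlgCl ℓ)ˣ) : PadicAlgCl ℓ) =
      padicEmbedding ℓ (x : Ω) := by
  rw [coe_toPadicUnits]
  exact toPadic_of ℓ (x : Ω)

variable {S ℓ}

/-- `toPadic` maps `(ℚ_ℓ ⊗ ℚ_S)ˣ` into `J_v`. -/
theorem toPadicUnits_mem_levelUnitsS {x : (SemiLocal ℓ Ω)ˣ} (hx : x ∈ JSl S ℓ) :
    toPadicUnits ℓ x ∈ levelUnitsS S ℓ := by
  obtain ⟨F, hF, ⟨z, rfl⟩⟩ := mem_JSl_iff_exists_isLevel.mp hx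
  refine ⟨F, hF, ?_⟩
  rw [coe_toPadicUnits, SemiLocal.coe_unitsMap]
  exact toPadic_map_mem_localLevel ℓ F _

variable (S ℓ)

/-- The Shapiro map: `x ↦ (g ↦ toPadic (g • x))`, from `(ℚ_ℓ ⊗ ℚ_S)ˣ` to functions `Γ → J_v`. -/
noncomputable def shapiroFun (x : JSl S ℓ) (g : Γ) : levelUnitsS S ℓ :=
  ⟨toPadicUnits ℓ (((g • x : JSl S ℓ)) : (SemiLocal ℓ Ω)ˣ), toPadicUnits_mem_levelUnitsS (g • x).2⟩

variable {S ℓ}

theorem coe_shapiroFun (x : JSl S ℓ) (g : Γ) :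
    (((shapiroFun S ℓ x g : levelUnitsS S ℓ) : (PadicAlgCl ℓ)ˣ) : PadicAlgCl ℓ) =
      toPadic ℓ (g • ((x : (SemiLocal ℓ Ω)ˣ) : SemiLocal ℓ Ω)) := by
  rw [shapiroFun]
  change toPadic ℓ (((g • (x : (SemiLocal ℓ Ω)ˣ) : (SemiLocal ℓ Ω)ˣ) : SemiLocal ℓ Ω)) = _
  rw [SemiLocal.coe_smul_units]

theorem shapiroFun_one (g : Γ) : shapiroFun S ℓ 1 g = 1 := by
  apply Subtype.ext
  change toPadicUnits ℓ ((g • (1 : JSl S ℓ) : JSl S ℓ) : (SemiLocal ℓ Ω)ˣ) = 1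
  rw [smul_one]
  exact map_one _

theorem shapiroFun_mul (x y : JSl S ℓ) (g : Γ) :
    shapiroFun S ℓ (x * y) g = shapiroFun S ℓ x g * shapiroFun S ℓ y g := by
  apply Subtype.ext
  change toPadicUnits ℓ ((g • (x * y) : JSl S ℓ) : (SemiLocal ℓ Ω)ˣ) =
    toPadicUnits ℓ ((g • x : JSl S ℓ) : (SemiLocal ℓ Ω)ˣ) *
      toPadicUnits ℓ ((g • y : JSl S ℓ) : (SemiLocal ℓ Ω)ˣ)
  rw [smul_mul']
  exact map_mul _ _ _

/-- `Γ`-equivariance: `Γ` acts on functions by right translation. -/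
theorem shapiroFun_smul (γ : Γ) (x : JSl S ℓ) (g : Γ) :
    shapiroFun S ℓ (γ • x) g = shapiroFun S ℓ x (g * γ) := by
  apply Subtype.ext
  change toPadicUnits ℓ ((g • γ • x : JSl S ℓ) : (SemiLocal ℓ Ω)ˣ) =
    toPadicUnits ℓ (((g * γ) • x : JSl S ℓ) : (SemiLocal ℓ Ω)ˣ)
  rw [mul_smul]

/-- the values are `G_ℓ`-equivariant. -/
theorem shapiroFun_localGaloisToGlobal_mul (τ : PadicAlgCl ℓ ≃ₐ[ℚ_[ℓ]] PadicAlgCl ℓ)
    (x : JSl S ℓ) (g : Γ) :
    shapiroFun S ℓ x (localGaloisToGlobal ℓ τ * g) = τ • shapiroFun S ℓ x g := by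
  apply Subtype.ext
  change toPadicUnits ℓ (((localGaloisToGlobal ℓ τ * g) • x : JSl S ℓ) : (SemiLocal ℓ Ω)ˣ) =
    τ • toPadicUnits ℓ ((g • x : JSl S ℓ) : (SemiLocal ℓ Ω)ˣ)
  rw [mul_smul]
  exact toPadicUnits_smul ℓ τ _

/-- the values are level-constant. -/
theorem shapiroFun_mul_of_fixed {x : JSl S ℓ} {s : Γ} (hs : s • x = x) (g : Γ) :
    shapiroFun S ℓ x (g * s) = shapiroFun S ℓ x g := by
  rw [← shapiroFun_smul, hs]

/-! ### Bijectivity -/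

variable (ℓ)

/-- **units Shapiro, injectivity**. -/
theorem eq_of_toPadicUnits_smul_eq (F : IntermediateField ℚ Ω) [FiniteDimensional ℚ F]
    {x y : (SemiLocal ℓ Ω)ˣ} (hx : x ∈ (SemiLocal.unitsMap ℓ (algebraMap F Ω)).range)
    (hy : y ∈ (SemiLocal.unitsMap ℓ (algebraMap F Ω)).range)
    (h : ∀ g : Γ, toPadicUnits ℓ (g • x) = toPadicUnits ℓ (g • y)) : x = y := by
  obtain ⟨a, rfl⟩ := hx
  obtain ⟨b, rfl⟩ := hy
  apply Units.ext
  rw [SemiLocal.coe_unitsMap, SemiLocal.coe_unitsMap, ← sub_eq_zero, ← map_sub]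
  have hmem : SemiLocal.map ℓ (algebraMap F Ω) ((a : SemiLocal ℓ F) - (b : SemiLocal ℓ F)) ∈
      (SemiLocal.map ℓ (algebraMap F Ω)).range := ⟨_, rfl⟩
  apply eq_zero_of_toPadic_smul_eq_zero ℓ F hmem
  intro g
  have h1 := congrArg (fun u : (PadicAlgCl ℓ)ˣ => (u : PadicAlgCl ℓ)) (h g)
  simp only [coe_toPadicUnits, SemiLocal.coe_smul_units, SemiLocal.coe_unitsMap] at h1
  rw [map_sub, smul_sub, map_sub, h1, sub_self]

/-- **units Shapiro, surjectivity**: every function `f : Γ → (PadicAlgCl ℓ)ˣ` which is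
right-invariant under `Gal(Ω/F)` (`F/ℚ` finite) and equivariant for `G_ℓ → Γ` comes from a
unit of `ℚ_ℓ ⊗ F`. -/
theorem exists_toPadicUnits_smul_eq (F : IntermediateField ℚ Ω) [FiniteDimensional ℚ F]
    (f : Γ → (PadicAlgCl ℓ)ˣ)
    (h1 : ∀ (τ : PadicAlgCl ℓ ≃ₐ[ℚ_[ℓ]] PadicAlgCl ℓ) (g : Γ),
      f (localGaloisToGlobal ℓ τ * g) = τ • f g)
    (h2 : ∀ (g : Γ), ∀ s ∈ F.fixingSubgroup, f (g * s) = f g) :
    ∃ x ∈ (SemiLocal.unitsMap ℓ (algebraMap F Ω)).range,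
      ∀ g : Γ, toPadicUnits ℓ (g • x) = f g := by
  obtain ⟨x, ⟨a, rfl⟩, hx⟩ := exists_toPadic_smul_eq ℓ F (fun g => ((f g : (PadicAlgCl ℓ)ˣ) :
    PadicAlgCl ℓ)) (fun τ g => by rw [h1]; rfl) (fun g s hs => by rw [h2 g s hs])
  obtain ⟨x', ⟨a', rfl⟩, hx'⟩ := exists_toPadic_smul_eq ℓ F
    (fun g => (((f g)⁻¹ : (PadicAlgCl ℓ)ˣ) : PadicAlgCl ℓ))
    (fun τ g => by
      rw [h1, ← smul_inv']
      rfl) (fun g s hs => by rw [h2 g s hs])
  have hx : ∀ g : Γ, toPadic ℓ (g • SemiLocal.map ℓ (algebraMap F Ω) a) =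
      ((f g : (PadicAlgCl ℓ)ˣ) : PadicAlgCl ℓ) := hx
  have hx' : ∀ g : Γ, toPadic ℓ (g • SemiLocal.map ℓ (algebraMap F Ω) a') =
      (((f g)⁻¹ : (PadicAlgCl ℓ)ˣ) : PadicAlgCl ℓ) := hx'
  have haa' : a * a' = 1 := by
    apply SemiLocal.map_injective ℓ (algebraMap F Ω)
    rw [map_one, ← sub_eq_zero]
    have hmem : SemiLocal.map ℓ (algebraMap F Ω) (a * a') - 1 ∈
        (SemiLocal.map ℓ (algebraMap F Ω)).range := ⟨a * a' - 1, by
          change SemiLocal.map ℓ (algebraMap F Ω) (a * a' - 1) = _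
          rw [map_sub, map_one]⟩
    apply eq_zero_of_toPadic_smul_eq_zero ℓ F hmem
    intro g
    rw [smul_sub, map_sub, map_mul, smul_mul', map_mul, hx g, hx' g, smul_one, map_one,
      Units.mul_inv, sub_self]
  refine ⟨SemiLocal.unitsMap ℓ (algebraMap F Ω) ⟨a, a', haa', by rw [mul_comm]; exact haa'⟩,
    ⟨_, rfl⟩, fun g => ?_⟩
  apply Units.ext
  rw [coe_toPadicUnits, SemiLocal.coe_smul_units, SemiLocal.coe_unitsMap]
  exact hx g

/-- **Shapiro, injectivity** for `(ℚ_ℓ ⊗ ℚ_S)ˣ`. -/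
theorem shapiroFun_injective : Function.Injective (shapiroFun S ℓ) := by
  intro x y h
  obtain ⟨F, hF, hxF⟩ := mem_JSl_iff_exists_isLevel.mp x.2
  obtain ⟨F', hF', hyF'⟩ := mem_JSl_iff_exists_isLevel.mp y.2
  haveI := (hF.sup hF').finiteDimensional
  apply Subtype.ext
  apply eq_of_toPadicUnits_smul_eq ℓ (F ⊔ F') (range_unitsMap_mono ℓ le_sup_left hxF)
    (range_unitsMap_mono ℓ le_sup_right hyF')
  intro g
  exact congrArg (fun u : levelUnitsS S ℓ => (u : (PadicAlgCl ℓ)ˣ)) (congrFun h g)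

/-- **Shapiro, surjectivity** for `(ℚ_ℓ ⊗ ℚ_S)ˣ`: every `G_ℓ`-equivariant function `Γ → J_v` which
is right-invariant under `Gal(Ω/F)` for a level `F` comes from `(ℚ_ℓ ⊗ F)ˣ`. -/
theorem exists_shapiroFun_eq {F : IntermediateField ℚ Ω} (hF : F.IsUnramifiedOutside S)
    (f : Γ → levelUnitsS S ℓ)
    (h1 : ∀ (τ : PadicAlgCl ℓ ≃ₐ[ℚ_[ℓ]] PadicAlgCl ℓ) (g : Γ),
      f (localGaloisToGlobal ℓ τ * g) = τ • f g)
    (h2 : ∀ (g : Γ), ∀ s ∈ F.fixingSubgroup, f (g * s) = f g) :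
    ∃ x : JSl S ℓ, (∀ s ∈ F.fixingSubgroup, s • x = x) ∧ shapiroFun S ℓ x = f := by
  haveI := hF.1
  obtain ⟨x, hxF, hx⟩ := exists_toPadicUnits_smul_eq ℓ F
    (fun g => (f g : (PadicAlgCl ℓ)ˣ)) (fun τ g => by rw [h1]; rfl)
    (fun g s hs => by rw [h2 g s hs])
  refine ⟨⟨x, F, hF, hxF⟩, fun s hs => Subtype.ext ?_, ?_⟩
  · exact (units_mem_range_unitsMap_iff_fixed ℓ F x).mp hxF s hs
  · funext g
    apply Subtype.ext
    exact hx g

/-! ### The statement in terms of representations -/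

variable (S)

/-- `(ℚ_ℓ ⊗ ℚ_S)ˣ` as a representation of `Γ` over `ℤ`. -/
noncomputable def JSlRep : Rep ℤ Γ := Rep.ofMulDistribMulAction Γ (JSl S ℓ)

/-- The Shapiro map as an additive map into the coinduced module. -/
noncomputable def shapiroAddHom :
    Additive (JSl S ℓ) →+ (Rep.coind (localGaloisToGlobal ℓ) (levelUnitsSRep S ℓ)).V where
  toFun x := ⟨fun g => Additive.ofMul (shapiroFun S ℓ (Additive.toMul x) g), fun τ g =>
    congrArg Additive.ofMul (shapiroFun_localGaloisToGlobal_mul τ (Additive.toMul x) g)⟩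
  map_zero' := Subtype.ext (funext fun g => congrArg Additive.ofMul (shapiroFun_one g))
  map_add' x y := Subtype.ext (funext fun g =>
    congrArg Additive.ofMul (shapiroFun_mul (Additive.toMul x) (Additive.toMul y) g))

/-- The Shapiro map `(ℚ_ℓ ⊗ ℚ_S)ˣ → coInd_{G_ℓ}^Γ J_v` as a morphism of representations. -/
noncomputable def shapiroHom :
    JSlRep S ℓ ⟶ Rep.coind (localGaloisToGlobal ℓ) (levelUnitsSRep S ℓ) :=
  Rep.ofHom
    { toLinearMap := (shapiroAddHom S ℓ).toIntLinearMap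
      isIntertwining' := fun γ => LinearMap.ext fun x => Subtype.ext (funext fun g =>
        congrArg Additive.ofMul (shapiroFun_smul γ (Additive.toMul x) g)) }

theorem shapiroHom_apply (x : (JSlRep S ℓ).V) (g : Γ) :
    ((shapiroHom S ℓ).hom x).1 g =
      Additive.ofMul (shapiroFun S ℓ (Additive.toMul (α := JSl S ℓ) x) g) := rfl

theorem shapiroHom_injective : Function.Injective (shapiroHom S ℓ).hom := by
  intro x y h
  have h1 : shapiroFun S ℓ (Additive.toMul (α := JSl S ℓ) x) =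
      shapiroFun S ℓ (Additive.toMul (α := JSl S ℓ) y) := by
    funext g
    have h2 := congrFun (congrArg Subtype.val h) g
    exact congrArg Additive.toMul h2
  exact congrArg Additive.ofMul (shapiroFun_injective ℓ h1)

/-- `(ℚ_ℓ ⊗ ℚ_S)ˣ` is smooth for `𝒰_S`. -/
theorem isSmooth_JSlRep : Sm.IsSmooth (levelBasis S) (JSlRep S ℓ) := by
  intro a
  obtain ⟨F, hF, h⟩ := exists_isLevel_fixes_of_mem_JSl (Additive.toMul (α := JSl S ℓ) a).2
  exact ⟨_, fixingSubgroup_mem_levelBasis hF, fun g hg =>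
    congrArg Additive.ofMul (Subtype.ext (h g hg))⟩

/-- **infinite-level Shapiro**: the image of the Shapiro map is the smooth part of the coinduced
module. -/
theorem range_shapiroHom :
    LinearMap.range (shapiroHom S ℓ).hom.toLinearMap =
      Sm.smoothSub (levelBasis S) (Rep.coind (localGaloisToGlobal ℓ) (levelUnitsSRep S ℓ)) := by
  apply le_antisymm
  · rintro _ ⟨x, rfl⟩
    obtain ⟨U, hU, hx⟩ := isSmooth_JSlRep S ℓ x
    refine ⟨U, hU, fun g hg => ?_⟩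
    have h1 := Rep.hom_comm_apply (shapiroHom S ℓ) g x
    rw [hx g hg] at h1
    exact h1.symm
  · rintro f ⟨U, ⟨F, hF, rfl⟩, hf⟩
    have h1 : ∀ (τ : PadicAlgCl ℓ ≃ₐ[ℚ_[ℓ]] PadicAlgCl ℓ) (g : Γ),
        Additive.toMul (α := levelUnitsS S ℓ) (f.1 (localGaloisToGlobal ℓ τ * g)) =
          τ • Additive.toMul (α := levelUnitsS S ℓ) (f.1 g) := fun τ g =>
      congrArg Additive.toMul (f.2 τ g)
    have h2 : ∀ (g : Γ), ∀ s ∈ F.fixingSubgroup,
        Additive.toMul (α := levelUnitsS S ℓ) (f.1 (g * s)) =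
          Additive.toMul (α := levelUnitsS S ℓ) (f.1 g) := fun g s hs =>
      congrArg Additive.toMul (congrFun (congrArg Subtype.val (hf s hs)) g)
    obtain ⟨x, -, hx⟩ := exists_shapiroFun_eq ℓ hF.1
      (fun g => Additive.toMul (α := levelUnitsS S ℓ) (f.1 g)) h1 h2
    refine ⟨Additive.ofMul x, Subtype.ext (funext fun g => ?_)⟩
    exact congrArg Additive.ofMul (congrFun hx g)

/-- **infinite-level Shapiro** as an isomorphism
`(ℚ_ℓ ⊗ ℚ_S)ˣ ≅ smooth part of coInd_{G_ℓ}^Γ J_v`. -/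
noncomputable def shapiroLift :
    JSlRep S ℓ ⟶ Sm.smoothPart (levelBasis S)
      (Rep.coind (localGaloisToGlobal ℓ) (levelUnitsSRep S ℓ)) :=
  Sm.smoothLift (levelBasis S) (isSmooth_JSlRep S ℓ) (shapiroHom S ℓ)

theorem shapiroLift_comp_ι :
    shapiroLift S ℓ ≫ Sm.smoothPartι (levelBasis S) _ = shapiroHom S ℓ :=
  Sm.smoothLift_comp_ι _ _ _

theorem shapiroLift_bijective : Function.Bijective (shapiroLift S ℓ).hom := by
  constructor
  · intro x y h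
    apply shapiroHom_injective S ℓ
    have h1 := congrArg (Sm.smoothPartι (levelBasis S)
      (Rep.coind (localGaloisToGlobal ℓ) (levelUnitsSRep S ℓ))).hom h
    exact h1
  · intro y
    have hy : (Sm.smoothPartι (levelBasis S) _).hom y ∈
        LinearMap.range (shapiroHom S ℓ).hom.toLinearMap := by
      rw [range_shapiroHom]
      exact Sm.smoothPartι_mem _ _ y
    obtain ⟨x, hx⟩ := hy
    refine ⟨x, ?_⟩
    apply Sm.smoothPartι_injective (levelBasis S)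
    exact hx

theorem isIso_shapiroLift : IsIso (shapiroLift S ℓ) := by
  let e : (JSlRep S ℓ).ρ.Equiv (Sm.smoothPart (levelBasis S)
      (Rep.coind (localGaloisToGlobal ℓ) (levelUnitsSRep S ℓ))).ρ :=
    { (shapiroLift S ℓ).hom, Equiv.ofBijective _ (shapiroLift_bijective S ℓ) with }
  exact (Rep.mkIso e).isIso_hom

/-- **infinite-level Shapiro**: `(ℚ_ℓ ⊗ ℚ_S)ˣ ≅ smooth part of coInd_{G_ℓ}^Γ J_v`. -/
noncomputable def shapiroIso :
    JSlRep S ℓ ≅ Sm.smoothPart (levelBasis S)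
      (Rep.coind (localGaloisToGlobal ℓ) (levelUnitsSRep S ℓ)) :=
  haveI := isIso_shapiroLift S ℓ
  asIso (shapiroLift S ℓ)

theorem shapiroIso_hom : (shapiroIso S ℓ).hom = shapiroLift S ℓ := rfl

/-- the counit: evaluation at `1` of the Shapiro map is `toPadic`. -/
theorem shapiroHom_apply_one (x : (JSlRep S ℓ).V) :
    ((shapiroHom S ℓ).hom x).1 1 = Additive.ofMul
      (⟨toPadicUnits ℓ ((Additive.toMul (α := JSl S ℓ) x : JSl S ℓ) : (SemiLocal ℓ Ω)ˣ),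
        toPadicUnits_mem_levelUnitsS (Additive.toMul (α := JSl S ℓ) x).2⟩ : levelUnitsS S ℓ) := by
  rw [shapiroHom_apply]
  congr 1
  apply Subtype.ext
  change toPadicUnits ℓ (((1 : Γ) • (Additive.toMul (α := JSl S ℓ) x) : JSl S ℓ) :
    (SemiLocal ℓ Ω)ˣ) = _
  rw [one_smul]

end shapiro

/-! ### `J_S` is the (bi)product of its components -/

section components

/-- `Ω = AlgebraicClosure ℚ`. -/
local notation "Ω" => AlgebraicClosure ℚ
/-- `Γ = Gal(Ω/ℚ)`. -/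
local notation "Γ" => (AlgebraicClosure ℚ ≃ₐ[ℚ] AlgebraicClosure ℚ)

variable (S : Finset Nat.Primes)

/-- the projection `J_S → (ℚ_ℓ ⊗ ℚ_S)ˣ`. -/
noncomputable def JS.proj (ℓ : S) : JS S →* JSl S ((ℓ : Nat.Primes) : ℕ) where
  toFun x := x ℓ
  map_one' := rfl
  map_mul' _ _ := rfl

open Classical in
/-- the inclusion `(ℚ_ℓ ⊗ ℚ_S)ˣ → J_S`. -/
noncomputable def JS.single (ℓ : S) : JSl S ((ℓ : Nat.Primes) : ℕ) →* JS S where
  toFun x := (Pi.mulSingle ℓ x : ∀ ℓ' : S, JSl S ((ℓ' : Nat.Primes) : ℕ))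
  map_one' := Pi.mulSingle_one ℓ
  map_mul' x y := Pi.mulSingle_mul (f := fun ℓ' : S => JSl S ((ℓ' : Nat.Primes) : ℕ)) ℓ x y

variable {S}

theorem JS.proj_apply (ℓ : S) (x : JS S) : JS.proj S ℓ x = x ℓ := rfl

theorem JS.single_apply_same (ℓ : S) (x : JSl S ((ℓ : Nat.Primes) : ℕ)) :
    (JS.single S ℓ x) ℓ = x := by
  classical
  exact Pi.mulSingle_eq_same (M := fun ℓ' : S => JSl S ((ℓ' : Nat.Primes) : ℕ)) ℓ x

theorem JS.single_apply_of_ne {ℓ ℓ' : S} (h : ℓ' ≠ ℓ) (x : JSl S ((ℓ : Nat.Primes) : ℕ)) :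
    (JS.single S ℓ x) ℓ' = 1 := by
  classical
  exact Pi.mulSingle_eq_of_ne (M := fun ℓ' : S => JSl S ((ℓ' : Nat.Primes) : ℕ)) h x

theorem JS.proj_smul (ℓ : S) (σ : Γ) (x : JS S) : JS.proj S ℓ (σ • x) = σ • JS.proj S ℓ x := rfl

theorem JS.single_smul (ℓ : S) (σ : Γ) (x : JSl S ((ℓ : Nat.Primes) : ℕ)) :
    JS.single S ℓ (σ • x) = σ • JS.single S ℓ x := by
  apply JS.ext
  intro ℓ'
  by_cases h : ℓ' = ℓ
  · subst h
    rw [JS.smul_apply, JS.single_apply_same, JS.single_apply_same]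
  · rw [JS.smul_apply, JS.single_apply_of_ne h, JS.single_apply_of_ne h, smul_one]

theorem JS.prod_single_proj (x : JS S) : ∏ ℓ : S, JS.single S ℓ (JS.proj S ℓ x) = x := by
  classical
  apply JS.ext
  intro ℓ'
  have h1 : (∏ ℓ : S, JS.single S ℓ (JS.proj S ℓ x)) ℓ' =
      ∏ ℓ : S, (JS.single S ℓ (JS.proj S ℓ x)) ℓ' :=
    map_prod (JS.proj S ℓ') _ _
  rw [h1, Finset.prod_eq_single ℓ']
  · rw [JS.single_apply_same]; rfl
  · intro ℓ _ hne
    exact JS.single_apply_of_ne (Ne.symm hne) _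
  · intro h
    exact absurd (Finset.mem_univ _) h

variable (S)

/-- the projection `J_S → (ℚ_ℓ ⊗ ℚ_S)ˣ` as a morphism of representations. -/
noncomputable def projJSl (ℓ : S) : JSRep S ⟶ JSlRep S ((ℓ : Nat.Primes) : ℕ) :=
  Rep.ofHom
    { toLinearMap := (MonoidHom.toAdditive (JS.proj S ℓ)).toIntLinearMap
      isIntertwining' := fun _ => LinearMap.ext fun _ => rfl }

/-- the inclusion `(ℚ_ℓ ⊗ ℚ_S)ˣ → J_S` as a morphism of representations. -/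
noncomputable def inclJSl (ℓ : S) : JSlRep S ((ℓ : Nat.Primes) : ℕ) ⟶ JSRep S :=
  Rep.ofHom
    { toLinearMap := (MonoidHom.toAdditive (JS.single S ℓ)).toIntLinearMap
      isIntertwining' := fun σ => LinearMap.ext fun x => by
        change Additive.ofMul (JS.single S ℓ (σ • x.toMul)) =
          Additive.ofMul (σ • JS.single S ℓ x.toMul)
        rw [JS.single_smul] }

variable {S}

theorem inclJSl_projJSl (ℓ : S) : inclJSl S ℓ ≫ projJSl S ℓ = 𝟙 _ := by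
  ext x
  exact congrArg Additive.ofMul (JS.single_apply_same ℓ (Additive.toMul x))

theorem inclJSl_projJSl_of_ne {ℓ ℓ' : S} (h : ℓ' ≠ ℓ) : inclJSl S ℓ ≫ projJSl S ℓ' = 0 := by
  ext x
  exact congrArg Additive.ofMul (JS.single_apply_of_ne h (Additive.toMul x))

theorem sum_projJSl_inclJSl : ∑ ℓ : S, projJSl S ℓ ≫ inclJSl S ℓ = 𝟙 (JSRep S) := by
  ext x
  rw [Rep.sum_hom, Representation.IntertwiningMap.toLinearMap_sum, LinearMap.sum_apply]
  have h1 : ∀ ℓ : S, (Rep.Hom.hom (projJSl S ℓ ≫ inclJSl S ℓ)).toLinearMap x =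
      Additive.ofMul (JS.single S ℓ (JS.proj S ℓ (Additive.toMul (α := JS S) x))) := fun ℓ => rfl
  rw [Finset.sum_congr rfl fun ℓ _ => h1 ℓ]
  have h2 := ofMul_prod Finset.univ
    (fun ℓ : S => JS.single S ℓ (JS.proj S ℓ (Additive.toMul (α := JS S) x)))
  rw [JS.prod_single_proj] at h2
  exact h2.symm

end components

end Fermat.Agent.CFT.Arith
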