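/-
S55 (Poitou–Tate), package PT3 (arithmetic modules), helper7.
The arithmetic modules as objects of helper9's category `SmRep ℤ 𝒰_S`: the short exact sequence
`0 → E_S → J_S → C_S → 0`, the local modules `J_v`, and `J_{S,ℓ} ≅ coindSm J_v`.
-/
import Fermat.Agent.CFT.Arith.Shapiro_helper7
import Fermat.Agent.CFT.Sm.Functors_helper9
import Fermat.Agent.CFT.Sm.Exact_helper9

set_option autoImplicit false
set_option linter.unusedSectionVars false
set_option linter.style.haveILetI false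

open scoped TensorProduct Pointwise
open CategoryTheory

namespace Fermat.Agent.CFT.Arith

open Fermat.Agent.CFT Fermat.Agent.CFT.Local

section smobjects

/-- `Ω = AlgebraicClosure ℚ`. -/
local notation "Ω" => AlgebraicClosure ℚ
/-- `Γ = Gal(Ω/ℚ)`. -/
local notation "Γ" => (AlgebraicClosure ℚ ≃ₐ[ℚ] AlgebraicClosure ℚ)

variable (S : Finset Nat.Primes)

/-- `E_S` as a smooth representation. -/
noncomputable def ESSm : Sm.SmRep ℤ (levelBasis S) := ⟨ESRep S, isSmooth_ESRep⟩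

/-- `J_S` as a smooth representation. -/
noncomputable def JSSm : Sm.SmRep ℤ (levelBasis S) := ⟨JSRep S, isSmooth_JSRep⟩

/-- `C_S` as a smooth representation. -/
noncomputable def CSSm : Sm.SmRep ℤ (levelBasis S) := ⟨CSRep S, isSmooth_CSRep⟩

/-- `E_S → J_S` in `SmRep`. -/
noncomputable def diagESSm : ESSm S ⟶ JSSm S := ObjectProperty.homMk (diagESHom S)

/-- `J_S → C_S` in `SmRep`. -/
noncomputable def mkCSSm : JSSm S ⟶ CSSm S := ObjectProperty.homMk (mkCSHom S)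

theorem diagESSm_mkCSSm : diagESSm S ≫ mkCSSm S = 0 := by
  apply ObjectProperty.hom_ext
  apply Rep.hom_ext
  apply Representation.IntertwiningMap.ext
  apply LinearMap.ext
  intro x
  exact (diagESHom_mkCSHom_exact (S := S) _).mpr ⟨x, rfl⟩

/-- The short complex `E_S → J_S → C_S` in `SmRep ℤ 𝒰_S`. -/
noncomputable def arithComplex : ShortComplex (Sm.SmRep ℤ (levelBasis S)) :=
  ShortComplex.mk (diagESSm S) (mkCSSm S) (diagESSm_mkCSSm S)

variable {S}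

/-- `0 → E_S → J_S → C_S → 0` is short exact in `SmRep ℤ 𝒰_S`. -/
theorem arithComplex_shortExact (hS : S.Nonempty) : (arithComplex S).ShortExact := by
  rw [Sm.shortExact_iff]
  refine ⟨diagESHom_injective hS, fun b hb => ?_, mkCSHom_surjective⟩
  exact (diagESHom_mkCSHom_exact (S := S) b).mp hb

/-! ### The local modules -/

variable (S) (ℓ : ℕ) [Fact ℓ.Prime]

/-- the basis on `G_ℓ` pulled back from `𝒰_S`. -/
noncomputable abbrev localBasis : Sm.OpenBasis (PadicAlgCl ℓ ≃ₐ[ℚ_[ℓ]] PadicAlgCl ℓ) :=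
  (levelBasis S).comap (localGaloisToGlobal ℓ)

/-- `J_v` is smooth for the pulled-back basis. -/
theorem isSmooth_levelUnitsSRep : Sm.IsSmooth (localBasis S ℓ) (levelUnitsSRep S ℓ) := by
  intro a
  obtain ⟨F, hF, hx⟩ := (Additive.toMul (α := levelUnitsS S ℓ) a).2
  refine ⟨(F.fixingSubgroup).comap (localGaloisToGlobal ℓ),
    (Sm.OpenBasis.mem_comap_sets _ _).mpr ⟨_, fixingSubgroup_mem_levelBasis hF, rfl⟩,
    fun τ hτ => ?_⟩
  exact congrArg Additive.ofMul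
    ((levelUnitsS_fixed_iff F (Additive.toMul (α := levelUnitsS S ℓ) a)).mpr hx τ hτ)

/-- `J_v` as a smooth representation of `G_ℓ`. -/
noncomputable def JvSm : Sm.SmRep ℤ (localBasis S ℓ) :=
  ⟨levelUnitsSRep S ℓ, isSmooth_levelUnitsSRep S ℓ⟩

/-- `(ℚ_ℓ ⊗ ℚ_S)ˣ` as a smooth representation of `Γ`. -/
noncomputable def JSlSm : Sm.SmRep ℤ (levelBasis S) := ⟨JSlRep S ℓ, isSmooth_JSlRep S ℓ⟩

/-- **infinite-level Shapiro** in `SmRep`: `(ℚ_ℓ ⊗ ℚ_S)ˣ ≅ coindSm J_v`. -/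
noncomputable def shapiroSmIso :
    JSlSm S ℓ ≅ (Sm.coindSm ℤ (levelBasis S) (localBasis S ℓ) (localGaloisToGlobal ℓ)).obj
      (JvSm S ℓ) :=
  ObjectProperty.isoMk _ (shapiroIso S ℓ)

theorem coindSmFun_shapiroSmIso_hom (x : (JSlRep S ℓ).V) (g : Γ) :
    Sm.coindSmFun (localGaloisToGlobal ℓ) ((shapiroSmIso S ℓ).hom.hom.hom x) g =
      Additive.ofMul (shapiroFun S ℓ (Additive.toMul (α := JSl S ℓ) x) g) := rfl

/-- the projection `J_S → (ℚ_ℓ ⊗ ℚ_S)ˣ` in `SmRep`. -/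
noncomputable def projJSlSm (ℓ : S) : JSSm S ⟶ JSlSm S ((ℓ : Nat.Primes) : ℕ) :=
  ObjectProperty.homMk (projJSl S ℓ)

/-- the inclusion `(ℚ_ℓ ⊗ ℚ_S)ˣ → J_S` in `SmRep`. -/
noncomputable def inclJSlSm (ℓ : S) : JSlSm S ((ℓ : Nat.Primes) : ℕ) ⟶ JSSm S :=
  ObjectProperty.homMk (inclJSl S ℓ)

variable {S}

theorem inclJSlSm_projJSlSm (ℓ : S) : inclJSlSm S ℓ ≫ projJSlSm S ℓ = 𝟙 _ := by
  apply ObjectProperty.hom_ext
  exact inclJSl_projJSl ℓ

theorem inclJSlSm_projJSlSm_of_ne {ℓ ℓ' : S} (h : ℓ' ≠ ℓ) :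
    inclJSlSm S ℓ ≫ projJSlSm S ℓ' = 0 := by
  apply ObjectProperty.hom_ext
  exact inclJSl_projJSl_of_ne h

theorem sum_projJSlSm_inclJSlSm : ∑ ℓ : S, projJSlSm S ℓ ≫ inclJSlSm S ℓ = 𝟙 (JSSm S) := by
  apply ObjectProperty.hom_ext
  have h := sum_projJSl_inclJSl (S := S)
  have h2 : (∑ ℓ : S, projJSlSm S ℓ ≫ inclJSlSm S ℓ).hom =
      ∑ ℓ : S, (projJSlSm S ℓ ≫ inclJSlSm S ℓ).hom :=
    map_sum ((Sm.smoothProp ℤ (levelBasis S)).ι.mapAddHom (X := JSSm S) (Y := JSSm S)) _ _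
  rw [h2]
  exact h

/-! ### `E_S` is `p`-divisible with `p`-torsion `μ_p` -/

/-- `E_S` is `p`-divisible (`p ∈ S`). -/
theorem ESRep_divisible {p : ℕ} (hp : p.Prime) (hpS : (⟨p, hp⟩ : Nat.Primes) ∈ S)
    (a : (ESRep S).V) : ∃ b : (ESRep S).V, p • b = a := by
  obtain ⟨y, hy, hyx⟩ := exists_pow_eq_of_mem_ES hp hpS (Additive.toMul (α := ES S) a).2
  exact ⟨Additive.ofMul (⟨y, hy⟩ : ES S), congrArg Additive.ofMul (Subtype.ext hyx)⟩

/-- the `p`-torsion of `E_S` is `μ_p`: membership only depends on the underlying unit. -/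
theorem ESRep_torsion_iff {p : ℕ} (a : (ESRep S).V) :
    p • a = 0 ↔ ((Additive.toMul (α := ES S) a : ES S) : Ωˣ) ^ p = 1 := by
  constructor
  · intro h
    exact congrArg (fun z : ES S => (z : Ωˣ)) (congrArg Additive.toMul h)
  · intro h
    exact congrArg Additive.ofMul (Subtype.ext h)

/-- every `p`-th root of unity lies in `E_S` (`p ∈ S`). -/
theorem exists_ESRep_of_pow_eq_one {p : ℕ} (hp : p.Prime) (hpS : (⟨p, hp⟩ : Nat.Primes) ∈ S)
    {y : Ωˣ} (hy : y ^ p = 1) :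
    ∃ a : (ESRep S).V, ((Additive.toMul (α := ES S) a : ES S) : Ωˣ) = y :=
  ⟨Additive.ofMul (⟨y, mem_ES_of_pow_eq_one hp hpS hy⟩ : ES S), rfl⟩

end smobjects

end Fermat.Agent.CFT.Arith
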